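import Mathlib
import Fermat.Agent.Lib.X0.PlacesProof
import Fermat.Prelude.Def_AlgebraicCurve_Repartitions

/-!
# Project S20, slab (RR), piece (P2): adeles (repartitions) -- local leading-coefficient maps at
places of degree one, the one-step lemmas for `L(D)` and `A(D)`, the single-place repartition,
membership in the ring of repartitions, and domination by a divisor.  Owner: helper7.
-/

set_option autoImplicit false
set_option linter.unusedSectionVars false
set_option linter.style.haveILetI false

namespace Fermat.Agent.Lib.S20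

open AlgebraicCurve WithZero
open Fermat.Agent.Lib.X0

section Local

variable {k F : Type*} [Field k] [Field F] [Algebra k F]

/-- The residue field of a place of degree one is `k`. -/
theorem h7_residue_surjective (v : Place k F) (hv : v.deg = 1) :
    Function.Surjective (algebraMap k v.ResidueField) := by
  intro y
  have h1 : Module.finrank k v.ResidueField = 1 := hv
  obtain ⟨c, hc⟩ := (finrank_eq_one_iff_of_nonzero' (1 : v.ResidueField) one_ne_zero).mp h1 y
  exact ⟨c, by rw [← hc, Algebra.smul_def, mul_one]⟩

/-- The value at a place of degree one of an element of the valuation ring. -/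
noncomputable def h7_value (v : Place k F) (hv : v.deg = 1) : v.toValuationSubring →ₗ[k] k :=
  (LinearEquiv.ofBijective (Algebra.linearMap k v.ResidueField)
    ⟨(algebraMap k v.ResidueField).injective, h7_residue_surjective v hv⟩).symm.toLinearMap ∘ₗ
  (IsScalarTower.toAlgHom k v.toValuationSubring v.ResidueField).toLinearMap

theorem h7_value_eq_zero_iff (v : Place k F) (hv : v.deg = 1) (y : v.toValuationSubring) :
    h7_value v hv y = 0 ↔ y ∈ IsLocalRing.maximalIdeal v.toValuationSubring := by
  unfold h7_value
  rw [LinearMap.comp_apply, LinearEquiv.coe_coe, LinearEquiv.map_eq_zero_iff]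
  exact IsLocalRing.residue_eq_zero_iff y

theorem h7_value_algebraMap (v : Place k F) (hv : v.deg = 1) (c : k) :
    h7_value v hv (algebraMap k v.toValuationSubring c) = c := by
  unfold h7_value
  rw [LinearMap.comp_apply, LinearEquiv.coe_coe, LinearEquiv.symm_apply_eq]
  rw [AlgHom.toLinearMap_apply, AlgHom.commutes]
  rfl

/-- Elements of `F` of order at least `-m` at `v`. -/
def h7_ball (v : Place k F) (m : ℤ) : Submodule k F where
  carrier := {f | v.adicValuation f ≤ exp m}
  zero_mem' := by
    show v.adicValuation (0 : F) ≤ exp m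
    simp
  add_mem' := by
    intro f g hf hg
    have hf' : v.adicValuation f ≤ exp m := hf
    have hg' : v.adicValuation g ≤ exp m := hg
    exact (Valuation.map_add _ _ _).trans (max_le hf' hg')
  smul_mem' := by
    intro c f hf
    have hf' : v.adicValuation f ≤ exp m := hf
    show v.adicValuation (c • f) ≤ exp m
    rw [Algebra.smul_def, map_mul]
    exact (mul_le_of_le_one_left' (v.adicValuation_algebraMap_le_one c)).trans hf'

theorem h7_mem_ball_iff {v : Place k F} {m : ℤ} {f : F} :
    f ∈ h7_ball v m ↔ f = 0 ∨ -m ≤ v.ord f :=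
  v.adicValuation_le_exp_iff

theorem h7_mem_ball_iff' {v : Place k F} {m : ℤ} {f : F} :
    f ∈ h7_ball v m ↔ v.adicValuation f ≤ exp m := Iff.rfl

theorem h7_ord_ne_zero_of_ord_one {v : Place k F} {π : F} (hπ : v.ord π = 1) : π ≠ 0 := by
  rintro rfl
  simp at hπ

theorem h7_mul_mem_valuationSubring {v : Place k F} {π : F} (hπ : v.ord π = 1) {m : ℤ} {f : F}
    (hf : f ∈ h7_ball v m) : π ^ m * f ∈ v.toValuationSubring := by
  rcases h7_mem_ball_iff.mp hf with rfl | h
  · rw [mul_zero]; exact zero_mem _
  · by_cases hf0 : f = 0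
    · rw [hf0, mul_zero]; exact zero_mem _
    apply h4_mem_of_ord_nonneg
    rw [v.ord_mul (zpow_ne_zero _ (h7_ord_ne_zero_of_ord_one hπ)) hf0, v.ord_zpow, hπ]
    omega

/-- The leading coefficient map on `h7_ball v m`, with respect to the uniformizer `π`. -/
noncomputable def h7_lead (v : Place k F) (hv : v.deg = 1) (π : F) (hπ : v.ord π = 1) (m : ℤ) :
    h7_ball v m →ₗ[k] k :=
  h7_value v hv ∘ₗ
    { toFun := fun f => ⟨π ^ m * f.1, h7_mul_mem_valuationSubring hπ f.2⟩
      map_add' := by
        intro f g
        apply Subtype.ext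
        show π ^ m * (f.1 + g.1) = π ^ m * f.1 + π ^ m * g.1
        ring
      map_smul' := by
        intro c f
        apply Subtype.ext
        show π ^ m * (c • f.1) = algebraMap k F c * (π ^ m * f.1)
        rw [Algebra.smul_def]; ring }

theorem h7_lead_apply (v : Place k F) (hv : v.deg = 1) (π : F) (hπ : v.ord π = 1) (m : ℤ)
    (f : h7_ball v m) :
    h7_lead v hv π hπ m f = h7_value v hv ⟨π ^ m * f.1, h7_mul_mem_valuationSubring hπ f.2⟩ :=
  rfl

theorem h7_lead_eq_zero_iff (v : Place k F) (hv : v.deg = 1) (π : F) (hπ : v.ord π = 1) (m : ℤ)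
    (f : h7_ball v m) : h7_lead v hv π hπ m f = 0 ↔ f.1 ∈ h7_ball v (m - 1) := by
  rw [h7_lead_apply, h7_value_eq_zero_iff, h7_mem_ball_iff]
  have hπ0 := h7_ord_ne_zero_of_ord_one hπ
  by_cases hf0 : f.1 = 0
  · constructor
    · intro _; exact Or.inl hf0
    · intro _
      have : (⟨π ^ m * f.1, h7_mul_mem_valuationSubring hπ f.2⟩ : v.toValuationSubring) = 0 := by
        apply Subtype.ext
        show π ^ m * f.1 = 0
        rw [hf0, mul_zero]
      rw [this]
      exact Ideal.zero_mem _
  · have hne : (⟨π ^ m * f.1, h7_mul_mem_valuationSubring hπ f.2⟩ : v.toValuationSubring) ≠ 0 := by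
      intro h
      have := congrArg Subtype.val h
      exact mul_ne_zero (zpow_ne_zero _ hπ0) hf0 this
    rw [← h4_ord_pos_iff v _ hne]
    show 0 < v.ord (π ^ m * f.1) ↔ _
    rw [v.ord_mul (zpow_ne_zero _ hπ0) hf0, v.ord_zpow, hπ]
    constructor
    · intro h; right; omega
    · intro h
      rcases h with h | h
      · exact absurd h hf0
      · omega

theorem h7_zpow_mul_const_mem_ball (v : Place k F) (π : F) (hπ : v.ord π = 1) (m : ℤ) (c : k) :
    π ^ (-m) * algebraMap k F c ∈ h7_ball v m := by
  rw [h7_mem_ball_iff]
  by_cases hc : c = 0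
  · left; rw [hc, map_zero, mul_zero]
  · right
    have hc' : algebraMap k F c ≠ 0 := by rwa [Ne, map_eq_zero]
    rw [v.ord_mul (zpow_ne_zero _ (h7_ord_ne_zero_of_ord_one hπ)) hc', v.ord_zpow, hπ,
      h4_ord_const]
    omega

theorem h7_lead_zpow_mul_const (v : Place k F) (hv : v.deg = 1) (π : F) (hπ : v.ord π = 1)
    (m : ℤ) (c : k) :
    h7_lead v hv π hπ m ⟨π ^ (-m) * algebraMap k F c, h7_zpow_mul_const_mem_ball v π hπ m c⟩
      = c := by
  rw [h7_lead_apply]
  have hπ0 := h7_ord_ne_zero_of_ord_one hπ
  have : (⟨π ^ m * (π ^ (-m) * algebraMap k F c), h7_mul_mem_valuationSubring hπ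
      (h7_zpow_mul_const_mem_ball v π hπ m c)⟩ : v.toValuationSubring) =
      algebraMap k v.toValuationSubring c := by
    apply Subtype.ext
    show π ^ m * (π ^ (-m) * algebraMap k F c) = algebraMap k F c
    rw [← mul_assoc, ← zpow_add₀ hπ0]
    simp
  rw [this, h7_value_algebraMap]

theorem h7_exists_uniformizer (v : Place k F) : ∃ π : F, v.ord π = 1 := by
  obtain ⟨π, hπ⟩ := IsDiscreteValuationRing.exists_irreducible v.toValuationSubring
  exact ⟨π, v.ord_coe_irreducible hπ⟩

end Local


section Step

variable {k F : Type*} [Field k] [Field F] [Algebra k F]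

theorem h7_add_single_apply_self (D : Divisor k F) (v : Place k F) :
    (D + Finsupp.single v 1 : Divisor k F) v = D v + 1 := by
  rw [Finsupp.add_apply, Finsupp.single_eq_same]

theorem h7_add_single_apply_of_ne (D : Divisor k F) {v w : Place k F} (h : w ≠ v) :
    (D + Finsupp.single v 1 : Divisor k F) w = D w := by
  rw [Finsupp.add_apply, Finsupp.single_eq_of_ne h, add_zero]

theorem h7_rr_le_ball (D : Divisor k F) (v : Place k F) :
    riemannRochSpace D ≤ h7_ball v (D v) := by
  intro f hf
  rw [h7_mem_ball_iff']
  exact hf v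

/-- **The step for `L`** (generic form: the place `v` has degree one). -/
theorem h7_rr_step_of_deg (D : Divisor k F) (v : Place k F) (hv : v.deg = 1) :
    ∃ φ : riemannRochSpace (D + Finsupp.single v 1) →ₗ[k] k,
      ∀ f, φ f = 0 ↔ (f : F) ∈ riemannRochSpace D := by
  obtain ⟨π, hπ⟩ := h7_exists_uniformizer v
  refine ⟨(h7_lead v hv π hπ ((D + Finsupp.single v 1 : Divisor k F) v)) ∘ₗ
    Submodule.inclusion (h7_rr_le_ball (D + Finsupp.single v 1) v), ?_⟩
  intro f
  have hDv : (D + Finsupp.single v 1 : Divisor k F) v - 1 = D v := by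
    rw [h7_add_single_apply_self, add_sub_cancel_right]
  rw [LinearMap.comp_apply, h7_lead_eq_zero_iff, hDv]
  show (f : F) ∈ h7_ball v (D v) ↔ _
  constructor
  · intro h w
    by_cases hw : w = v
    · rw [hw]; exact h7_mem_ball_iff'.mp h
    · have := f.2 w
      rwa [h7_add_single_apply_of_ne D hw] at this
  · intro h
    exact h7_rr_le_ball D v h

open scoped Classical in
/-- The repartition with value `f` at `v` and `0` elsewhere. -/
noncomputable def h7_single (v : Place k F) (f : F) : repartitions k F :=
  ⟨fun w => if w = v then f else 0, mem_repartitions_of_finite_ord <| by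
    apply (Set.finite_singleton v).subset
    intro w hw
    rw [Set.mem_singleton_iff]
    by_contra hne
    have hw' : w.ord (if w = v then f else 0) < 0 := hw
    rw [if_neg hne] at hw'
    simp at hw'⟩

open scoped Classical in
theorem h7_single_apply (v : Place k F) (f : F) (w : Place k F) :
    (h7_single v f : Place k F → F) w = if w = v then f else 0 := rfl

theorem h7_single_apply_self (v : Place k F) (f : F) :
    (h7_single v f : Place k F → F) v = f := by
  rw [h7_single_apply, if_pos rfl]

theorem h7_single_apply_of_ne (v : Place k F) (f : F) {w : Place k F} (h : w ≠ v) :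
    (h7_single v f : Place k F → F) w = 0 := by
  rw [h7_single_apply, if_neg h]

theorem h7_single_mem_repartitionsOf (D : Divisor k F) (v : Place k F) {f : F}
    (hf : f ∈ h7_ball v (D v)) : h7_single v f ∈ repartitionsOf D := by
  intro w
  by_cases hw : w = v
  · rw [hw, h7_single_apply_self]; exact h7_mem_ball_iff'.mp hf
  · rw [h7_single_apply_of_ne v f hw]; simp

/-- evaluation at `v` -/
def h7_evalAt (D : Divisor k F) (v : Place k F) : repartitionsOf D →ₗ[k] h7_ball v (D v) where
  toFun α := ⟨((α : repartitions k F) : Place k F → F) v, h7_mem_ball_iff'.mpr (α.2 v)⟩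
  map_add' _ _ := rfl
  map_smul' _ _ := rfl

theorem h7_evalAt_apply (D : Divisor k F) (v : Place k F) (α : repartitionsOf D) :
    (h7_evalAt D v α : F) = ((α : repartitions k F) : Place k F → F) v := rfl

/-- **The step for adeles** (generic form: the place `v` has degree one). -/
theorem h7_adele_step_of_deg (D : Divisor k F) (v : Place k F) (hv : v.deg = 1) :
    ∃ φ : repartitionsOf (D + Finsupp.single v 1) →ₗ[k] k, Function.Surjective φ ∧
      ∀ α, φ α = 0 ↔ (α : repartitions k F) ∈ repartitionsOf D := by
  obtain ⟨π, hπ⟩ := h7_exists_uniformizer v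
  set D' : Divisor k F := D + Finsupp.single v 1 with hD'
  refine ⟨(h7_lead v hv π hπ (D' v)) ∘ₗ h7_evalAt D' v, ?_, ?_⟩
  · intro c
    have hmem := h7_zpow_mul_const_mem_ball v π hπ (D' v) c
    refine ⟨⟨h7_single v (π ^ (-(D' v)) * algebraMap k F c),
      h7_single_mem_repartitionsOf D' v hmem⟩, ?_⟩
    rw [LinearMap.comp_apply]
    have : h7_evalAt D' v ⟨h7_single v (π ^ (-(D' v)) * algebraMap k F c),
        h7_single_mem_repartitionsOf D' v hmem⟩ =
        ⟨π ^ (-(D' v)) * algebraMap k F c, hmem⟩ := by
      apply Subtype.ext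
      rw [h7_evalAt_apply]
      exact h7_single_apply_self v _
    rw [this, h7_lead_zpow_mul_const]
  · intro α
    have hDv : D' v - 1 = D v := by
      rw [hD', h7_add_single_apply_self, add_sub_cancel_right]
    rw [LinearMap.comp_apply, h7_lead_eq_zero_iff, hDv, h7_evalAt_apply, h7_mem_ball_iff']
    constructor
    · intro h w
      by_cases hw : w = v
      · rw [hw]; exact h
      · have := α.2 w
        rwa [h7_add_single_apply_of_ne D hw] at this
    · intro h
      exact h v

end Step


section Rep

variable {k F : Type} [Field k] [IsAlgClosed k] [CharZero k] [Field F] [Algebra k F]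

theorem h7_finite_poles (x : F) (hx : IsCoord k x) (f : F) :
    {v : Place k F | ¬ v.adicValuation f ≤ 1}.Finite := by
  by_cases hf : f = 0
  · rw [hf]
    convert Set.finite_empty
    ext v
    simp
  · obtain ⟨D, hD, _⟩ := h4_principal_divisor x hx f hf
    apply D.support.finite_toSet.subset
    intro v hv
    have hv' : ¬ v.adicValuation f ≤ 1 := hv
    rw [v.not_adicValuation_le_one_iff] at hv'
    rw [Finset.mem_coe, Finsupp.mem_support_iff, hD v]
    omega

/-- Membership in the ring of repartitions. -/
theorem h7_mem_repartitions_iff (x : F) (hx : IsCoord k x) {α : Place k F → F} :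
    α ∈ repartitions k F ↔ {v : Place k F | v.ord (α v) < 0}.Finite := by
  constructor
  · intro hα
    have key : {v : Place k F | ¬ v.adicValuation (α v) ≤ 1}.Finite := by
      unfold repartitions at hα
      induction hα using Algebra.adjoin_induction with
      | mem a ha => exact ha
      | algebraMap f => exact h7_finite_poles x hx f
      | add a b _ _ ha hb =>
        apply (ha.union hb).subset
        intro v hv
        by_contra hcon
        rw [Set.mem_union, not_or] at hcon
        apply hv
        have h1 : v.adicValuation (a v) ≤ 1 := not_not.mp hcon.1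
        have h2 : v.adicValuation (b v) ≤ 1 := not_not.mp hcon.2
        exact (Valuation.map_add _ _ _).trans (max_le h1 h2)
      | mul a b _ _ ha hb =>
        apply (ha.union hb).subset
        intro v hv
        by_contra hcon
        rw [Set.mem_union, not_or] at hcon
        apply hv
        have h1 : v.adicValuation (a v) ≤ 1 := not_not.mp hcon.1
        have h2 : v.adicValuation (b v) ≤ 1 := not_not.mp hcon.2
        show v.adicValuation (a v * b v) ≤ 1
        rw [map_mul]
        exact mul_le_one' h1 h2
    rwa [show {v : Place k F | ¬v.adicValuation (α v) ≤ 1}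
        = {v : Place k F | v.ord (α v) < 0} from
      Set.ext fun v => v.not_adicValuation_le_one_iff] at key
  · exact mem_repartitions_of_finite_ord

/-- Every repartition lies in `A(D)` for some `D ≥ D₀`. -/
theorem h7_exists_divisor_ge (x : F) (hx : IsCoord k x) (α : repartitions k F)
    (D₀ : Divisor k F) : ∃ D : Divisor k F, D₀ ≤ D ∧ α ∈ repartitionsOf D := by
  classical
  have hfin := (h7_mem_repartitions_iff x hx).mp α.2
  let E : Divisor k F := Finsupp.onFinset hfin.toFinset
    (fun v => if v.ord ((α : Place k F → F) v) < 0 then -v.ord ((α : Place k F → F) v) else 0)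
    (by
      intro v hv
      rw [Set.Finite.mem_toFinset]
      by_contra hcon
      exact hv (if_neg hcon))
  have hE : ∀ v, E v =
      if v.ord ((α : Place k F → F) v) < 0 then -v.ord ((α : Place k F → F) v) else 0 :=
    fun v => rfl
  refine ⟨D₀ ⊔ E, le_sup_left, ?_⟩
  rw [mem_repartitionsOf_iff]
  intro v
  right
  have h1 : E v ≤ (D₀ ⊔ E) v := by
    have : E ≤ D₀ ⊔ E := le_sup_right
    exact Finsupp.le_def.mp this v
  rw [hE v] at h1
  split_ifs at h1 with hneg
  · omega
  · rw [not_lt] at hneg
    omega

/-- **The step for `L`**: `L(D + v) / L(D)` has dimension at most one. -/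
theorem h7_rr_step (x : F) (hx : IsCoord k x) (D : Divisor k F) (v : Place k F) :
    ∃ φ : riemannRochSpace (D + Finsupp.single v 1) →ₗ[k] k,
      ∀ f, φ f = 0 ↔ (f : F) ∈ riemannRochSpace D :=
  h7_rr_step_of_deg D v (h4_deg_eq_one x hx v)

/-- **The step for adeles**: `A(D + v) / A(D)` has dimension exactly one. -/
theorem h7_adele_step (x : F) (hx : IsCoord k x) (D : Divisor k F) (v : Place k F) :
    ∃ φ : repartitionsOf (D + Finsupp.single v 1) →ₗ[k] k, Function.Surjective φ ∧
      ∀ α, φ α = 0 ↔ (α : repartitions k F) ∈ repartitionsOf D :=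
  h7_adele_step_of_deg D v (h4_deg_eq_one x hx v)

end Rep


end Fermat.Agent.Lib.S20
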