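import Fermat.Agent.Lib.S20.DictAbs
import Fermat.Agent.Lib.S20.RRAdele
import Fermat.Agent.Lib.X0.RH

/-!
# Project S20, (MF-D) (helper6): existence of the divisor of `dx`

`ord_v(dx) ≠ 0` only for places over `x ∈ {0, 1728, ∞}` (elsewhere the local embedding datum has
`M = 1`, so the place is unramified), and there are finitely many places over each point.
-/

set_option autoImplicit false

noncomputable section

namespace Fermat.Agent.Lib.S20

open AlgebraicCurve KaehlerDifferential
open Fermat.Agent.Lib.X0

section W

variable {k F K' : Type} [Field k] [IsAlgClosed k] [CharZero k] [Field F] [Algebra k F] [Field K']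

/-- The divisor of `dx` exists. -/
theorem h6_exists_divisor_dx (ι : k →+* K') (x : F) (hx : IsCoord k x) (N : ℕ)
    [Fintype (QN N)] (hQ : Fintype.card (QN N) = coordDegree k x) (hfin : CFiniteG ι x N) :
    ∃ W : Divisor k F, ∀ v : Place k F, W v = v.ordDifferential (D k F x) := by
  classical
  have hpl := h4_places x hx
  have hdiff := h4_differential x hx
  -- finitely many places over each point
  have hfinc : ∀ c : k, Set.Finite {v : Place k F | 0 < v.ord (x - algebraMap k F c)} :=
    fun c => (hpl.2.2.1 _ (transcendental_sub_const hx.transc c)).1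
  have hfininf : Set.Finite {v : Place k F | 0 < v.ord x⁻¹} :=
    (hpl.2.2.1 _ (transcendental_inv' hx.transc)).1
  -- the support is contained in the places over 0, 1728, ∞
  have hsupp : {v : Place k F | v.ordDifferential (D k F x) ≠ 0} ⊆
      {v : Place k F | 0 < v.ord (x - algebraMap k F 0)} ∪
        {v : Place k F | 0 < v.ord (x - algebraMap k F 1728)} ∪
          {v : Place k F | 0 < v.ord x⁻¹} := by
    intro v hv
    rcases lt_or_ge (v.ord x) 0 with hneg | hnn
    · right
      show 0 < v.ord x⁻¹
      rw [Place.ord_inv]; omega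
    · left
      obtain ⟨c, hc, -⟩ := hpl.2.1 v hnn
      by_cases h0 : c = 0
      · left; rw [← h0]; exact hc
      by_cases h1 : c = 1728
      · right; rw [← h1]; exact hc
      exfalso
      apply hv
      obtain ⟨M, E, hM1, -, -⟩ := hfin c
      obtain rfl : M = 1 := hM1 h0 h1
      obtain ⟨P, -, hP2, -, hP4⟩ :=
        h7_embCount ι x hx (x - algebraMap k F c) (Or.inl ⟨c, rfl⟩) (QN N) hQ 1 E
      obtain ⟨q, rfl⟩ := hP2 v hc
      obtain ⟨π, hπ⟩ := h7_exists_uniformizer (P q)
      have hπ0 : π ≠ 0 := by
        rintro rfl
        rw [Place.ord_zero] at hπ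
        exact zero_ne_one hπ
      have hrel := hP4 q π hπ0
      rw [hπ] at hrel
      have he : (P q).ord (x - algebraMap k F c) = 1 := by
        have h2 : (E.τ q π).order * (P q).ord (x - algebraMap k F c) = 1 := by
          rw [hrel]; simp
        exact Int.eq_one_of_mul_eq_one_left hc.le h2
      rw [hdiff.2.2.2.1 (P q) c hc, he]
      simp
  have hfinite : Set.Finite {v : Place k F | v.ordDifferential (D k F x) ≠ 0} :=
    (((hfinc 0).union (hfinc 1728)).union hfininf).subset hsupp
  refine ⟨Finsupp.ofSupportFinite (fun v => v.ordDifferential (D k F x)) hfinite, fun v => ?_⟩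
  rfl

end W

end Fermat.Agent.Lib.S20
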