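import Fermat.Agent.Lib.X0.Assembly
import Fermat.Agent.Lib.X0.NormPolyCor
import Fermat.Agent.Lib.X0.GrowthJd
import Fermat.Prelude.Def_AlgebraicCurve_Repartitions

/-!
# Project S20 (dim S₂(Γ₀(N)) = genus formula): shared definitions and contracts

Owner: lead.  Nothing deep is proved here; the file fixes the objects and the exact statements
(`def … : Prop`) exchanged between the slabs of the project.
-/

set_option autoImplicit false

noncomputable section

namespace Fermat.Agent.Lib.S20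

open AlgebraicCurve ModularCurve KaehlerDifferential UpperHalfPlane
open Fermat.Agent.Lib.X0
open scoped MatrixGroups

/-! ## 1. The function field of `X₀(N)` over `ℂ` -/

instance instIsDomainHolo : IsDomain h2_holo :=
  (h2_taylorHom_injective UpperHalfPlane.I).isDomain _

/-- `Γ₀(N)`-invariant holomorphic functions on `ℍ` all of whose `SL₂(ℤ)`-translates have moderate
growth at `i∞`. -/
def RN (N : ℕ) : Subring h2_holo := h2_holoInv N ⊓ h2_holoGrowthAll

theorem mem_RN {N : ℕ} {θ : h2_holo} :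
    θ ∈ RN N ↔ (∀ δ ∈ CongruenceSubgroup.Gamma0 N, h2_holoSmul δ θ = θ) ∧
      ∀ g : SL(2, ℤ), h2_ModGrowth (fun τ : ℍ => θ.1 (g • τ)) := by
  unfold RN
  rw [Subring.mem_inf, h2_mem_holoInv, h2_mem_holoGrowthAll]

/-- Constants. -/
def constRN (N : ℕ) : ℂ →+* RN N where
  toFun c := ⟨h2_holoConst c, mem_RN.2 ⟨fun δ _ => h2_holoSmul_const δ c,
    fun _ => h2_ModGrowth.const c⟩⟩
  map_one' := rfl
  map_mul' _ _ := rfl
  map_zero' := rfl
  map_add' _ _ := rfl

instance instAlgebraRN (N : ℕ) : Algebra ℂ (RN N) := (constRN N).toAlgebra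

/-- The function field of `X₀(N)` over `ℂ`. -/
abbrev MN (N : ℕ) : Type := FractionRing (RN N)

/-- `j` as an element of `R_N`. -/
def jRN (N : ℕ) [NeZero N] : RN N :=
  ⟨h2_JdHolo 1, mem_RN.2 ⟨fun δ _ => h2_JdHolo_one_invariant δ,
    fun g => h3_growth_Jd N 1 (one_dvd N) g⟩⟩

/-- The coordinate `x = j` of `M_N`. -/
def xM (N : ℕ) [NeZero N] : MN N := algebraMap (RN N) (MN N) (jRN N)

/-! ## 2. Generic versions of the concrete (C) contracts of project X0

`(k, F, x, ι)` replaces `(ℚ̄, F_N, j, iotaC)`; the index set is still `QN N = SL₂(ℤ)/Γ₀(N)`. -/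

section Generic

variable {k F K' : Type} [Field k] [Field F] [Algebra k F] [Field K']

/-- `x` is a coordinate of `F/k` and `[F : k(x)] = [SL₂(ℤ) : Γ₀(N)]`. -/
def CoordG (k : Type) {F : Type} [Field k] [Field F] [Algebra k F] (x : F) (N : ℕ) : Prop :=
  IsCoord k x ∧ coordDegree k x = Nat.card (QN N)

/-- Local embedding data over `x = c`, for every `c : k`. -/
def CFiniteG (ι : k →+* K') (x : F) (N : ℕ) : Prop :=
  ∀ c : k, ∃ (M : ℕ)
    (E : LocalEmb ι x (x - algebraMap k F c) (QN N) M),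
    (c ≠ 0 → c ≠ 1728 → M = 1) ∧
    (c = 0 → M = 3 ∧
      (∀ q f, (E.τ (matU • q) f).order = (E.τ q f).order) ∧
      (∀ q, matU • q = q → ∀ f, f ≠ 0 → (3 : ℤ) ∣ (E.τ q f).order)) ∧
    (c = 1728 → M = 2 ∧
      (∀ q f, (E.τ (matS • q) f).order = (E.τ q f).order) ∧
      (∀ q, matS • q = q → ∀ f, f ≠ 0 → (2 : ℤ) ∣ (E.τ q f).order))

/-- Local embedding data over `x = ∞`. -/
def CInftyG (ι : k →+* K') (x : F) (N : ℕ) : Prop :=
  ∃ E : LocalEmb ι x x⁻¹ (QN N) N,
    (∀ q f, (E.τ (matT • q) f).order = (E.τ q f).order) ∧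
    (∀ q (h : ℕ), 0 < h → h ∣ N → matT ^ h • q = q →
      ∀ f, f ≠ 0 → (((N / h : ℕ) : ℤ) ∣ (E.τ q f).order))

end Generic

/-! ## 3. Riemann–Roch contracts -/

/-- A *residue datum* for the coordinate `x`: `ρ v f` plays the role of `Res_v (f dx)`. -/
structure ResidueDatum (k F : Type) [Field k] [Field F] [Algebra k F] (x : F) where
  ρ : Place k F → F →ₗ[k] k
  vanish : ∀ (v : Place k F) (f : F), f ≠ 0 →
    0 ≤ v.ord f + v.ordDifferential (D k F x) → ρ v f = 0
  nonvanish : ∀ (v : Place k F) (f : F), f ≠ 0 →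
    v.ord f + v.ordDifferential (D k F x) = -1 → ρ v f ≠ 0
  sum_eq_zero : ∀ f : F, ∑ᶠ v : Place k F, ρ v f = 0

/-- (RR) **`ℓ(div dx) = g` and `deg div dx = 2g - 2`**, from a residue datum. -/
def CanonicalDimStatement : Prop :=
  ∀ {k F : Type} [Field k] [IsAlgClosed k] [CharZero k] [Field F] [Algebra k F]
    (x : F) (_ : IsCoord k x) (_ : ResidueDatum k F x) (W : Divisor k F)
    (_ : ∀ v : Place k F, W v = v.ordDifferential (D k F x)),
    FiniteDimensional k (riemannRochSpace W) ∧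
    2 * (Module.finrank k (riemannRochSpace W) : ℤ) - 2 = Divisor.degree W

/-- (RES) **Residue datum from local embeddings** (residue theorem). -/
def ResidueStatement : Prop :=
  ∀ {k F K' : Type} [Field k] [IsAlgClosed k] [CharZero k] [Field F] [Algebra k F] [Field K']
    (ι : k →+* K') (x : F) (_ : IsCoord k x) (Q : Type) [Fintype Q]
    (_ : Fintype.card Q = coordDegree k x)
    (_ : ∀ c : k, ∃ M : ℕ, Nonempty (LocalEmb ι x (x - algebraMap k F c) Q M))
    (_ : ∃ M : ℕ, Nonempty (LocalEmb ι x x⁻¹ Q M)),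
    Nonempty (ResidueDatum k F x)

/-! ## 4. The dictionary -/

/-- (MF-D) **Dictionary**: `S₂(Γ₀(N)) ≃ L(div dj)` inside `M_N`. -/
def DictStatement (N : ℕ) [NeZero N] : Prop :=
  ∃ W : Divisor ℂ (MN N),
    (∀ v : Place ℂ (MN N), W v = v.ordDifferential (D ℂ (MN N) (xM N))) ∧
    Nonempty (CuspForm (CongruenceSubgroup.Gamma0 N) 2 ≃ₗ[ℂ] riemannRochSpace W)

end Fermat.Agent.Lib.S20
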