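/-
S20 project, (MF-C1) (helper2): `CFiniteG (RingHom.id ℂ) (xM N) N` for the function field
`M_N = Frac R_N` of `X₀(N)` over `ℂ`.
-/
import Mathlib
import Fermat.Agent.Lib.S20.CFiniteG

set_option autoImplicit false

open Filter Topology UpperHalfPlane
open scoped Manifold MatrixGroups

namespace Fermat.Agent.Lib.S20

open Fermat.Agent.Lib.X0

/-- `J_d`, `d ∣ N`, as an element of `R_N`. -/
noncomputable def h2_JdRN (N : ℕ) [NeZero N] (d : ℕ) (hd : d ∣ N) : RN N :=
  ⟨h2_JdHolo d, mem_RN.2 ⟨fun δ hδ => by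
      apply Subtype.ext
      funext z
      rw [h2_holoSmul_apply]
      exact h5_Jd_invariant N d hd δ hδ z,
    fun g => h3_growth_Jd N d hd g⟩⟩

/-- The inclusion `R_N → (Γ₀(N)-invariant holomorphic functions)`. -/
noncomputable def h2_inclRN (N : ℕ) : RN N →+* h2_holoInv N :=
  Subring.inclusion (inf_le_left : RN N ≤ h2_holoInv N)

theorem h2_inclRN_coe (N : ℕ) (θ : RN N) : ((h2_inclRN N θ : h2_holoInv N) : h2_holo) = θ.1 := rfl

theorem h2_algebraMap_const (N : ℕ) (c : ℂ) :
    algebraMap (RN N) (MN N) (constRN N c) = algebraMap ℂ (MN N) c := by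
  rw [IsScalarTower.algebraMap_apply ℂ (RN N) (MN N)]
  rfl

/-- The analytic realisation of `R_N`. -/
noncomputable def h2_psiRN (N : ℕ) [NeZero N] : h2_PsiG (RingHom.id ℂ) (xM N) N (RN N) where
  Ψ := h2_inclRN N
  inj := Subring.inclusion_injective _
  cst := constRN N
  cst_map := h2_algebraMap_const N
  Ψ_cst := fun c => rfl
  xA := jRN N
  xA_map := rfl
  Ψ_xA := h2_Jd_one
  sep := fun g g' hmem => by
    refine ⟨h2_JdRN N N dvd_rfl, fun h => hmem ?_⟩
    apply h3_distinct N g g'
    intro z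
    have h3 := congrArg (fun F : h2_holo => F.1 z) h
    exact h3

/-- **(MF-C1)**: local embedding data over the finite points for `M_N`. -/
theorem h2_cFiniteG (N : ℕ) [NeZero N] : CFiniteG (RingHom.id ℂ) (xM N) N :=
  h2_cFiniteG_of (h2_psiRN N) h2_levelOneData

end Fermat.Agent.Lib.S20
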