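/-
S20 project, (MF-C3) (helper2): the coordinate `x = j` of `M_N = Frac R_N`: transcendence, and the
relation of degree `≤ n = [SL₂(ℤ) : Γ₀(N)]` over `ℂ[x]` satisfied by every element of `R_N`.
-/
import Mathlib
import Fermat.Agent.Lib.S20.CFiniteM

set_option autoImplicit false

open Filter Topology UpperHalfPlane Polynomial
open scoped Manifold MatrixGroups

namespace Fermat.Agent.Lib.S20

open Fermat.Agent.Lib.X0

/-- Evaluation at a point of `ℍ`, as a `ℂ`-algebra hom on `R_N`. -/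
def h2_evalRN (N : ℕ) (τ : ℍ) : RN N →ₐ[ℂ] ℂ where
  toFun θ := θ.1.1 τ
  map_one' := rfl
  map_mul' _ _ := rfl
  map_zero' := rfl
  map_add' _ _ := rfl
  commutes' _ := rfl

theorem h2_evalRN_apply (N : ℕ) (τ : ℍ) (θ : RN N) : h2_evalRN N τ θ = θ.1.1 τ := rfl

theorem h2_evalRN_jRN (N : ℕ) [NeZero N] (τ : ℍ) : h2_evalRN N τ (jRN N) = jFun τ := by
  show h9_Jd 1 τ = jFun τ
  rw [h2_Jd_one]

theorem h2_RN_ext {N : ℕ} {θ₁ θ₂ : RN N} (h : ∀ τ, h2_evalRN N τ θ₁ = h2_evalRN N τ θ₂) :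
    θ₁ = θ₂ :=
  Subtype.ext (Subtype.ext (funext h))

theorem h2_evalRN_aeval (N : ℕ) [NeZero N] (τ : ℍ) (q : Polynomial ℂ) :
    h2_evalRN N τ (aeval (jRN N) q) = q.eval (jFun τ) := by
  rw [← Polynomial.aeval_algHom_apply, h2_evalRN_jRN]
  rfl

theorem h2_algebraMap_RN_injective (N : ℕ) : Function.Injective (algebraMap (RN N) (MN N)) :=
  IsFractionRing.injective (RN N) (MN N)

theorem h2_aeval_xM (N : ℕ) [NeZero N] (q : Polynomial ℂ) :
    aeval (xM N) q = algebraMap (RN N) (MN N) (aeval (jRN N) q) := by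
  unfold xM
  rw [Polynomial.aeval_algebraMap_apply]

/-- `x = j` is transcendental over `ℂ` in `M_N`. -/
theorem h2_transcendental_xM (N : ℕ) [NeZero N] : Transcendental ℂ (xM N) := by
  rw [transcendental_iff]
  intro q hq
  rw [h2_aeval_xM, ← map_zero (algebraMap (RN N) (MN N))] at hq
  have h0 := h2_algebraMap_RN_injective N hq
  apply Polynomial.funext
  intro c
  obtain ⟨τ, rfl⟩ := h3_jFun_surjective c
  rw [← h2_evalRN_aeval N τ q, h0, map_zero, Polynomial.eval_zero]

/-- **(MF-C3)**: the relation of degree `≤ n` over `ℂ[x]` for the elements of `R_N`. -/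
theorem h2_relRN (N : ℕ) [NeZero N] (θ : RN N) :
    ∃ b : Fin (Nat.card (QN N) + 1) → Polynomial ℂ, b ≠ 0 ∧
      ∑ i, aeval (xM N) (b i) * (algebraMap (RN N) (MN N) θ) ^ (i : ℕ) = 0 := by
  obtain ⟨hinv, hgr⟩ := mem_RN.1 θ.2
  obtain ⟨p, hmonic, hdeg, hp⟩ := h2_normPoly N ⟨θ.1, hinv⟩ hgr
  set n := Nat.card (QN N) with hn
  refine ⟨fun i => p.coeff (i : ℕ), ?_, ?_⟩
  · intro h
    have h1 := congrFun h ⟨n, Nat.lt_succ_self n⟩
    have h2 : p.coeff n = 1 := by
      have := hmonic.coeff_natDegree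
      rwa [hdeg] at this
    simp only [Pi.zero_apply] at h1
    rw [h2] at h1
    exact one_ne_zero h1
  · have hR : ∑ i : Fin (n + 1), aeval (jRN N) (p.coeff (i : ℕ)) * θ ^ (i : ℕ) = 0 := by
      apply h2_RN_ext
      intro τ
      rw [map_sum, map_zero, ← hp τ]
      have hnat : (p.map (Polynomial.evalRingHom (jFun τ))).natDegree < n + 1 := by
        rw [hmonic.natDegree_map, hdeg]
        exact Nat.lt_succ_self n
      rw [Polynomial.eval_eq_sum_range' hnat, Finset.sum_range]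
      refine Finset.sum_congr rfl fun i _ => ?_
      rw [map_mul, map_pow, h2_evalRN_aeval, Polynomial.coeff_map, Polynomial.coe_evalRingHom]
      rfl
    have := congrArg (algebraMap (RN N) (MN N)) hR
    rw [map_sum, map_zero] at this
    rw [← this]
    refine Finset.sum_congr rfl fun i _ => ?_
    rw [map_mul, map_pow, h2_aeval_xM]

end Fermat.Agent.Lib.S20
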