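/-
S20 project, (MF-C3) (helper2): `CoordG ℂ (xM N) N`: `x = j` is a coordinate of `M_N = Frac R_N` and
`[M_N : ℂ(j)] = [SL₂(ℤ) : Γ₀(N)]`.
-/
import Mathlib
import Fermat.Agent.Lib.S20.CoordM
import Fermat.Agent.Lib.X0.DegreeBounded
import Fermat.Agent.Lib.X0.DegreeLower

set_option autoImplicit false

open Filter Topology UpperHalfPlane Polynomial
open scoped Manifold MatrixGroups

namespace Fermat.Agent.Lib.S20

open Fermat.Agent.Lib.X0

/-- The image of `R_N` in `M_N`, as a `ℂ`-subalgebra. -/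
noncomputable def h2_imageRN (N : ℕ) : Subalgebra ℂ (MN N) :=
  (IsScalarTower.toAlgHom ℂ (RN N) (MN N)).range

theorem h2_mem_imageRN {N : ℕ} {a : MN N} :
    a ∈ h2_imageRN N ↔ ∃ θ : RN N, algebraMap (RN N) (MN N) θ = a := by
  unfold h2_imageRN
  rw [AlgHom.mem_range]
  rfl

/-- **(MF-C3)**: `x = j` is a coordinate of `M_N` of degree `[SL₂(ℤ) : Γ₀(N)]`. -/
theorem h2_coordG (N : ℕ) [NeZero N] : CoordG ℂ (xM N) N := by
  have hupper := h8_isCoord_of_bounded (xM N) (h2_transcendental_xM N) (Nat.card (QN N))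
    (h2_imageRN N) (h2_mem_imageRN.2 ⟨jRN N, rfl⟩)
    (fun f => by
      obtain ⟨a, b, hb, rfl⟩ := IsFractionRing.div_surjective (RN N) f
      refine ⟨_, h2_mem_imageRN.2 ⟨a, rfl⟩, _, h2_mem_imageRN.2 ⟨b, rfl⟩, ?_, rfl⟩
      exact IsFractionRing.to_map_ne_zero_of_mem_nonZeroDivisors hb)
    (fun a ha => by
      obtain ⟨θ, rfl⟩ := h2_mem_imageRN.1 ha
      exact h2_relRN N θ)
  refine ⟨hupper.1, le_antisymm hupper.2 ?_⟩
  obtain ⟨M, E, -⟩ := h2_cFiniteG N 0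
  have h := h8_card_le_coordDegree (RingHom.id ℂ) (xM N) _ hupper.1 (QN N) M E
  rwa [← Nat.card_eq_fintype_card] at h

end Fermat.Agent.Lib.S20
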