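import Fermat.Agent.Lib.X0.PlacesProof
import Fermat.Agent.Lib.X0.EmbCount
import Fermat.Agent.Lib.X0.DictFG
import Fermat.Agent.Lib.S20.Defs

/-!
# Project S20, (MF-D) abstract part (helper6): membership in `L(div dx)` through local embeddings

For a function field `F/k` with coordinate `x`, `W = div(dx)` and `h ≠ 0`:
`h ∈ L(W)` iff for all local embedding families the orders of the expansions of `h` are
`≥ -(M-1)` (over finite points) resp. `≥ M+1` (over infinity).  No ramification indices appear.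
-/

set_option autoImplicit false

noncomputable section

namespace Fermat.Agent.Lib.S20

open AlgebraicCurve KaehlerDifferential
open Fermat.Agent.Lib.X0

section Abs

variable {k F K' : Type} [Field k] [IsAlgClosed k] [CharZero k] [Field F] [Algebra k F] [Field K']

/-- integer arithmetic, finite case. -/
theorem h6_arith_fin {o e M w : ℤ} (he : 0 < e) (hM : 0 < M) (hrel : o * e = M * w) :
    0 ≤ w + (e - 1) ↔ 0 ≤ o + (M - 1) := by
  constructor
  · intro h
    by_contra hcon
    push Not at hcon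
    have h1 : (o + M) * e ≤ 0 := mul_nonpos_of_nonpos_of_nonneg (by omega) he.le
    have h2 : M * (w + e) = (o + M) * e := by rw [mul_add, ← hrel]; ring
    have h3 : 0 < M * (w + e) := mul_pos hM (by omega)
    omega
  · intro h
    by_contra hcon
    push Not at hcon
    have h1 : M * (w + e) ≤ 0 := mul_nonpos_of_nonneg_of_nonpos hM.le (by omega)
    have h2 : M * (w + e) = (o + M) * e := by rw [mul_add, ← hrel]; ring
    have h3 : 0 < (o + M) * e := mul_pos (by omega) he
    omega

/-- integer arithmetic, infinite case. -/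
theorem h6_arith_inf {o e M w : ℤ} (he : 0 < e) (hM : 0 < M) (hrel : o * e = M * w) :
    0 ≤ w + (-e - 1) ↔ M + 1 ≤ o := by
  constructor
  · intro h
    by_contra hcon
    push Not at hcon
    have h1 : (o - M) * e ≤ 0 := mul_nonpos_of_nonpos_of_nonneg (by omega) he.le
    have h2 : M * (w - e) = (o - M) * e := by rw [mul_sub, ← hrel]; ring
    have h3 : 0 < M * (w - e) := mul_pos hM (by omega)
    omega
  · intro h
    by_contra hcon
    push Not at hcon
    have h1 : M * (w - e) ≤ 0 := mul_nonpos_of_nonneg_of_nonpos hM.le (by omega)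
    have h2 : M * (w - e) = (o - M) * e := by rw [mul_sub, ← hrel]; ring
    have h3 : 0 < (o - M) * e := mul_pos (by omega) he
    omega

/-- (→), finite points. -/
theorem h6_order_of_mem_rr_fin (ι : k →+* K') (x : F) (hx : IsCoord k x)
    (Q : Type) [Fintype Q] (hQ : Fintype.card Q = coordDegree k x)
    (W : Divisor k F) (hW : ∀ v : Place k F, W v = v.ordDifferential (D k F x))
    (h : F) (hh : h ≠ 0) (hmem : h ∈ riemannRochSpace W)
    (c : k) (M : ℕ) (E : LocalEmb ι x (x - algebraMap k F c) Q M) (q : Q) :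
    0 ≤ (E.τ q h).order + ((M : ℤ) - 1) := by
  obtain ⟨P, hP1, -, -, hP4⟩ := h7_embCount ι x hx (x - algebraMap k F c) (Or.inl ⟨c, rfl⟩) Q hQ M E
  have hd := (h4_differential x hx).2.2.2.1 (P q) c (hP1 q)
  have hm := (mem_riemannRochSpace_iff.mp hmem (P q)).resolve_left hh
  rw [hW, hd] at hm
  have hMpos : (0 : ℤ) < M := by exact_mod_cast E.M_pos
  exact (h6_arith_fin (hP1 q) hMpos (hP4 q h hh)).mp (by omega)

/-- (→), infinity. -/
theorem h6_order_of_mem_rr_inf (ι : k →+* K') (x : F) (hx : IsCoord k x)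
    (Q : Type) [Fintype Q] (hQ : Fintype.card Q = coordDegree k x)
    (W : Divisor k F) (hW : ∀ v : Place k F, W v = v.ordDifferential (D k F x))
    (h : F) (hh : h ≠ 0) (hmem : h ∈ riemannRochSpace W)
    (M : ℕ) (E : LocalEmb ι x x⁻¹ Q M) (q : Q) :
    (M : ℤ) + 1 ≤ (E.τ q h).order := by
  obtain ⟨P, hP1, -, -, hP4⟩ := h7_embCount ι x hx x⁻¹ (Or.inr rfl) Q hQ M E
  have hpos := hP1 q
  have hneg : (P q).ord x < 0 := by
    rw [Place.ord_inv] at hpos; omega
  have hd := (h4_differential x hx).2.2.2.2 (P q) hneg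
  have hm := (mem_riemannRochSpace_iff.mp hmem (P q)).resolve_left hh
  rw [hW, hd] at hm
  have hMpos : (0 : ℤ) < M := by exact_mod_cast E.M_pos
  have he : (P q).ord x = -(P q).ord x⁻¹ := by rw [Place.ord_inv]; ring
  exact (h6_arith_inf hpos hMpos (hP4 q h hh)).mp (by omega)

/-- (←). -/
theorem h6_mem_rr_of_orders (ι : k →+* K') (x : F) (hx : IsCoord k x)
    (Q : Type) [Fintype Q] (hQ : Fintype.card Q = coordDegree k x)
    (W : Divisor k F) (hW : ∀ v : Place k F, W v = v.ordDifferential (D k F x))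
    (h : F) (hh : h ≠ 0)
    (hfin : ∀ c : k, ∃ (M : ℕ) (E : LocalEmb ι x (x - algebraMap k F c) Q M),
      ∀ q, 0 ≤ (E.τ q h).order + ((M : ℤ) - 1))
    (hinf : ∃ (M : ℕ) (E : LocalEmb ι x x⁻¹ Q M), ∀ q, (M : ℤ) + 1 ≤ (E.τ q h).order) :
    h ∈ riemannRochSpace W := by
  rw [mem_riemannRochSpace_iff]
  intro v
  right
  rw [hW]
  rcases lt_or_ge (v.ord x) 0 with hneg | hnn
  · -- pole of x
    obtain ⟨M, E, hE⟩ := hinf
    obtain ⟨P, -, hP2, -, hP4⟩ := h7_embCount ι x hx x⁻¹ (Or.inr rfl) Q hQ M E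
    have hpos : 0 < v.ord x⁻¹ := by rw [Place.ord_inv]; omega
    obtain ⟨q, rfl⟩ := hP2 v hpos
    have hd := (h4_differential x hx).2.2.2.2 (P q) hneg
    rw [hd]
    have hMpos : (0 : ℤ) < M := by exact_mod_cast E.M_pos
    have he : (P q).ord x = -(P q).ord x⁻¹ := by rw [Place.ord_inv]; ring
    have := (h6_arith_inf hpos hMpos (hP4 q h hh)).mpr (hE q)
    omega
  · obtain ⟨c, hc, -⟩ := (h4_places x hx).2.1 v hnn
    obtain ⟨M, E, hE⟩ := hfin c
    obtain ⟨P, -, hP2, -, hP4⟩ :=
      h7_embCount ι x hx (x - algebraMap k F c) (Or.inl ⟨c, rfl⟩) Q hQ M E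
    obtain ⟨q, rfl⟩ := hP2 v hc
    have hd := (h4_differential x hx).2.2.2.1 (P q) c hc
    rw [hd]
    have hMpos : (0 : ℤ) < M := by exact_mod_cast E.M_pos
    have := (h6_arith_fin hc hMpos (hP4 q h hh)).mpr (hE q)
    omega

end Abs

end Fermat.Agent.Lib.S20
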