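import Mathlib
import Fermat.Agent.Lib.X0.Defs
import Fermat.Agent.Lib.X0.Lift
import Fermat.Agent.Lib.S20.Defs

/-!
# Project S20, slab (MF-C): generic families of local expansions

Owner: helper9.  Generic version of `Lib/X0/EmbFamily.lean` + `CFiniteProof` + `CInftyProof`:
the carrier of the expansions is an arbitrary commutative ring `A` with a ring hom `φ : A →+* F`
into the field `F` (a `ℂ`-algebra) such that every element of `F` is a fraction `φ a / φ b`.

* `h9_Carrier A F` : the data `(φ, cst, x, φ_cst, hgen)`.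
* `h9_GFamily N Cr` : a family `ψ g : A →+* LaurentSeries ℂ`, `g : SL(2,ℤ)` (`ψ g a` = local
  expansion of `a ∘ g⁻¹`), with kernel `ker φ`, constant on cosets `g Γ₀(N)`, distinct on distinct
  cosets.
* `h9_GFamily.lift`, `tau`, `tau_mk`, `localEmb`, `order_lift_div`, `order_tau_smul`,
  `dvd_order_tau_of_fixed`.
* `h9_cInftyG_of_family` : assembly of `CInftyG`.
-/

set_option autoImplicit false

noncomputable section

namespace Fermat.Agent.Lib.S20

open Fermat.Agent.Lib.X0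
open scoped MatrixGroups

/-- The carrier of the expansions: a ring `A` of "holomorphic functions" generating the field `F`
as its fractions. -/
structure h9_Carrier (A F : Type) [CommRing A] [Field F] [Algebra ℂ F] where
  φ : A →+* F
  cst : ℂ →+* A
  x : A
  φ_cst : ∀ c : ℂ, φ (cst c) = algebraMap ℂ F c
  hgen : ∀ f : F, ∃ a b, φ b ≠ 0 ∧ f = φ a / φ b

/-- A family of local expansions of the elements of the carrier, indexed by `SL(2,ℤ)`:
`ψ g a` is the expansion of the function `a ∘ g⁻¹`. -/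
structure h9_GFamily (N : ℕ) {A F : Type} [CommRing A] [Field F] [Algebra ℂ F]
    (Cr : h9_Carrier A F) where
  ψ : SL(2, ℤ) → (A →+* LaurentSeries ℂ)
  ker : ∀ g a, ψ g a = 0 ↔ Cr.φ a = 0
  const : ∀ g (c : ℂ), ψ g (Cr.cst c) = HahnSeries.C c
  coset : ∀ g δ, δ ∈ CongruenceSubgroup.Gamma0 N → ψ (g * δ) = ψ g
  distinct : ∀ g g', ψ g = ψ g' → g⁻¹ * g' ∈ CongruenceSubgroup.Gamma0 N
  agree : ∀ g g', ψ g Cr.x = ψ g' Cr.x

namespace h9_GFamily

variable {N : ℕ} {A F : Type} [CommRing A] [Field F] [Algebra ℂ F] {Cr : h9_Carrier A F}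
  (Fam : h9_GFamily N Cr)

theorem exists_lift (g : SL(2, ℤ)) :
    ∃ τ : F →+* LaurentSeries ℂ, ∀ a, τ (Cr.φ a) = Fam.ψ g a :=
  h9_lift Cr.φ (Fam.ψ g) (Fam.ker g) Cr.hgen

/-- The embedding of `F` attached to `g`. -/
def lift (g : SL(2, ℤ)) : F →+* LaurentSeries ℂ := (Fam.exists_lift g).choose

theorem lift_phi (g : SL(2, ℤ)) (a : A) : Fam.lift g (Cr.φ a) = Fam.ψ g a :=
  (Fam.exists_lift g).choose_spec a

theorem lift_eq_of_psi_eq {g g' : SL(2, ℤ)} (h : Fam.ψ g = Fam.ψ g') :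
    Fam.lift g = Fam.lift g' :=
  h9_lift_unique Cr.φ Cr.hgen _ _ (fun a => by rw [lift_phi, lift_phi, h])

theorem psi_eq_of_lift_eq {g g' : SL(2, ℤ)} (h : Fam.lift g = Fam.lift g') :
    Fam.ψ g = Fam.ψ g' := by
  refine RingHom.ext (fun a => ?_)
  rw [← lift_phi, ← lift_phi, h]

theorem lift_eq_of_coset {g g' : SL(2, ℤ)} (h : (g : QN N) = (g' : QN N)) :
    Fam.lift g = Fam.lift g' := by
  apply Fam.lift_eq_of_psi_eq
  have hmem := QuotientGroup.eq.mp h
  have : g' = g * (g⁻¹ * g') := by group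
  rw [this, Fam.coset g _ hmem]

theorem lift_const (g : SL(2, ℤ)) (c : ℂ) :
    Fam.lift g (algebraMap ℂ F c) = HahnSeries.C c := by
  rw [← Cr.φ_cst, lift_phi, Fam.const]

/-- The embedding attached to a coset. -/
def tau (q : QN N) : F →+* LaurentSeries ℂ := Fam.lift (Quotient.out q)

theorem tau_mk (g : SL(2, ℤ)) : Fam.tau (g : QN N) = Fam.lift g := by
  apply Fam.lift_eq_of_coset
  exact QuotientGroup.out_eq' _

theorem tau_injective : Function.Injective Fam.tau := by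
  intro q q' h
  have h1 := Fam.distinct _ _ (Fam.psi_eq_of_lift_eq h)
  have h2 : ((Quotient.out q : SL(2, ℤ)) : QN N) = ((Quotient.out q' : SL(2, ℤ)) : QN N) :=
    QuotientGroup.eq.mpr h1
  rwa [QuotientGroup.out_eq', QuotientGroup.out_eq'] at h2

/-- Order of the image of a fraction. -/
theorem order_lift_div (g : SL(2, ℤ)) {a b : A} (ha : Cr.φ a ≠ 0) (hb : Cr.φ b ≠ 0) :
    (Fam.lift g (Cr.φ a / Cr.φ b)).order = (Fam.ψ g a).order - (Fam.ψ g b).order := by
  have ha' : Fam.ψ g a ≠ 0 := fun h => ha ((Fam.ker g a).mp h)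
  have hb' : Fam.ψ g b ≠ 0 := fun h => hb ((Fam.ker g b).mp h)
  rw [map_div₀, lift_phi, lift_phi]
  have hne : Fam.ψ g a / Fam.ψ g b ≠ 0 := div_ne_zero ha' hb'
  have h := HahnSeries.order_mul hne hb'
  rw [div_mul_cancel₀ _ hb'] at h
  rw [h]; ring

/-- The `LocalEmb` attached to a family. -/
def localEmb (t : F) (M : ℕ) (hM : 0 < M)
    (ht : ∀ g : SL(2, ℤ), (Fam.lift g t).order = (M : ℤ)) :
    LocalEmb (RingHom.id ℂ) (Cr.φ Cr.x) t (QN N) M where
  τ := Fam.tau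
  inj := Fam.tau_injective
  const q a := Fam.lift_const _ a
  agree q q' := by
    show Fam.lift _ (Cr.φ Cr.x) = Fam.lift _ (Cr.φ Cr.x)
    rw [lift_phi, lift_phi]
    exact Fam.agree _ _
  ord_t q := ht _
  M_pos := hM

@[simp]
theorem localEmb_tau (t : F) (M : ℕ) (hM : 0 < M)
    (ht : ∀ g : SL(2, ℤ), (Fam.lift g t).order = (M : ℤ)) :
    (Fam.localEmb t M hM ht).τ = Fam.tau := rfl

/-- Transfer of order equalities. -/
theorem order_tau_smul (γ : SL(2, ℤ))
    (h : ∀ g a, (Fam.ψ (γ * g) a).order = (Fam.ψ g a).order) (q : QN N) (f : F) :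
    (Fam.tau (γ • q) f).order = (Fam.tau q f).order := by
  obtain ⟨g, rfl⟩ := QuotientGroup.mk_surjective q
  have hsm : γ • (g : QN N) = ((γ * g : SL(2, ℤ)) : QN N) := rfl
  rw [hsm, tau_mk, tau_mk]
  obtain ⟨a, b, hb, rfl⟩ := Cr.hgen f
  by_cases ha : Cr.φ a = 0
  · rw [ha, zero_div, map_zero, map_zero]
  · rw [order_lift_div _ _ ha hb, order_lift_div _ _ ha hb, h, h]

/-- Transfer of order divisibility on fixed cosets. -/
theorem dvd_order_tau_of_fixed (γ : SL(2, ℤ)) (e : ℤ)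
    (h : ∀ g, g⁻¹ * γ * g ∈ CongruenceSubgroup.Gamma0 N → ∀ a, e ∣ (Fam.ψ g a).order)
    (q : QN N) (hq : γ • q = q) (f : F) : e ∣ (Fam.tau q f).order := by
  obtain ⟨g, rfl⟩ := QuotientGroup.mk_surjective q
  have hsm : γ • (g : QN N) = ((γ * g : SL(2, ℤ)) : QN N) := rfl
  rw [hsm] at hq
  have hmem := QuotientGroup.eq.mp hq
  have hmem' : g⁻¹ * γ * g ∈ CongruenceSubgroup.Gamma0 N := by
    have := (CongruenceSubgroup.Gamma0 N).inv_mem hmem
    convert this using 1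
    group
  rw [tau_mk]
  obtain ⟨a, b, hb, rfl⟩ := Cr.hgen f
  by_cases ha : Cr.φ a = 0
  · rw [ha, zero_div, map_zero, HahnSeries.order_zero]; exact dvd_zero e
  · rw [order_lift_div _ _ ha hb]
    exact dvd_sub (h g hmem' a) (h g hmem' b)

end h9_GFamily

theorem h9_order_inv_laurentC {x : LaurentSeries ℂ} (hx : x ≠ 0) : (x⁻¹).order = -x.order := by
  have hinv : x⁻¹ ≠ 0 := inv_ne_zero hx
  have h := HahnSeries.order_mul hx hinv
  rw [mul_inv_cancel₀ hx, HahnSeries.order_one] at h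
  linarith

/-- Assembly of `CInftyG` from a cusp family. -/
theorem h9_cInftyG_of_family (N : ℕ) [NeZero N] {A F : Type} [CommRing A] [Field F] [Algebra ℂ F]
    {Cr : h9_Carrier A F} (Fam : h9_GFamily N Cr)
    (hd : ∀ g, (Fam.ψ g Cr.x).order = -(N : ℤ))
    (he : ∀ g a, (Fam.ψ (matT * g) a).order = (Fam.ψ g a).order)
    (hf : ∀ g (h : ℕ), 0 < h → h ∣ N → g⁻¹ * matT ^ h * g ∈ CongruenceSubgroup.Gamma0 N →
      ∀ a, (((N / h : ℕ) : ℤ) ∣ (Fam.ψ g a).order)) :
    CInftyG (RingHom.id ℂ) (Cr.φ Cr.x) N := by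
  have hN : 0 < N := Nat.pos_of_ne_zero (NeZero.ne N)
  have ht : ∀ g : SL(2, ℤ), (Fam.lift g (Cr.φ Cr.x)⁻¹).order = (N : ℤ) := by
    intro g
    rw [map_inv₀, h9_GFamily.lift_phi]
    have hne : Fam.ψ g Cr.x ≠ 0 := by
      intro h0
      have := hd g
      rw [h0, HahnSeries.order_zero] at this
      have hN' : (0 : ℤ) < N := by exact_mod_cast hN
      omega
    rw [h9_order_inv_laurentC hne, hd g, neg_neg]
  refine ⟨Fam.localEmb _ N hN ht, ?_, ?_⟩
  · intro q f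
    exact Fam.order_tau_smul matT he q f
  · intro q h hh hhN hq f _
    exact Fam.dvd_order_tau_of_fixed (matT ^ h) _ (fun g hg a => hf g h hh hhN hg a) q hq f

/-- Assembly of `CFiniteG` from finite families at the points over `c`.  `pt c` is a point of
`ℍ` over `c` (with `pt 0` fixed by `U` and `pt 1728` fixed by `S`), `Fam τ₀` the family of
expansions at `τ₀`. -/
theorem h9_cFiniteG_of_families (N : ℕ) {A F : Type} [CommRing A] [Field F] [Algebra ℂ F]
    {Cr : h9_Carrier A F} {P : Type} (pt : ℂ → P) (Fam : P → h9_GFamily N Cr)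
    (M : ℂ → ℕ) (hM0 : M 0 = 3) (hM1 : M 1728 = 2) (hMg : ∀ c, c ≠ 0 → c ≠ 1728 → M c = 1)
    (hord : ∀ c g, ((Fam (pt c)).ψ g (Cr.x - Cr.cst c)).order = (M c : ℤ))
    (hU : ∀ g a, ((Fam (pt 0)).ψ (matU * g) a).order = ((Fam (pt 0)).ψ g a).order)
    (hU3 : ∀ g, g⁻¹ * matU * g ∈ CongruenceSubgroup.Gamma0 N →
      ∀ a, (3 : ℤ) ∣ ((Fam (pt 0)).ψ g a).order)
    (hS : ∀ g a, ((Fam (pt 1728)).ψ (matS * g) a).order = ((Fam (pt 1728)).ψ g a).order)
    (hS2 : ∀ g, g⁻¹ * matS * g ∈ CongruenceSubgroup.Gamma0 N →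
      ∀ a, (2 : ℤ) ∣ ((Fam (pt 1728)).ψ g a).order) :
    CFiniteG (RingHom.id ℂ) (Cr.φ Cr.x) N := by
  intro c
  have hMpos : 0 < M c := by
    by_cases h0 : c = 0
    · rw [h0, hM0]; norm_num
    · by_cases h1 : c = 1728
      · rw [h1, hM1]; norm_num
      · rw [hMg c h0 h1]; norm_num
  have ht : ∀ g : SL(2, ℤ),
      ((Fam (pt c)).lift g (Cr.φ Cr.x - algebraMap ℂ F c)).order = (M c : ℤ) := by
    intro g
    rw [← Cr.φ_cst, ← map_sub, h9_GFamily.lift_phi]
    exact hord c g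
  refine ⟨M c, (Fam (pt c)).localEmb _ (M c) hMpos ht, ?_, ?_, ?_⟩
  · intro h0 h1
    exact hMg c h0 h1
  · intro h0
    subst h0
    refine ⟨hM0, ?_, ?_⟩
    · intro q f
      exact (Fam (pt 0)).order_tau_smul matU hU q f
    · intro q hq f _
      exact (Fam (pt 0)).dvd_order_tau_of_fixed matU 3 hU3 q hq f
  · intro h1
    subst h1
    refine ⟨hM1, ?_, ?_⟩
    · intro q f
      exact (Fam (pt 1728)).order_tau_smul matS hS q f
    · intro q hq f _
      exact (Fam (pt 1728)).dvd_order_tau_of_fixed matS 2 hS2 q hq f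

end Fermat.Agent.Lib.S20
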