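import Mathlib
import Fermat.Agent.Lib.S20.GFamily

/-!
# Project S20, slab (MF-C): the carrier `R_N → M_N`

Owner: helper9.  `h9_carrierRN N : h9_Carrier (RN N) (MN N)` with `φ = algebraMap`,
`cst = constRN N`, `x = jRN N`; so `Cr.φ Cr.x = xM N` (rfl).
-/

set_option autoImplicit false

noncomputable section

namespace Fermat.Agent.Lib.S20

open Fermat.Agent.Lib.X0
open scoped MatrixGroups

/-- The carrier `R_N → M_N = Frac R_N`. -/
def h9_carrierRN (N : ℕ) [NeZero N] : h9_Carrier (RN N) (MN N) where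
  φ := algebraMap (RN N) (MN N)
  cst := constRN N
  x := jRN N
  φ_cst c := by
    rw [IsScalarTower.algebraMap_apply ℂ (RN N) (MN N)]
    rfl
  hgen f := by
    obtain ⟨a, b, hb, hab⟩ := IsFractionRing.div_surjective (A := RN N) f
    refine ⟨a, b, ?_, hab.symm⟩
    exact IsFractionRing.to_map_ne_zero_of_mem_nonZeroDivisors hb

@[simp]
theorem h9_carrierRN_phi_x (N : ℕ) [NeZero N] :
    (h9_carrierRN N).φ (h9_carrierRN N).x = xM N := rfl

@[simp]
theorem h9_carrierRN_phi (N : ℕ) [NeZero N] (a : RN N) :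
    (h9_carrierRN N).φ a = algebraMap (RN N) (MN N) a := rfl

theorem h9_carrierRN_phi_eq_zero_iff (N : ℕ) [NeZero N] (a : RN N) :
    (h9_carrierRN N).φ a = 0 ↔ a = 0 := by
  rw [h9_carrierRN_phi]
  exact IsFractionRing.to_map_eq_zero_iff

end Fermat.Agent.Lib.S20
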