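import Mathlib
import Fermat.Agent.Lib.X0.Twist

set_option autoImplicit false

noncomputable section

namespace Fermat.Agent.Lib.S20

open Fermat.Agent.Lib.X0

open Function Filter Complex
open UpperHalfPlane hiding I
open scoped Manifold Topology Real

local notation "𝕢" => Periodic.qParam

variable {h : ℝ}

/-- `F` is `h`-periodic, holomorphic on `ℍ` and bounded at `i∞`. -/
structure h5_IsReg (h : ℝ) (F : ℍ → ℂ) : Prop where
  per : Periodic (F ∘ ofComplex) h
  hol : MDiff F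
  bdd : IsBoundedAtImInfty F

theorem h5_IsReg.analyticAt {F : ℍ → ℂ} (hF : h5_IsReg h F) (hh : 0 < h) :
    AnalyticAt ℂ (cuspFunction h F) 0 :=
  analyticAt_cuspFunction_zero hh hF.per hF.hol hF.bdd

theorem h5_IsReg.mul {F G : ℍ → ℂ} (hF : h5_IsReg h F) (hG : h5_IsReg h G) :
    h5_IsReg h (F * G) where
  per := by
    have : (F * G) ∘ ofComplex = (F ∘ ofComplex) * (G ∘ ofComplex) := rfl
    rw [this]; exact hF.per.mul hG.per
  hol := hF.hol.mul hG.hol
  bdd := BoundedAtFilter.mul hF.bdd hG.bdd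

theorem h5_IsReg.add {F G : ℍ → ℂ} (hF : h5_IsReg h F) (hG : h5_IsReg h G) :
    h5_IsReg h (F + G) where
  per := by
    have : (F + G) ∘ ofComplex = (F ∘ ofComplex) + (G ∘ ofComplex) := rfl
    rw [this]; exact hF.per.add hG.per
  hol := hF.hol.add hG.hol
  bdd := BoundedAtFilter.add hF.bdd hG.bdd

theorem h5_IsReg.neg {F : ℍ → ℂ} (hF : h5_IsReg h F) : h5_IsReg h (-F) where
  per := by
    intro z
    have := hF.per z
    simp only [comp_apply, Pi.neg_apply] at this ⊢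
    rw [this]
  hol := hF.hol.neg
  bdd := BoundedAtFilter.neg hF.bdd

theorem h5_IsReg.const (c : ℂ) : h5_IsReg h (fun _ => c) where
  per := fun _ => rfl
  hol := mdifferentiable_const
  bdd := const_boundedAtFilter _ c

/-- The function `τ ↦ q_h(τ)^m`. -/
def h5_qpow (h : ℝ) (m : ℕ) : ℍ → ℂ := fun τ => 𝕢 h τ ^ m

theorem h5_qpow_ne_zero (h : ℝ) (m : ℕ) (τ : ℍ) : h5_qpow h m τ ≠ 0 :=
  pow_ne_zero _ (Periodic.qParam_ne_zero _)

theorem h5_qpow_add (h : ℝ) (m k : ℕ) : h5_qpow h (m + k) = h5_qpow h m * h5_qpow h k := by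
  funext τ; simp [h5_qpow, pow_add]

theorem h5_qpow_zero (h : ℝ) : h5_qpow h 0 = 1 := by
  funext τ; simp [h5_qpow]

theorem h5_qpow_isReg (hh : 0 < h) (m : ℕ) : h5_IsReg h (h5_qpow h m) where
  per := by
    intro z
    simp only [comp_apply, h5_qpow]
    by_cases hz : 0 < z.im
    · have hz' : 0 < (z + h).im := by simpa using hz
      rw [ofComplex_apply_of_im_pos hz', ofComplex_apply_of_im_pos hz]
      congr 1
      show 𝕢 h (z + h) = 𝕢 h z
      simp only [Periodic.qParam]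
      rw [show 2 * ↑π * I * (z + ↑h) / ↑h = 2 * ↑π * I * z / ↑h + 2 * ↑π * I by
        field_simp [ofReal_ne_zero.mpr hh.ne']]
      rw [Complex.exp_add, Complex.exp_two_pi_mul_I, mul_one]
    · have hz' : (z + h).im ≤ 0 := by simpa using not_lt.mp hz
      rw [ofComplex_apply_of_im_nonpos hz', ofComplex_apply_of_im_nonpos (not_lt.mp hz)]
  hol := by
    rw [UpperHalfPlane.mdifferentiable_iff]
    have hd : Differentiable ℂ (fun z : ℂ => 𝕢 h z ^ m) :=
      (Periodic.differentiable_qParam).pow m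
    refine hd.differentiableOn.congr fun z hz => ?_
    simp only [comp_apply, h5_qpow]
    rw [ofComplex_apply_of_im_pos hz]
  bdd := by
    rw [isBoundedAtImInfty_iff]
    refine ⟨1, 0, fun z _ => ?_⟩
    simp only [h5_qpow, norm_pow]
    exact pow_le_one₀ (norm_nonneg _) (Periodic.norm_qParam_lt_one hh z.im_pos).le

/-- Uniqueness of `q`-expansion coefficients, for plain functions `ℍ → ℂ`. -/
theorem h5_qExpansion_coeff_unique (hh : 0 < h) (G : ℍ → ℂ) (c : ℕ → ℂ)
    (han : AnalyticAt ℂ (cuspFunction h G) 0)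
    (hs : ∀ τ : ℍ, HasSum (fun k : ℕ => c k • 𝕢 h τ ^ k) (G τ)) (k : ℕ) :
    c k = (UpperHalfPlane.qExpansion h G).coeff k := by
  have h1 := (hasFPowerSeriesOnBall_cuspFunction hh han hs).hasFPowerSeriesAt
  have h2 : HasFPowerSeriesAt (cuspFunction h G)
      (FormalMultilinearSeries.ofScalars ℂ fun m => (qExpansion h G).coeff m) 0 := by
    simpa [qExpansion_coeff, div_eq_mul_inv, mul_comm] using han.hasFPowerSeriesAt
  have := congr_arg (FormalMultilinearSeries.coeff · k) (h1.eq_formalMultilinearSeries h2)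
  simpa [FormalMultilinearSeries.coeff_ofScalars] using this

theorem h5_qExpansion_qpow (hh : 0 < h) (m : ℕ) :
    qExpansion h (h5_qpow h m) = (PowerSeries.X : PowerSeries ℂ) ^ m := by
  ext k
  have hs : ∀ τ : ℍ, HasSum (fun k : ℕ => (if k = m then (1 : ℂ) else 0) • 𝕢 h τ ^ k)
      (h5_qpow h m τ) := by
    intro τ
    have h1 : HasSum (fun k : ℕ => (if k = m then (1 : ℂ) else 0) • 𝕢 h τ ^ k)
        ((if m = m then (1 : ℂ) else 0) • 𝕢 h τ ^ m) :=
      hasSum_single m (fun k hk => by simp [hk])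
    simpa [h5_qpow] using h1
  have := h5_qExpansion_coeff_unique hh (h5_qpow h m) _ ((h5_qpow_isReg hh m).analyticAt hh) hs k
  rw [← this, PowerSeries.coeff_X_pow]

/-! ### Laurent expansions at `i∞` -/

/-- The Laurent expansion of `F` computed with pole bound `m`. -/
def h5_lexp (h : ℝ) (m : ℕ) (F : ℍ → ℂ) : LaurentSeries ℂ :=
  HahnSeries.single (-(m : ℤ)) (1 : ℂ) *
    HahnSeries.ofPowerSeries ℤ ℂ (qExpansion h (F * h5_qpow h m))

theorem h5_lexp_add_right (hh : 0 < h) {m : ℕ} (k : ℕ) {F : ℍ → ℂ}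
    (hF : h5_IsReg h (F * h5_qpow h m)) : h5_lexp h (m + k) F = h5_lexp h m F := by
  unfold h5_lexp
  have e : F * h5_qpow h (m + k) = (F * h5_qpow h m) * h5_qpow h k := by
    rw [h5_qpow_add, mul_assoc]
  rw [e, qExpansion_mul (hF.analyticAt hh) ((h5_qpow_isReg hh k).analyticAt hh),
    h5_qExpansion_qpow hh, map_mul, map_pow, HahnSeries.ofPowerSeries_X, HahnSeries.single_pow,
    one_pow]
  rw [mul_comm (HahnSeries.ofPowerSeries ℤ ℂ _), ← mul_assoc, HahnSeries.single_mul_single]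
  congr 2
  · push_cast; simp
  · simp

/-- `F` is `h`-periodic, holomorphic on `ℍ` and meromorphic at `i∞`. -/
def h5_IsMer (h : ℝ) (F : ℍ → ℂ) : Prop := ∃ m : ℕ, h5_IsReg h (F * h5_qpow h m)

theorem h5_IsReg.isMer {F : ℍ → ℂ} (hF : h5_IsReg h F) : h5_IsMer h F :=
  ⟨0, by rw [h5_qpow_zero, mul_one]; exact hF⟩

theorem h5_IsReg.mul_qpow {F : ℍ → ℂ} {m : ℕ} (hh : 0 < h) (hF : h5_IsReg h (F * h5_qpow h m))
    (k : ℕ) : h5_IsReg h (F * h5_qpow h (m + k)) := by
  rw [h5_qpow_add, ← mul_assoc]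
  exact hF.mul (h5_qpow_isReg hh k)

open Classical in
/-- The Laurent expansion at `i∞` (in the variable `q_h`) of a function meromorphic at `i∞`. -/
def h5_mexp (h : ℝ) (F : ℍ → ℂ) : LaurentSeries ℂ :=
  if hF : h5_IsMer h F then h5_lexp h hF.choose F else 0

theorem h5_mexp_eq (hh : 0 < h) {F : ℍ → ℂ} {m : ℕ} (hF : h5_IsReg h (F * h5_qpow h m)) :
    h5_mexp h F = h5_lexp h m F := by
  have hM : h5_IsMer h F := ⟨m, hF⟩
  rw [h5_mexp, dif_pos hM]
  rw [← h5_lexp_add_right hh m hM.choose_spec, ← h5_lexp_add_right hh hM.choose hF, add_comm]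

theorem h5_IsMer.mul {F G : ℍ → ℂ} (hF : h5_IsMer h F) (hG : h5_IsMer h G) :
    h5_IsMer h (F * G) := by
  obtain ⟨m, hm⟩ := hF
  obtain ⟨k, hk⟩ := hG
  refine ⟨m + k, ?_⟩
  have e : F * G * h5_qpow h (m + k) = (F * h5_qpow h m) * (G * h5_qpow h k) := by
    rw [h5_qpow_add]; ring1
  rw [e]; exact hm.mul hk

theorem h5_IsMer.add (hh : 0 < h) {F G : ℍ → ℂ} (hF : h5_IsMer h F) (hG : h5_IsMer h G) :
    h5_IsMer h (F + G) := by
  obtain ⟨m, hm⟩ := hF
  obtain ⟨k, hk⟩ := hG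
  refine ⟨m + k, ?_⟩
  have e : (F + G) * h5_qpow h (m + k) = F * h5_qpow h (m + k) + G * h5_qpow h (k + m) := by
    rw [add_mul, add_comm k m]
  rw [e]; exact (hm.mul_qpow hh k).add (hk.mul_qpow hh m)

theorem h5_IsMer.neg {F : ℍ → ℂ} (hF : h5_IsMer h F) : h5_IsMer h (-F) := by
  obtain ⟨m, hm⟩ := hF
  exact ⟨m, by rw [neg_mul]; exact hm.neg⟩

theorem h5_mexp_mul (hh : 0 < h) {F G : ℍ → ℂ} (hF : h5_IsMer h F) (hG : h5_IsMer h G) :
    h5_mexp h (F * G) = h5_mexp h F * h5_mexp h G := by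
  obtain ⟨m, hm⟩ := hF
  obtain ⟨k, hk⟩ := hG
  have e : F * G * h5_qpow h (m + k) = (F * h5_qpow h m) * (G * h5_qpow h k) := by
    rw [h5_qpow_add]; ring1
  have hmk : h5_IsReg h (F * G * h5_qpow h (m + k)) := by rw [e]; exact hm.mul hk
  rw [h5_mexp_eq hh hm, h5_mexp_eq hh hk, h5_mexp_eq hh hmk]
  unfold h5_lexp
  rw [e, qExpansion_mul (hm.analyticAt hh) (hk.analyticAt hh), map_mul]
  have : HahnSeries.single (-((m + k : ℕ) : ℤ)) (1 : ℂ)
      = HahnSeries.single (-(m : ℤ)) (1 : ℂ) * HahnSeries.single (-(k : ℤ)) (1 : ℂ) := by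
    rw [HahnSeries.single_mul_single, one_mul,
      show -(m : ℤ) + -(k : ℤ) = -((m + k : ℕ) : ℤ) by push_cast; ring]
  rw [this]; ring1

theorem h5_mexp_add (hh : 0 < h) {F G : ℍ → ℂ} (hF : h5_IsMer h F) (hG : h5_IsMer h G) :
    h5_mexp h (F + G) = h5_mexp h F + h5_mexp h G := by
  obtain ⟨m, hm⟩ := hF
  obtain ⟨k, hk⟩ := hG
  have hm' := hm.mul_qpow hh k
  have hk' : h5_IsReg h (G * h5_qpow h (m + k)) := by
    rw [add_comm]; exact hk.mul_qpow hh m
  have hmk : h5_IsReg h ((F + G) * h5_qpow h (m + k)) := by rw [add_mul]; exact hm'.add hk'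
  rw [h5_mexp_eq hh hm', h5_mexp_eq hh hk', h5_mexp_eq hh hmk]
  unfold h5_lexp
  rw [add_mul, qExpansion_add (hm'.analyticAt hh) (hk'.analyticAt hh), map_add, mul_add]

theorem h5_mexp_const (hh : 0 < h) (c : ℂ) : h5_mexp h (fun _ => c) = HahnSeries.C c := by
  have hc : h5_IsReg h ((fun _ : ℍ => c) * h5_qpow h 0) := by
    rw [h5_qpow_zero, mul_one]; exact h5_IsReg.const c
  rw [h5_mexp_eq hh hc]
  unfold h5_lexp
  rw [h5_qpow_zero, mul_one]
  have e : (fun _ : ℍ => c) = c • (1 : ℍ → ℂ) := by funext τ; simp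
  have h1 : h5_IsReg h (1 : ℍ → ℂ) := h5_IsReg.const 1
  rw [e, qExpansion_smul (h1.analyticAt hh), qExpansion_one]
  simp only [Nat.cast_zero, neg_zero]
  rw [show (HahnSeries.single (0 : ℤ) (1 : ℂ)) = 1 from rfl, one_mul]
  rw [show c • (1 : PowerSeries ℂ) = PowerSeries.C c by
    ext n; simp [PowerSeries.coeff_one, PowerSeries.coeff_C]]
  exact HahnSeries.ofPowerSeries_C c

theorem h5_mexp_eq_zero_iff (hh : 0 < h) {F : ℍ → ℂ} (hF : h5_IsMer h F) :
    h5_mexp h F = 0 ↔ F = 0 := by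
  obtain ⟨m, hm⟩ := hF
  rw [h5_mexp_eq hh hm]
  unfold h5_lexp
  constructor
  · intro h0
    have h1 : HahnSeries.ofPowerSeries ℤ ℂ (qExpansion h (F * h5_qpow h m)) = 0 := by
      rcases mul_eq_zero.mp h0 with h2 | h2
      · exfalso
        have := congrArg (fun x => x.coeff (-(m : ℤ))) h2
        simp at this
      · exact h2
    have h2 : qExpansion h (F * h5_qpow h m) = 0 :=
      HahnSeries.ofPowerSeries_injective (by rw [h1, map_zero])
    have h3 := (qExpansion_eq_zero_iff hh hm.per hm.hol hm.bdd).mp h2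
    funext τ
    have := congrFun h3 τ
    simp only [Pi.mul_apply, Pi.zero_apply] at this
    rcases mul_eq_zero.mp this with h4 | h4
    · exact h4
    · exact absurd h4 (h5_qpow_ne_zero h m τ)
  · intro h0
    rw [h0, zero_mul, qExpansion_zero, map_zero, mul_zero]

/-! ### The ring of functions meromorphic at `i∞` and the expansion homomorphism -/

/-- The subring of functions `ℍ → ℂ` that are `h`-periodic, holomorphic and meromorphic at `i∞`. -/
def h5_merSubring (h : ℝ) (hh : 0 < h) : Subring (ℍ → ℂ) where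
  carrier := {F | h5_IsMer h F}
  mul_mem' hF hG := h5_IsMer.mul hF hG
  one_mem' := (h5_IsReg.const (h := h) 1).isMer
  add_mem' hF hG := h5_IsMer.add hh hF hG
  zero_mem' := (h5_IsReg.const (h := h) 0).isMer
  neg_mem' hF := h5_IsMer.neg hF

theorem h5_mem_merSubring {hh : 0 < h} {F : ℍ → ℂ} : F ∈ h5_merSubring h hh ↔ h5_IsMer h F :=
  Iff.rfl

/-- The expansion at `i∞` as a ring homomorphism. -/
def h5_mexpHom (h : ℝ) (hh : 0 < h) : h5_merSubring h hh →+* LaurentSeries ℂ where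
  toFun F := h5_mexp h F.1
  map_one' := by
    have := h5_mexp_const hh 1
    rw [map_one] at this
    exact this
  map_mul' F G := h5_mexp_mul hh F.2 G.2
  map_zero' := by
    have := h5_mexp_const hh 0
    rw [map_zero] at this
    exact this
  map_add' F G := h5_mexp_add hh F.2 G.2

@[simp] theorem h5_mexpHom_apply (hh : 0 < h) (F : h5_merSubring h hh) :
    h5_mexpHom h hh F = h5_mexp h F.1 := rfl

theorem h5_mexpHom_injective (hh : 0 < h) : Function.Injective (h5_mexpHom h hh) := by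
  rw [injective_iff_map_eq_zero]
  intro F hF
  exact Subtype.ext ((h5_mexp_eq_zero_iff hh F.2).mp hF)

/-! ### Order and leading coefficient -/

theorem h5_lexp_coeff (m : ℕ) (F : ℍ → ℂ) (n : ℤ) :
    (h5_lexp h m F).coeff n =
      (HahnSeries.ofPowerSeries ℤ ℂ (qExpansion h (F * h5_qpow h m))).coeff (n + m) := by
  unfold h5_lexp
  rw [HahnSeries.coeff_single_mul, one_mul]
  congr 1
  ring

/-- If `F * q^m → c ≠ 0` at `i∞`, then the expansion of `F` has order `-m` and leading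
coefficient `c`. -/
theorem h5_mexp_order_of_tendsto (hh : 0 < h) {F : ℍ → ℂ} {m : ℕ}
    (hF : h5_IsReg h (F * h5_qpow h m)) {c : ℂ} (hc : c ≠ 0)
    (hlim : Tendsto (F * h5_qpow h m) atImInfty (𝓝 c)) :
    (h5_mexp h F).order = -(m : ℤ) ∧ (h5_mexp h F).coeff (-(m : ℤ)) = c := by
  rw [h5_mexp_eq hh hF]
  have h0 : (qExpansion h (F * h5_qpow h m)).coeff 0 = c := by
    rw [qExpansion_coeff_zero hh (hF.analyticAt hh) hF.per]
    exact hlim.limUnder_eq
  have hcoef : (h5_lexp h m F).coeff (-(m : ℤ)) = c := by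
    rw [h5_lexp_coeff, neg_add_cancel, show (0 : ℤ) = ((0 : ℕ) : ℤ) from rfl,
      HahnSeries.ofPowerSeries_apply_coeff, h0]
  refine ⟨?_, hcoef⟩
  have hne : h5_lexp h m F ≠ 0 := by
    intro h1; rw [h1] at hcoef; exact hc (by simpa using hcoef.symm)
  apply le_antisymm
  · exact HahnSeries.order_le_of_coeff_ne_zero (by rw [hcoef]; exact hc)
  · by_contra hcon
    have hcon := not_le.mp hcon
    have : (h5_lexp h m F).coeff (h5_lexp h m F).order = 0 := by
      rw [h5_lexp_coeff]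
      set n := (h5_lexp h m F).order with hn
      have hneg : n + m < 0 := by linarith
      rw [HahnSeries.ofPowerSeries_apply]
      refine HahnSeries.embDomain_of_notMem_range ?_
      rintro ⟨k, hk⟩
      simp at hk
      omega
    exact hne (HahnSeries.coeff_order_eq_zero.mp this)

/-! ### Real translations -/

/-- The translate `τ ↦ F (r + τ)`. -/
def h5_transl (r : ℝ) (F : ℍ → ℂ) : ℍ → ℂ := fun τ => F (r +ᵥ τ)

/-- `ξ = exp(2πi r/h)` as a unit. -/
def h5_xi (h r : ℝ) : ℂˣ := Units.mk0 (Complex.exp (2 * π * I * r / h)) (Complex.exp_ne_zero _)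

theorem h5_qParam_vadd (h r : ℝ) (τ : ℍ) :
    𝕢 h ((r +ᵥ τ : ℍ) : ℂ) = (h5_xi h r : ℂ) * 𝕢 h τ := by
  simp only [Periodic.qParam, h5_xi, Units.val_mk0, UpperHalfPlane.coe_vadd]
  rw [← Complex.exp_add]
  congr 1
  ring

theorem h5_transl_mul (r : ℝ) (F G : ℍ → ℂ) :
    h5_transl r (F * G) = h5_transl r F * h5_transl r G := rfl

theorem h5_transl_qpow (h r : ℝ) (m : ℕ) :
    h5_transl r (h5_qpow h m) = (fun _ => ((h5_xi h r : ℂ)) ^ m) * h5_qpow h m := by
  funext τ
  simp only [h5_transl, h5_qpow, Pi.mul_apply, h5_qParam_vadd, mul_pow]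

theorem h5_IsReg.transl {F : ℍ → ℂ} (hF : h5_IsReg h F) (r : ℝ) : h5_IsReg h (h5_transl r F) where
  per := by
    intro z
    simp only [comp_apply, h5_transl]
    by_cases hz : 0 < z.im
    · have hz' : 0 < (z + h).im := by simpa using hz
      have hzr : 0 < (z + r).im := by simpa using hz
      rw [ofComplex_apply_of_im_pos hz', ofComplex_apply_of_im_pos hz]
      have := hF.per (z + r)
      simp only [comp_apply] at this
      have hzr' : 0 < (z + r + h).im := by simpa using hz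
      rw [ofComplex_apply_of_im_pos hzr', ofComplex_apply_of_im_pos hzr] at this
      have e1 : (r +ᵥ (⟨z + h, hz'⟩ : ℍ)) = ⟨z + r + h, hzr'⟩ := by
        ext; simp [UpperHalfPlane.coe_vadd]; ring
      have e2 : (r +ᵥ (⟨z, hz⟩ : ℍ)) = ⟨z + r, hzr⟩ := by
        ext; simp [UpperHalfPlane.coe_vadd]; ring
      rw [e1, e2, this]
    · have hz' : (z + h).im ≤ 0 := by simpa using not_lt.mp hz
      rw [ofComplex_apply_of_im_nonpos hz', ofComplex_apply_of_im_nonpos (not_lt.mp hz)]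
  hol := by
    rw [UpperHalfPlane.mdifferentiable_iff]
    have h1 := UpperHalfPlane.mdifferentiable_iff.mp hF.hol
    have h2 : DifferentiableOn ℂ (fun z : ℂ => (F ∘ ofComplex) (z + r)) {z | 0 < z.im} := by
      intro z hz
      have hzr : 0 < (z + r).im := by simpa using hz
      have := (h1 (z + r) hzr).differentiableAt
        (UpperHalfPlane.isOpen_upperHalfPlaneSet.mem_nhds hzr)
      exact (this.comp z ((differentiableAt_id).add_const _)).differentiableWithinAt
    refine h2.congr fun z hz => ?_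
    have hzr : 0 < (z + r).im := by simpa using hz
    simp only [comp_apply, h5_transl]
    rw [ofComplex_apply_of_im_pos hz, ofComplex_apply_of_im_pos hzr]
    congr 1
    ext; simp [UpperHalfPlane.coe_vadd]; ring
  bdd := by
    obtain ⟨M, A, hMA⟩ := isBoundedAtImInfty_iff.mp hF.bdd
    rw [isBoundedAtImInfty_iff]
    refine ⟨M, A, fun z hz => ?_⟩
    simp only [h5_transl]
    apply hMA
    simpa [UpperHalfPlane.vadd_im] using hz

theorem h5_qExpansion_transl (hh : 0 < h) {F : ℍ → ℂ} (hF : h5_IsReg h F) (r : ℝ) :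
    qExpansion h (h5_transl r F) = PowerSeries.rescale (h5_xi h r : ℂ) (qExpansion h F) := by
  ext k
  have hs : ∀ τ : ℍ, HasSum
      (fun k : ℕ => ((h5_xi h r : ℂ) ^ k * (qExpansion h F).coeff k) • 𝕢 h τ ^ k)
      (h5_transl r F τ) := by
    intro τ
    have := hasSum_qExpansion hh hF.per hF.hol hF.bdd (r +ᵥ τ)
    rw [h5_qParam_vadd] at this
    refine this.congr_fun ?_ |>.congr_fun fun _ => rfl
    intro k
    simp only [smul_eq_mul, mul_pow]
    ring
  have := h5_qExpansion_coeff_unique hh (h5_transl r F) _ ((hF.transl r).analyticAt hh) hs k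
  rw [← this, PowerSeries.coeff_rescale]

theorem h5_twist_ofPowerSeries (ξ : ℂˣ) (P : PowerSeries ℂ) :
    h5_twist ξ (HahnSeries.ofPowerSeries ℤ ℂ P)
      = HahnSeries.ofPowerSeries ℤ ℂ (PowerSeries.rescale (ξ : ℂ) P) := by
  ext n
  rw [h5_twist_coeff]
  by_cases hn : 0 ≤ n
  · obtain ⟨k, rfl⟩ := Int.eq_ofNat_of_zero_le hn
    rw [HahnSeries.ofPowerSeries_apply_coeff, HahnSeries.ofPowerSeries_apply_coeff,
      PowerSeries.coeff_rescale, zpow_natCast, Units.val_pow_eq_pow_val]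
  · have hneg : n < 0 := not_le.mp hn
    have h0 : ∀ Q : PowerSeries ℂ, (HahnSeries.ofPowerSeries ℤ ℂ Q).coeff n = 0 := by
      intro Q
      rw [HahnSeries.ofPowerSeries_apply]
      refine HahnSeries.embDomain_of_notMem_range ?_
      rintro ⟨k, hk⟩
      simp at hk
      omega
    rw [h0, h0, mul_zero]

theorem h5_twist_single (ξ : ℂˣ) (n : ℤ) (c : ℂ) :
    h5_twist ξ (HahnSeries.single n c) = HahnSeries.single n (((ξ ^ n : ℂˣ) : ℂ) * c) := by
  ext k
  rw [h5_twist_coeff]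
  by_cases hk : k = n
  · subst hk; simp
  · rw [HahnSeries.coeff_single_of_ne hk, HahnSeries.coeff_single_of_ne hk, mul_zero]

theorem h5_IsMer.transl {F : ℍ → ℂ} (hF : h5_IsMer h F) (r : ℝ) :
    h5_IsMer h (h5_transl r F) := by
  obtain ⟨m, hm⟩ := hF
  refine ⟨m, ?_⟩
  have h1 := hm.transl r
  rw [h5_transl_mul, h5_transl_qpow] at h1
  have h2 : h5_transl r F * h5_qpow h m
      = (fun _ => (((h5_xi h r)⁻¹ : ℂˣ) : ℂ) ^ m)
        * (h5_transl r F * ((fun _ => ((h5_xi h r : ℂ)) ^ m) * h5_qpow h m)) := by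
    funext τ
    simp only [Pi.mul_apply]
    have : ((((h5_xi h r)⁻¹ : ℂˣ) : ℂ)) ^ m * ((h5_xi h r : ℂ)) ^ m = 1 := by
      rw [← mul_pow, ← Units.val_mul, inv_mul_cancel]; simp
    calc h5_transl r F τ * h5_qpow h m τ
        = (((((h5_xi h r)⁻¹ : ℂˣ) : ℂ)) ^ m * ((h5_xi h r : ℂ)) ^ m)
          * (h5_transl r F τ * h5_qpow h m τ) := by rw [this, one_mul]
      _ = _ := by ring
  rw [h2]
  exact (h5_IsReg.const _).mul h1

/-- **Translation rule**: the expansion of `τ ↦ F(τ + r)` is the twist by `ξ = exp(2πi r/h)`. -/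
theorem h5_mexp_transl (hh : 0 < h) {F : ℍ → ℂ} (hF : h5_IsMer h F) (r : ℝ) :
    h5_mexp h (h5_transl r F) = h5_twist (h5_xi h r) (h5_mexp h F) := by
  obtain ⟨m, hm⟩ := hF
  -- G := F * q^m is regular; F_r * q^m = ξ^{-m} • G_r
  set G := F * h5_qpow h m with hG
  have hGr := hm.transl r
  have e : h5_transl r F * h5_qpow h m
      = (fun _ => ((((h5_xi h r)⁻¹ : ℂˣ) : ℂ)) ^ m) * h5_transl r G := by
    rw [hG, h5_transl_mul, h5_transl_qpow]
    funext τ
    simp only [Pi.mul_apply]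
    have : ((((h5_xi h r)⁻¹ : ℂˣ) : ℂ)) ^ m * ((h5_xi h r : ℂ)) ^ m = 1 := by
      rw [← mul_pow, ← Units.val_mul, inv_mul_cancel]; simp
    calc h5_transl r F τ * h5_qpow h m τ
        = (((((h5_xi h r)⁻¹ : ℂˣ) : ℂ)) ^ m * ((h5_xi h r : ℂ)) ^ m)
          * (h5_transl r F τ * h5_qpow h m τ) := by rw [this, one_mul]
      _ = _ := by ring
  have hreg : h5_IsReg h (h5_transl r F * h5_qpow h m) := by
    rw [e]; exact (h5_IsReg.const _).mul hGr
  rw [h5_mexp_eq hh hreg, h5_mexp_eq hh hm]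
  unfold h5_lexp
  rw [map_mul, h5_twist_single, h5_twist_ofPowerSeries, ← h5_qExpansion_transl hh hm r, e]
  have e2 : (fun _ : ℍ => ((((h5_xi h r)⁻¹ : ℂˣ) : ℂ)) ^ m) * h5_transl r G
      = ((((h5_xi h r)⁻¹ : ℂˣ) : ℂ) ^ m) • h5_transl r G := by
    funext τ; simp
  rw [e2, qExpansion_smul (hGr.analyticAt hh)]
  rw [mul_one]
  have e3 : HahnSeries.ofPowerSeries ℤ ℂ
      (((((h5_xi h r)⁻¹ : ℂˣ) : ℂ) ^ m) • qExpansion h (h5_transl r G))
      = HahnSeries.C ((((h5_xi h r)⁻¹ : ℂˣ) : ℂ) ^ m)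
        * HahnSeries.ofPowerSeries ℤ ℂ (qExpansion h (h5_transl r G)) := by
    rw [← HahnSeries.ofPowerSeries_C, ← map_mul]
    congr 1
    ext n
    simp
  rw [e3, ← mul_assoc]
  congr 1
  rw [HahnSeries.C_apply, HahnSeries.single_mul_single, add_zero, one_mul]
  congr 1
  rw [zpow_neg, zpow_natCast, ← inv_pow, Units.val_pow_eq_pow_val]

end Fermat.Agent.Lib.S20
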