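import Mathlib
import Fermat.Agent.Lib.S20.Defs
import Fermat.Agent.Lib.S20.CuspRing
import Fermat.Agent.Lib.X0.CuspFamily
import Fermat.Agent.Lib.X0.P1Quot

/-!
# Project S20, slab (MF-C2): the family of `q_N`-expansions at the cusp `∞` on `R_N`

Owner: helper5.
-/

set_option autoImplicit false

noncomputable section

namespace Fermat.Agent.Lib.S20

open Fermat.Agent.Lib.X0
open Function Filter Complex ModularCurve
open UpperHalfPlane hiding I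
open scoped Manifold Topology Real MatrixGroups

local notation "𝕢" => Periodic.qParam

/-! ### Bridge: the expansion `h5_mexp` converges on all of `ℍ` -/

theorem h5_expandsInfty_mexp (N : ℕ) [NeZero N] {F : ℍ → ℂ} (hF : h5_IsMer (N : ℝ) F) :
    h9_ExpandsInfty N F (h5_mexp (N : ℝ) F) := by
  have hh : (0 : ℝ) < N := by exact_mod_cast Nat.pos_of_ne_zero (NeZero.ne N)
  obtain ⟨m, hm⟩ := hF
  rw [h5_mexp_eq hh hm]
  intro z
  unfold h5_lexp
  have hq0 : 𝕢 (N : ℝ) (z : ℂ) ≠ 0 := Periodic.qParam_ne_zero _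
  have h1 := h9_LSum_single (-(m : ℤ)) 1 (𝕢 (N : ℝ) (z : ℂ))
  have h2 : h9_LSum (HahnSeries.ofPowerSeries ℤ ℂ (qExpansion (N : ℝ) (F * h5_qpow (N : ℝ) m)))
      (𝕢 (N : ℝ) (z : ℂ)) ((F * h5_qpow (N : ℝ) m) z) := by
    rw [h9_LSum_ofPowerSeries_iff]
    have := UpperHalfPlane.hasSum_qExpansion hh hm.per hm.hol hm.bdd z
    simpa only [smul_eq_mul] using this
  have h3 := h9_LSum_mul hq0 h1 h2
  convert h3 using 1
  simp only [Pi.mul_apply, h5_qpow, one_mul]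
  rw [zpow_neg, zpow_natCast]
  field_simp

/-! ### Moderate growth gives a meromorphic expansion at `∞` -/

theorem h5_periodic_of_T_pow_invariant (N : ℕ) {F : ℍ → ℂ}
    (hper : ∀ z : ℍ, F (matT ^ N • z) = F z) : Periodic (F ∘ ofComplex) (N : ℝ) := by
  intro z
  simp only [Function.comp_apply]
  by_cases hz : 0 < z.im
  · have hz' : 0 < (z + ((N : ℝ) : ℂ)).im := by simpa using hz
    rw [ofComplex_apply_of_im_pos hz', ofComplex_apply_of_im_pos hz]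
    have h1 := hper ⟨z, hz⟩
    rw [← h1]
    congr 1
    apply UpperHalfPlane.ext
    have h2 := ModularGroup.coe_T_zpow_smul_eq (z := ⟨z, hz⟩) (n := (N : ℤ))
    rw [zpow_natCast] at h2
    rw [h2]
    simp
  · have hz' : ¬ 0 < (z + ((N : ℝ) : ℂ)).im := by simpa using hz
    rw [ofComplex_apply_of_im_nonpos (not_lt.mp hz'), ofComplex_apply_of_im_nonpos (not_lt.mp hz)]

theorem h5_isMer_of_modGrowth (N : ℕ) [NeZero N] {F : ℍ → ℂ} (hol : MDiff F)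
    (hper : ∀ z : ℍ, F (matT ^ N • z) = F z) (hg : h2_ModGrowth F) : h5_IsMer (N : ℝ) F := by
  have hN : 0 < N := Nat.pos_of_ne_zero (NeZero.ne N)
  have hh : (0 : ℝ) < N := by exact_mod_cast hN
  obtain ⟨m, hm⟩ := hg
  have hq := h5_qpow_isReg hh (N * m)
  refine ⟨N * m, ⟨?_, hol.mul hq.hol, ?_⟩⟩
  · have : (F * h5_qpow (N : ℝ) (N * m)) ∘ ofComplex
        = (F ∘ ofComplex) * (h5_qpow (N : ℝ) (N * m) ∘ ofComplex) := rfl
    rw [this]
    exact (h5_periodic_of_T_pow_invariant N hper).mul hq.per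
  · rw [isBoundedAtImInfty_iff] at hm ⊢
    obtain ⟨M₁, A₁, h1⟩ := hm
    obtain ⟨C, hC⟩ := ModularForm.exp_isBigO_discriminant.bound
    rw [Filter.Eventually, atImInfty_mem] at hC
    obtain ⟨A₂, h2⟩ := hC
    refine ⟨|C| ^ m * M₁, max A₁ A₂, fun z hz => ?_⟩
    have hz1 : A₁ ≤ z.im := le_trans (le_max_left _ _) hz
    have hz2 : A₂ ≤ z.im := le_trans (le_max_right _ _) hz
    have b1 := h1 z hz1
    have b2 : ‖Real.exp (-2 * π * z.im)‖ ≤ C * ‖ModularForm.discriminant z‖ := h2 z hz2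
    have b2' : Real.exp (-2 * π * z.im) ≤ |C| * ‖ModularForm.discriminant z‖ := by
      rw [Real.norm_of_nonneg (Real.exp_pos _).le] at b2
      exact b2.trans (mul_le_mul_of_nonneg_right (le_abs_self C) (norm_nonneg _))
    have hnq : ‖h5_qpow (N : ℝ) (N * m) z‖ = Real.exp (-2 * π * z.im) ^ m := by
      rw [h5_qpow, norm_pow, Periodic.norm_qParam, pow_mul, ← Real.exp_nat_mul]
      congr 2
      field_simp
      rfl
    have hM₁ : 0 ≤ M₁ := (norm_nonneg _).trans b1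
    calc ‖(F * h5_qpow (N : ℝ) (N * m)) z‖
        = ‖F z‖ * Real.exp (-2 * π * z.im) ^ m := by
          rw [Pi.mul_apply, norm_mul, hnq]
      _ ≤ ‖F z‖ * (|C| * ‖ModularForm.discriminant z‖) ^ m := by
          refine mul_le_mul_of_nonneg_left ?_ (norm_nonneg _)
          exact pow_le_pow_left₀ (Real.exp_pos _).le b2' m
      _ = |C| ^ m * ‖F z * ModularForm.discriminant z ^ m‖ := by
          rw [mul_pow, norm_mul, norm_pow]; ring
      _ ≤ |C| ^ m * M₁ := mul_le_mul_of_nonneg_left b1 (pow_nonneg (abs_nonneg _) _)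

/-! ### The conjugates `θ ∘ g⁻¹` of `θ ∈ R_N` are meromorphic at `∞` -/

theorem h5_posN (N : ℕ) [NeZero N] : (0 : ℝ) < N := by
  exact_mod_cast Nat.pos_of_ne_zero (NeZero.ne N)

theorem h5_RN_invariant {N : ℕ} (θ : RN N) (δ : SL(2, ℤ))
    (hδ : δ ∈ CongruenceSubgroup.Gamma0 N) (z : ℍ) : θ.1.1 (δ • z) = θ.1.1 z := by
  have h1 := (mem_RN.1 θ.2).1 δ hδ
  have h2 := congrArg (fun F : h2_holo => F.1 z) h1
  simpa only [h2_holoSmul_apply] using h2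

theorem h5_conj_T_pow_mem (N : ℕ) [NeZero N] (g : SL(2, ℤ)) :
    g⁻¹ * matT ^ N * g ∈ CongruenceSubgroup.Gamma0 N := by
  have h1 := h6_T_pow_smul N ((g : SL(2, ℤ)) : SL(2, ℤ) ⧸ CongruenceSubgroup.Gamma0 N)
  have h2 : ((matT ^ N * g : SL(2, ℤ)) : SL(2, ℤ) ⧸ CongruenceSubgroup.Gamma0 N)
      = (g : SL(2, ℤ) ⧸ CongruenceSubgroup.Gamma0 N) := h1
  rw [QuotientGroup.eq] at h2
  have h3 := inv_mem h2
  have e : ((matT ^ N * g)⁻¹ * g)⁻¹ = g⁻¹ * matT ^ N * g := by group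
  rwa [e] at h3

theorem h5_conj_isMer (N : ℕ) [NeZero N] (θ : RN N) (g : SL(2, ℤ)) :
    h5_IsMer (N : ℝ) (fun z : ℍ => θ.1.1 (g⁻¹ • z)) := by
  refine h5_isMer_of_modGrowth N (h2_holoSmul g⁻¹ θ.1).2 (fun z => ?_) ((mem_RN.1 θ.2).2 g⁻¹)
  have h1 : g⁻¹ • (matT ^ N • z) = (g⁻¹ * matT ^ N * g) • (g⁻¹ • z) := by
    rw [mul_smul, mul_smul, smul_inv_smul]
  show θ.1.1 (g⁻¹ • (matT ^ N • z)) = θ.1.1 (g⁻¹ • z)
  rw [h1]
  exact h5_RN_invariant θ _ (h5_conj_T_pow_mem N g) _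

/-- `θ ↦ θ ∘ g⁻¹`, as a ring hom from `R_N` to the functions meromorphic at `∞`. -/
def h5_conjRN (N : ℕ) [NeZero N] (g : SL(2, ℤ)) : RN N →+* h5_merSubring (N : ℝ) (h5_posN N) where
  toFun θ := ⟨fun z : ℍ => θ.1.1 (g⁻¹ • z), h5_conj_isMer N θ g⟩
  map_one' := rfl
  map_mul' _ _ := rfl
  map_zero' := rfl
  map_add' _ _ := rfl

/-- `ψ_g θ` = the `q_N`-expansion of `θ ∘ g⁻¹`. -/
def h5_psiRN (N : ℕ) [NeZero N] (g : SL(2, ℤ)) : RN N →+* LaurentSeries ℂ :=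
  (h5_mexpHom (N : ℝ) (h5_posN N)).comp (h5_conjRN N g)

theorem h5_psiRN_apply (N : ℕ) [NeZero N] (g : SL(2, ℤ)) (θ : RN N) :
    h5_psiRN N g θ = h5_mexp (N : ℝ) (fun z : ℍ => θ.1.1 (g⁻¹ • z)) := rfl

theorem h5_psiRN_expands (N : ℕ) [NeZero N] (g : SL(2, ℤ)) (θ : RN N) :
    h9_ExpandsInfty N (fun z : ℍ => θ.1.1 (g⁻¹ • z)) (h5_psiRN N g θ) :=
  h5_expandsInfty_mexp N (h5_conj_isMer N θ g)

theorem h5_psiRN_injective (N : ℕ) [NeZero N] (g : SL(2, ℤ)) :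
    Function.Injective (h5_psiRN N g) := by
  refine (h5_mexpHom_injective (h5_posN N)).comp ?_
  intro θ θ' h
  have h1 : ∀ z : ℍ, θ.1.1 (g⁻¹ • z) = θ'.1.1 (g⁻¹ • z) := fun z =>
    congrFun (congrArg Subtype.val h) z
  apply Subtype.ext
  apply Subtype.ext
  funext z
  have := h1 (g • z)
  rwa [inv_smul_smul] at this

theorem h5_psiRN_eq_zero_iff (N : ℕ) [NeZero N] (g : SL(2, ℤ)) (θ : RN N) :
    h5_psiRN N g θ = 0 ↔ θ = 0 := by
  rw [← map_zero (h5_psiRN N g)]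
  exact (h5_psiRN_injective N g).eq_iff

theorem h5_psiRN_const (N : ℕ) [NeZero N] (g : SL(2, ℤ)) (c : ℂ) :
    h5_psiRN N g (constRN N c) = HahnSeries.C c := by
  rw [h5_psiRN_apply]
  exact h5_mexp_const (h5_posN N) c

theorem h5_psiRN_ext (N : ℕ) [NeZero N] (g g' : SL(2, ℤ)) (θ : RN N)
    (h : ∀ z : ℍ, θ.1.1 (g⁻¹ • z) = θ.1.1 (g'⁻¹ • z)) :
    h5_psiRN N g θ = h5_psiRN N g' θ := by
  rw [h5_psiRN_apply, h5_psiRN_apply]
  congr 1
  funext z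
  exact h z

theorem h5_psiRN_coset (N : ℕ) [NeZero N] (g δ : SL(2, ℤ))
    (hδ : δ ∈ CongruenceSubgroup.Gamma0 N) : h5_psiRN N (g * δ) = h5_psiRN N g := by
  refine RingHom.ext (fun θ => h5_psiRN_ext N (g * δ) g θ (fun z => ?_))
  rw [_root_.mul_inv_rev, mul_smul]
  exact h5_RN_invariant θ δ⁻¹ (inv_mem hδ) _

/-! ### The generators `J_d`, `d ∣ N`, as elements of `R_N` -/

/-- `J_d = j(d ·)` as an element of `R_N`, for `d ∣ N`. -/
def h5_JdRN (N : ℕ) [NeZero N] (d : ℕ) (hd : d ∣ N) : RN N :=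
  ⟨h2_JdHolo d, mem_RN.2 ⟨fun δ hδ => by
      apply Subtype.ext
      funext z
      exact h5_Jd_invariant N d hd δ hδ z,
    fun g => h3_growth_Jd N d hd g⟩⟩

theorem h5_JdRN_apply (N : ℕ) [NeZero N] (d : ℕ) (hd : d ∣ N) (z : ℍ) :
    (h5_JdRN N d hd).1.1 z = h9_Jd d z := rfl

theorem h5_jRN_apply (N : ℕ) [NeZero N] (z : ℍ) : (jRN N).1.1 z = jFun z :=
  h5_Jd_one z

theorem h5_psiRN_distinct (N : ℕ) [NeZero N] (g g' : SL(2, ℤ))
    (h : h5_psiRN N g = h5_psiRN N g') : g⁻¹ * g' ∈ CongruenceSubgroup.Gamma0 N := by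
  refine h5_distinct N g g' (fun z => ?_)
  have h1 := h5_psiRN_expands N g (h5_JdRN N N dvd_rfl) z
  have h2 := h5_psiRN_expands N g' (h5_JdRN N N dvd_rfl) z
  rw [h] at h1
  exact h9_LSum_val_unique h1 h2

theorem h5_psiRN_agree (N : ℕ) [NeZero N] (g g' : SL(2, ℤ)) :
    h5_psiRN N g (jRN N) = h5_psiRN N g' (jRN N) := by
  refine h5_psiRN_ext N g g' (jRN N) (fun z => ?_)
  rw [h5_jRN_apply, h5_jRN_apply, h3_jFun_smul, h3_jFun_smul]

/-- **(d)** the coordinate `j` has a pole of order `N` in `q_N`. -/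
theorem h5_psiRN_order_j (N : ℕ) [NeZero N] (g : SL(2, ℤ)) :
    (h5_psiRN N g (jRN N)).order = -(N : ℤ) := by
  have h1 : h5_psiRN N g (jRN N) = h5_cuspSeries N (h5_zeta 1 ^ 0) := by
    refine h5_expandsInfty_unique N (h5_psiRN_expands N g (jRN N))
      (h5_expandsInfty_congr (fun z => ?_) (h5_expands_jFun N))
    rw [h5_jRN_apply, h3_jFun_smul]
  rw [h1, h5_cuspSeries_order]

/-- **(e)** orders are constant along `T`-orbits. -/
theorem h5_psiRN_order_T (N : ℕ) [NeZero N] (g : SL(2, ℤ)) (θ : RN N) :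
    (h5_psiRN N (matT * g) θ).order = (h5_psiRN N g θ).order := by
  refine h5_order_T N (fun z => θ.1.1 (g⁻¹ • z)) (-1) _ _ (h5_psiRN_expands N g θ)
    (h5_expandsInfty_congr (fun z => ?_) (h5_psiRN_expands N (matT * g) θ))
  show θ.1.1 ((matT * g)⁻¹ • z) = θ.1.1 (g⁻¹ • (matT ^ (-1 : ℤ) • z))
  rw [_root_.mul_inv_rev, mul_smul, _root_.zpow_neg_one]

/-- **(f)** at a cusp of width dividing `h`, orders are divisible by `N / h`. -/
theorem h5_psiRN_dvd_order (N : ℕ) [NeZero N] (g : SL(2, ℤ)) (h : ℕ) (hh : 0 < h) (hhN : h ∣ N)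
    (hg : g⁻¹ * matT ^ h * g ∈ CongruenceSubgroup.Gamma0 N) (θ : RN N) :
    (((N / h : ℕ) : ℤ) ∣ (h5_psiRN N g θ).order) := by
  refine h5_dvd_order_of_periodic N (fun z => θ.1.1 (g⁻¹ • z)) h hh hhN (fun z => ?_) _
    (h5_psiRN_expands N g θ)
  show θ.1.1 (g⁻¹ • (matT ^ h • z)) = θ.1.1 (g⁻¹ • z)
  have h1 : g⁻¹ • (matT ^ h • z) = (g⁻¹ * matT ^ h * g) • (g⁻¹ • z) := by
    rw [mul_smul, mul_smul, smul_inv_smul]
  rw [h1]
  exact h5_RN_invariant θ _ hg _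

end Fermat.Agent.Lib.S20
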