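import Mathlib
import Fermat.Agent.Lib.S20.GFamily
import Fermat.Agent.Lib.S20.CarrierRN
import Fermat.Agent.Lib.S20.CuspRN

/-!
# Project S20, slab (MF-C2): `CInftyG` for the analytic function field `M_N`

Owner: helper5.  Feeds the cusp family `h5_psiRN` on `R_N` to helper9's generic assembly.
-/

set_option autoImplicit false

noncomputable section

namespace Fermat.Agent.Lib.S20

open Fermat.Agent.Lib.X0

/-- The family of `q_N`-expansions at the cusp `∞` on the carrier `R_N`. -/
def h5_cuspGFamily (N : ℕ) [NeZero N] : h9_GFamily N (h9_carrierRN N) where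
  ψ := h5_psiRN N
  ker g a := (h5_psiRN_eq_zero_iff N g a).trans (h9_carrierRN_phi_eq_zero_iff N a).symm
  const := h5_psiRN_const N
  coset := h5_psiRN_coset N
  distinct := h5_psiRN_distinct N
  agree := h5_psiRN_agree N

/-- **Contract (MF-C, cusps)** for `(ℂ, M_N, j)`. -/
theorem h5_cInftyG (N : ℕ) [NeZero N] : CInftyG (RingHom.id ℂ) (xM N) N :=
  h9_cInftyG_of_family N (h5_cuspGFamily N) (h5_psiRN_order_j N) (h5_psiRN_order_T N)
    (h5_psiRN_dvd_order N)

end Fermat.Agent.Lib.S20
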