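import Mathlib
import Fermat.Agent.Lib.S20.CInftyM
import Fermat.Agent.Lib.X0.JBridge

/-!
# Project S20, slab (MF-D): the concrete embedding at `∞` and leading-term asymptotics

Owner: helper5.
-/

set_option autoImplicit false

noncomputable section

namespace Fermat.Agent.Lib.S20

open Fermat.Agent.Lib.X0
open Function Filter Complex ModularCurve
open UpperHalfPlane hiding I
open scoped Manifold Topology Real MatrixGroups

local notation "𝕢" => Periodic.qParam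

/-! ### (D-cusp) the concrete local embedding data at `∞` -/

theorem h5_lift_inv_order (N : ℕ) [NeZero N] (g : SL(2, ℤ)) :
    ((h5_cuspGFamily N).lift g (xM N)⁻¹).order = (N : ℤ) := by
  have hN : (0 : ℤ) < N := by exact_mod_cast Nat.pos_of_ne_zero (NeZero.ne N)
  have h1 : (h5_cuspGFamily N).lift g (xM N) = h5_psiRN N g (jRN N) :=
    (h5_cuspGFamily N).lift_phi g (jRN N)
  rw [map_inv₀, h1]
  have hne : h5_psiRN N g (jRN N) ≠ 0 := by
    intro h0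
    have := h5_psiRN_order_j N g
    rw [h0, HahnSeries.order_zero] at this
    omega
  rw [h9_order_inv_laurentC hne, h5_psiRN_order_j, neg_neg]

/-- The local embedding data of `M_N` at `j = ∞`. -/
def h5_Einfty (N : ℕ) [NeZero N] : LocalEmb (RingHom.id ℂ) (xM N) (xM N)⁻¹ (QN N) N :=
  (h5_cuspGFamily N).localEmb (xM N)⁻¹ N (Nat.pos_of_ne_zero (NeZero.ne N)) (h5_lift_inv_order N)

theorem h5_Einfty_tau_mk (N : ℕ) [NeZero N] (g : SL(2, ℤ)) (θ : RN N) :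
    (h5_Einfty N).τ (g : QN N) (algebraMap (RN N) (MN N) θ) = h5_psiRN N g θ := by
  show (h5_cuspGFamily N).tau (g : QN N) (algebraMap (RN N) (MN N) θ) = h5_psiRN N g θ
  rw [(h5_cuspGFamily N).tau_mk g]
  exact (h5_cuspGFamily N).lift_phi g θ

theorem h5_Einfty_expands (N : ℕ) [NeZero N] (g : SL(2, ℤ)) (θ : RN N) :
    h9_ExpandsInfty N (fun z : ℍ => θ.1.1 (g⁻¹ • z))
      ((h5_Einfty N).τ (g : QN N) (algebraMap (RN N) (MN N) θ)) := by
  rw [h5_Einfty_tau_mk]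
  exact h5_psiRN_expands N g θ

theorem h5_Einfty_order_T (N : ℕ) [NeZero N] (q : QN N) (f : MN N) :
    ((h5_Einfty N).τ (matT • q) f).order = ((h5_Einfty N).τ q f).order :=
  (h5_cuspGFamily N).order_tau_smul matT (h5_psiRN_order_T N) q f

/-! ### (D-asym) leading-term asymptotics of an expansion at `∞` -/

/-- The power series `∑ₙ s.coeff (order + n) Xⁿ` attached to a Laurent series. -/
def h5_unitPart (s : LaurentSeries ℂ) : PowerSeries ℂ :=
  PowerSeries.mk (fun n : ℕ => s.coeff (s.order + n))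

theorem h5_hasSum_unitPart {s : LaurentSeries ℂ} {w v : ℂ} (hw : w ≠ 0) (h : h9_LSum s w v) :
    HasSum (fun n : ℕ => PowerSeries.coeff n (h5_unitPart s) * w ^ n) (v * w ^ (-s.order)) := by
  unfold h9_LSum at h
  set o := s.order with ho
  have hinj : Function.Injective (fun n : ℕ => o + (n : ℤ)) := by
    intro a b hab
    simpa using hab
  have h2 := (Function.Injective.hasSum_iff hinj (f := fun m : ℤ => s.coeff m * w ^ m) (a := v)
    (by
      intro m hm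
      have hlt : m < o := by
        by_contra hge
        push Not at hge
        apply hm
        refine ⟨(m - o).toNat, ?_⟩
        show o + ((m - o).toNat : ℤ) = m
        rw [Int.toNat_of_nonneg (by omega)]; ring
      rw [HahnSeries.coeff_eq_zero_of_lt_order hlt, zero_mul])).mpr h
  have h3 := h2.mul_right (w ^ (-o))
  have e : (fun n : ℕ => PowerSeries.coeff n (h5_unitPart s) * w ^ n)
      = fun i : ℕ => ((fun m : ℤ => s.coeff m * w ^ m) ∘ fun n : ℕ => o + (n : ℤ)) i * w ^ (-o) := by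
    funext n
    simp only [Function.comp_apply, h5_unitPart, PowerSeries.coeff_mk]
    rw [zpow_add₀ hw, zpow_natCast, zpow_neg]
    have hwo : w ^ o ≠ 0 := zpow_ne_zero _ hw
    field_simp
    rw [ho]
  rw [e]
  exact h3

theorem h5_isTaylor_unitPart (N : ℕ) [NeZero N] {F : ℍ → ℂ} {s : LaurentSeries ℂ}
    (hs : h9_ExpandsInfty N F s) :
    h1_IsTaylor (fun w => ∑' n : ℕ, PowerSeries.coeff n (h5_unitPart s) * w ^ n)
      (h5_unitPart s) := by
  intro w hw1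
  by_cases hw : w = 0
  · subst hw
    have h0 : HasSum (fun n : ℕ => PowerSeries.coeff n (h5_unitPart s) * (0 : ℂ) ^ n)
        (PowerSeries.coeff 0 (h5_unitPart s) * (0 : ℂ) ^ 0) :=
      hasSum_single 0 (fun n hn => by rw [zero_pow hn, mul_zero])
    exact h0.summable.hasSum
  · obtain ⟨z, hz⟩ := h5_qParam_surj N hw hw1
    have h1 := hs z
    rw [hz] at h1
    have h2 := h5_hasSum_unitPart hw h1
    exact h2.summable.hasSum

/-- **(D-asym)** `F · q_N^{-ord}` tends to the leading coefficient at `i∞`. -/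
theorem h5_tendsto_of_expandsInfty (N : ℕ) [NeZero N] {F : ℍ → ℂ} {s : LaurentSeries ℂ}
    (hs : h9_ExpandsInfty N F s) :
    Tendsto (fun τ : ℍ => F τ * 𝕢 (N : ℝ) (τ : ℂ) ^ (-s.order)) atImInfty
      (𝓝 (s.coeff s.order)) := by
  have hT := h5_isTaylor_unitPart N hs
  set f : ℂ → ℂ := fun w => ∑' n : ℕ, PowerSeries.coeff n (h5_unitPart s) * w ^ n with hf
  have hcont : ContinuousAt f 0 := hT.hasFPowerSeriesOnBall.hasFPowerSeriesAt.continuousAt
  have hf0 : f 0 = s.coeff s.order := by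
    have h0 := hT 0 (by simp)
    have h1 : HasSum (fun n : ℕ => PowerSeries.coeff n (h5_unitPart s) * (0 : ℂ) ^ n)
        (PowerSeries.coeff 0 (h5_unitPart s) * (0 : ℂ) ^ 0) :=
      hasSum_single 0 (fun n hn => by rw [zero_pow hn, mul_zero])
    rw [h0.unique h1]
    simp [h5_unitPart]
  have hq : Tendsto (fun τ : ℍ => 𝕢 (N : ℝ) (τ : ℂ)) atImInfty (𝓝 0) :=
    qParam_tendsto_atImInfty (h5_posN N)
  have hlim : Tendsto (fun τ : ℍ => f (𝕢 (N : ℝ) (τ : ℂ))) atImInfty (𝓝 (s.coeff s.order)) := by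
    rw [← hf0]
    exact hcont.tendsto.comp hq
  refine hlim.congr (fun τ => ?_)
  have hw : 𝕢 (N : ℝ) (τ : ℂ) ≠ 0 := Periodic.qParam_ne_zero _
  have hw1 : ‖𝕢 (N : ℝ) (τ : ℂ)‖ < 1 := Periodic.norm_qParam_lt_one (h5_posN N) τ.im_pos
  exact (hT _ hw1).unique (h5_hasSum_unitPart hw (hs τ))

theorem h5_norm_qParam_zpow_ge_one (N : ℕ) [NeZero N] (τ : ℍ) {k : ℤ} (hk : k ≤ 0) :
    1 ≤ ‖𝕢 (N : ℝ) (τ : ℂ) ^ k‖ := by
  have hw1 : ‖𝕢 (N : ℝ) (τ : ℂ)‖ < 1 := Periodic.norm_qParam_lt_one (h5_posN N) τ.im_pos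
  have hw0 : 0 < ‖𝕢 (N : ℝ) (τ : ℂ)‖ := norm_pos_iff.mpr (Periodic.qParam_ne_zero _)
  obtain ⟨n, rfl⟩ : ∃ n : ℕ, k = -(n : ℤ) := ⟨(-k).toNat, by rw [Int.toNat_of_nonneg (by omega)]; ring⟩
  rw [norm_zpow, zpow_neg, zpow_natCast]
  rw [one_le_inv₀ (pow_pos hw0 n)]
  exact pow_le_one₀ hw0.le hw1.le

theorem h5_tendsto_qParam_zpow (N : ℕ) [NeZero N] {k : ℤ} (hk : 1 ≤ k) :
    Tendsto (fun τ : ℍ => 𝕢 (N : ℝ) (τ : ℂ) ^ k) atImInfty (𝓝 0) := by
  obtain ⟨n, rfl⟩ : ∃ n : ℕ, k = ((n + 1 : ℕ) : ℤ) :=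
    ⟨(k - 1).toNat, by push_cast; rw [Int.toNat_of_nonneg (by omega)]; ring⟩
  have hq : Tendsto (fun τ : ℍ => 𝕢 (N : ℝ) (τ : ℂ)) atImInfty (𝓝 0) :=
    qParam_tendsto_atImInfty (h5_posN N)
  have := hq.pow (n + 1)
  rw [zero_pow (Nat.succ_ne_zero n)] at this
  refine this.congr (fun τ => ?_)
  rw [zpow_natCast]

/-- For `m : ℤ`: `F · q_N^m → 0` at `i∞` iff `1 ≤ order + m`. -/
theorem h5_tendsto_zero_iff (N : ℕ) [NeZero N] {F : ℍ → ℂ} {s : LaurentSeries ℂ}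
    (hs : h9_ExpandsInfty N F s) (hs0 : s ≠ 0) (m : ℤ) :
    Tendsto (fun τ : ℍ => F τ * 𝕢 (N : ℝ) (τ : ℂ) ^ m) atImInfty (𝓝 0) ↔ 1 ≤ s.order + m := by
  have hc : s.coeff s.order ≠ 0 := fun h0 => hs0 (HahnSeries.coeff_order_eq_zero.mp h0)
  have hG := h5_tendsto_of_expandsInfty N hs
  have hsplit : ∀ τ : ℍ, F τ * 𝕢 (N : ℝ) (τ : ℂ) ^ m
      = (F τ * 𝕢 (N : ℝ) (τ : ℂ) ^ (-s.order)) * 𝕢 (N : ℝ) (τ : ℂ) ^ (s.order + m) := by
    intro τ
    have hw : 𝕢 (N : ℝ) (τ : ℂ) ≠ 0 := Periodic.qParam_ne_zero _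
    rw [mul_assoc, ← zpow_add₀ hw]
    congr 2
    ring
  constructor
  · intro h
    by_contra hlt
    push Not at hlt
    have hk : s.order + m ≤ 0 := by omega
    have h0 : Tendsto (fun τ : ℍ => F τ * 𝕢 (N : ℝ) (τ : ℂ) ^ (-s.order)) atImInfty (𝓝 0) := by
      have hn : Tendsto (fun τ : ℍ => ‖F τ * 𝕢 (N : ℝ) (τ : ℂ) ^ m‖) atImInfty (𝓝 0) :=
        tendsto_zero_iff_norm_tendsto_zero.mp h
      refine squeeze_zero_norm (a := fun τ : ℍ => ‖F τ * 𝕢 (N : ℝ) (τ : ℂ) ^ m‖) (fun τ => ?_) hn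
      calc ‖F τ * 𝕢 (N : ℝ) (τ : ℂ) ^ (-s.order)‖
          ≤ ‖F τ * 𝕢 (N : ℝ) (τ : ℂ) ^ (-s.order)‖ * ‖𝕢 (N : ℝ) (τ : ℂ) ^ (s.order + m)‖ :=
            le_mul_of_one_le_right (norm_nonneg (F τ * 𝕢 (N : ℝ) (τ : ℂ) ^ (-s.order)))
              (h5_norm_qParam_zpow_ge_one N τ hk)
        _ = ‖F τ * 𝕢 (N : ℝ) (τ : ℂ) ^ m‖ := by rw [← norm_mul, ← hsplit τ]
    exact hc (tendsto_nhds_unique hG h0)
  · intro hk
    have h1 := hG.mul (h5_tendsto_qParam_zpow N hk)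
    rw [mul_zero] at h1
    exact h1.congr (fun τ => (hsplit τ).symm)

/-- `F` vanishes at `i∞` iff its expansion has positive order. -/
theorem h5_isZero_iff (N : ℕ) [NeZero N] {F : ℍ → ℂ} {s : LaurentSeries ℂ}
    (hs : h9_ExpandsInfty N F s) (hs0 : s ≠ 0) :
    IsZeroAtImInfty F ↔ 1 ≤ s.order := by
  have h := h5_tendsto_zero_iff N hs hs0 0
  simp only [zpow_zero, mul_one, add_zero] at h
  exact h

/-- `F` is bounded at `i∞` iff its expansion has nonnegative order. -/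
theorem h5_isBounded_iff (N : ℕ) [NeZero N] {F : ℍ → ℂ} {s : LaurentSeries ℂ}
    (hs : h9_ExpandsInfty N F s) (hs0 : s ≠ 0) :
    IsBoundedAtImInfty F ↔ 0 ≤ s.order := by
  constructor
  · intro hb
    have hq : Tendsto (fun τ : ℍ => 𝕢 (N : ℝ) (τ : ℂ) ^ (1 : ℤ)) atImInfty (𝓝 0) :=
      h5_tendsto_qParam_zpow N le_rfl
    have h1 : Tendsto (fun τ : ℍ => F τ * 𝕢 (N : ℝ) (τ : ℂ) ^ (1 : ℤ)) atImInfty (𝓝 0) := by
      have hb' : F =O[atImInfty] (fun _ : ℍ => (1 : ℝ)) := hb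
      have hq' : (fun τ : ℍ => 𝕢 (N : ℝ) (τ : ℂ) ^ (1 : ℤ)) =o[atImInfty] (fun _ : ℍ => (1 : ℝ)) :=
        (Asymptotics.isLittleO_one_iff ℝ).mpr hq
      have := hb'.mul_isLittleO hq'
      simp only [mul_one] at this
      exact (Asymptotics.isLittleO_one_iff ℝ).mp this
    have := (h5_tendsto_zero_iff N hs hs0 1).mp h1
    omega
  · intro ho
    have hG := h5_tendsto_of_expandsInfty N hs
    have hG' : (fun τ : ℍ => F τ * 𝕢 (N : ℝ) (τ : ℂ) ^ (-s.order)) =O[atImInfty]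
        (fun _ : ℍ => (1 : ℝ)) := hG.isBigO_one ℝ
    have hq : (fun τ : ℍ => 𝕢 (N : ℝ) (τ : ℂ) ^ s.order) =O[atImInfty] (fun _ : ℍ => (1 : ℝ)) := by
      refine Asymptotics.IsBigO.of_bound 1 (Filter.Eventually.of_forall (fun τ => ?_))
      obtain ⟨n, hn⟩ : ∃ n : ℕ, s.order = (n : ℤ) := ⟨s.order.toNat, (Int.toNat_of_nonneg ho).symm⟩
      rw [hn, zpow_natCast, norm_pow, norm_one, mul_one]
      exact pow_le_one₀ (norm_nonneg _)
        (Periodic.norm_qParam_lt_one (h5_posN N) τ.im_pos).le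
    have := hG'.mul hq
    simp only [mul_one] at this
    show F =O[atImInfty] (fun _ : ℍ => (1 : ℝ))
    refine this.congr_left (fun τ => ?_)
    have hw : 𝕢 (N : ℝ) (τ : ℂ) ≠ 0 := Periodic.qParam_ne_zero _
    rw [mul_assoc, ← zpow_add₀ hw, neg_add_cancel, zpow_zero, mul_one]

end Fermat.Agent.Lib.S20
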