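/-
Project S20, slab (MF-D) (owner helper3): definitions and internal contracts of the dictionary
`S₂(Γ₀(N)) ≃ L(div dj)`.
-/
import Fermat.Agent.Lib.S20.Defs
import Fermat.Agent.Lib.X0.JOrder
import Fermat.Agent.Lib.X0.FinExp
import Fermat.Agent.Lib.X0.EmbDefs

set_option autoImplicit false

noncomputable section

namespace Fermat.Agent.Lib.S20

open AlgebraicCurve ModularCurve KaehlerDifferential UpperHalfPlane ModularForm EisensteinSeries
open Fermat.Agent.Lib.X0 Filter Topology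
open scoped MatrixGroups Manifold

local notation "Δ" => ModularForm.discriminant

/-- `Dj = (2πi)⁻¹ dj/dτ = -E₄² E₆ / Δ`, a weight `2` holomorphic (level one) function. -/
def h3_Dj (τ : ℍ) : ℂ := -(E₄ τ ^ 2 * E₆ τ) / Δ τ

/-! ## Contracts with the (MF-C) team: the *concrete* local embeddings -/

/-- (MF-C, finite points, concrete form) for every `τ₀ : ℍ` the local embedding datum over
`j = j(τ₀)` whose embedding attached to `g Γ₀(N)` is the Taylor expansion at `τ₀` of `θ ∘ g⁻¹`. -/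
def CFiniteConcrete (N : ℕ) [NeZero N] : Prop :=
  ∀ τ₀ : ℍ, ∃ (M : ℕ)
    (E : LocalEmb (RingHom.id ℂ) (xM N) (xM N - algebraMap ℂ (MN N) (jFun τ₀)) (QN N) M),
    ∀ (g : SL(2, ℤ)) (θ : RN N),
      E.τ (g : QN N) (algebraMap (RN N) (MN N) θ) = h2_expG τ₀ g θ.1

/-- (MF-C, cusps, concrete form) the local embedding datum over `j = ∞` whose embedding attached
to `g Γ₀(N)` is the `q_N`-expansion of `θ ∘ g⁻¹`. -/
def CInftyConcrete (N : ℕ) [NeZero N] : Prop :=
  ∃ E : LocalEmb (RingHom.id ℂ) (xM N) (xM N)⁻¹ (QN N) N,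
    ∀ (g : SL(2, ℤ)) (θ : RN N),
      h9_ExpandsInfty N (fun z : ℍ => θ.1.1 (g⁻¹ • z))
        (E.τ (g : QN N) (algebraMap (RN N) (MN N) θ))

/-! ## Internal analytic contracts of (MF-D) -/

/-- (D-div) division of holomorphic functions on `ℍ`: pointwise inequality of vanishing orders
implies divisibility. -/
def HoloDivStatement : Prop :=
  ∀ a b : h2_holo, b ≠ 0 →
    (∀ τ₀ : ℍ, (h2_taylorHom τ₀ b).order ≤ (h2_taylorHom τ₀ a).order) → b ∣ a

/-- (D-Ff) the weight `0` function `f E₄ E₆ / Δ ∈ R_N` attached to a weight `2` cusp form. -/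
def FfStatement (N : ℕ) [NeZero N] : Prop :=
  ∃ Ff : CuspForm (CongruenceSubgroup.Gamma0 N) 2 →ₗ[ℂ] RN N,
    ∀ (f : CuspForm (CongruenceSubgroup.Gamma0 N) 2) (τ : ℍ),
      (Ff f).1.1 τ = f τ * E₄ τ * E₆ τ / Δ τ

/-- (D-asymp) the leading term of a convergent `q_N`-expansion. -/
def AsympStatement : Prop :=
  ∀ (N : ℕ) [NeZero N] (u : ℍ → ℂ) (s : LaurentSeries ℂ), h9_ExpandsInfty N u s → s ≠ 0 →
    Tendsto (fun z : ℍ => u z * Function.Periodic.qParam (N : ℝ) (z : ℂ) ^ (-s.order))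
      atImInfty (𝓝 (s.coeff s.order))

/-- (D-cusp, elimination) a cusp form of level `Γ₀(N)` vanishes at every cusp: all its
`SL₂(ℤ)`-translates tend to `0` at `i∞`. -/
def CuspZeroStatement (N : ℕ) [NeZero N] : Prop :=
  ∀ (f : CuspForm (CongruenceSubgroup.Gamma0 N) 2) (γ : SL(2, ℤ)),
    IsZeroAtImInfty ((f : ℍ → ℂ) ∣[(2 : ℤ)] γ)

/-- (D-cusp, introduction) a holomorphic function with the weight `2` transformation law under
`Γ₀(N)` all of whose `SL₂(ℤ)`-translates tend to `0` at `i∞` is a cusp form. -/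
def CuspMkStatement (N : ℕ) [NeZero N] : Prop :=
  ∀ F : ℍ → ℂ, MDiff F →
    (∀ δ ∈ CongruenceSubgroup.Gamma0 N, F ∣[(2 : ℤ)] δ = F) →
    (∀ γ : SL(2, ℤ), IsZeroAtImInfty (F ∣[(2 : ℤ)] γ)) →
    ∃ f : CuspForm (CongruenceSubgroup.Gamma0 N) 2, ∀ τ : ℍ, f τ = F τ

end Fermat.Agent.Lib.S20
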