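import Mathlib
import Fermat.Agent.Lib.S20.DictDefs
import Fermat.Agent.Lib.S20.CuspAsym

/-!
# Project S20, slab (MF-D), cusp side: asymptotics, cusp forms vanish at all cusps, and the
constructor of cusp forms from functions

Owner: helper5.
-/

set_option autoImplicit false

noncomputable section

namespace Fermat.Agent.Lib.S20

open Fermat.Agent.Lib.X0
open Function Filter Complex ModularCurve ModularForm
open UpperHalfPlane hiding I
open scoped Manifold Topology Real MatrixGroups

/-- **(D-asymp)**. -/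
theorem h5_asymp : AsympStatement :=
  fun N _ _ _ hs _ => h5_tendsto_of_expandsInfty N hs

/-- **(D-cusp, elimination)**. -/
theorem h5_cuspZero (N : ℕ) [NeZero N] : CuspZeroStatement N := by
  intro f γ
  have hc : IsCusp (Matrix.SpecialLinearGroup.mapGL ℝ γ • (OnePoint.infty : OnePoint ℝ)) 𝒮ℒ :=
    isCusp_SL2Z_iff'.mpr ⟨γ, rfl⟩
  have hc' := (Subgroup.IsArithmetic.isCusp_iff_isCusp_SL2Z
    ((CongruenceSubgroup.Gamma0 N : Subgroup SL(2, ℤ)) : Subgroup (GL (Fin 2) ℝ))).mpr hc
  have h := f.zero_at_cusps' hc'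
  exact h (Matrix.SpecialLinearGroup.mapGL ℝ γ) rfl

/-- **(D-cusp, introduction)**. -/
theorem h5_cuspMk (N : ℕ) [NeZero N] : CuspMkStatement N := by
  intro F hF hinv hzero
  refine ⟨{ toFun := F, slash_action_eq' := ?_, holo' := hF, zero_at_cusps' := ?_ },
    fun τ => rfl⟩
  · intro γ hγ
    obtain ⟨δ, hδ, rfl⟩ := hγ
    exact hinv δ hδ
  · intro c hc
    rw [Subgroup.IsArithmetic.isCusp_iff_isCusp_SL2Z] at hc
    rw [OnePoint.isZeroAt_iff_forall_SL2Z hc]
    intro γ _
    exact hzero γ

end Fermat.Agent.Lib.S20
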