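/-
Project S20, slab (MF-D) (helper3): the weight `2` function `Dj = (2πi)⁻¹ dj/dτ = -E₄²E₆/Δ`.
-/
import Fermat.Agent.Lib.S20.DictDefs
import Fermat.Agent.Lib.X0.LevelOneData
import Fermat.Agent.Lib.X0.Distinct

set_option autoImplicit false

noncomputable section

namespace Fermat.Agent.Lib.S20

open UpperHalfPlane hiding I
open Complex ModularForm EisensteinSeries ModularGroup Filter Function
open Fermat.Agent.Lib.X0
open scoped MatrixGroups ModularForm Manifold Topology Real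

local notation "Δ" => ModularForm.discriminant
local notation "𝕢" => Periodic.qParam

open Derivative

/-- `Dj` is the normalised derivative of `j`. -/
theorem h3_Dj_eq_D (τ : ℍ) : h3_Dj τ = D jFun τ := (h3_D_jFun τ).symm

theorem h3_Dj_comp_eq : (h3_Dj ∘ ofComplex) =
    -((E₄ ∘ ofComplex) ^ 2 * (E₆ ∘ ofComplex)) * (Δ ∘ ofComplex)⁻¹ := by
  funext z
  simp only [Function.comp_apply, h3_Dj, Pi.mul_apply, Pi.neg_apply, Pi.pow_apply, Pi.inv_apply,
    div_eq_mul_inv]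

theorem h3_Dj_analyticAt (τ : ℍ) : AnalyticAt ℂ (h3_Dj ∘ ofComplex) (τ : ℂ) := by
  rw [h3_Dj_comp_eq]
  have hΔ : (Δ ∘ ofComplex) (τ : ℂ) ≠ 0 := by
    simp only [Function.comp_apply, ofComplex_apply]; exact discriminant_ne_zero _
  exact ((((h3_analyticAt_of_mdiff (h3_mdiff E₄) τ).pow 2).mul
    (h3_analyticAt_of_mdiff (h3_mdiff E₆) τ)).neg).mul
    ((h3_analyticAt_of_mdiff h3_discriminant_mdiff τ).inv hΔ)

theorem h3_Dj_mdiff : MDiff h3_Dj := by
  rw [UpperHalfPlane.mdifferentiable_iff]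
  intro z hz
  have := h3_Dj_analyticAt ⟨z, hz⟩
  exact this.differentiableAt.differentiableWithinAt

/-- `Dj` as a holomorphic function on `ℍ`. -/
def h3_DjHolo : h2_holo := ⟨h3_Dj, h3_Dj_mdiff⟩

theorem h3_DjHolo_apply (τ : ℍ) : h3_DjHolo.1 τ = h3_Dj τ := rfl

/-- `Dj ≠ 0`. -/
theorem h3_DjHolo_ne_zero : h3_DjHolo ≠ 0 := by
  intro h
  -- at a generic point `Dj` does not vanish: use `j` surjective to find `τ` with `j τ = 1`
  obtain ⟨τ, hτ⟩ := h3_jFun_surjective 1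
  have h0 : h3_Dj τ = 0 := congrArg (fun f : h2_holo => f.1 τ) h
  unfold h3_Dj at h0
  have hΔ := discriminant_ne_zero τ
  rw [div_eq_zero_iff] at h0
  rcases h0 with h0 | h0
  · rw [neg_eq_zero, mul_eq_zero] at h0
    rcases h0 with h0 | h0
    · have h4 : E₄ τ = 0 := by simpa using h0
      have := (h3_jFun_eq_zero_iff τ).mpr h4
      rw [hτ] at this
      exact one_ne_zero this
    · have := (h3_jFun_eq_1728_iff τ).mpr h0
      rw [hτ] at this
      norm_num at this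
  · exact hΔ h0

/-- The weight `2` transformation law of `Dj` under `SL(2, ℤ)`. -/
theorem h3_Dj_smul (γ : SL(2, ℤ)) (τ : ℍ) :
    h3_Dj (γ • τ) = denom γ τ ^ 2 * h3_Dj τ := by
  unfold h3_Dj
  rw [h3_modular_eqn E₄ γ τ, h3_modular_eqn E₆ γ τ, h3_discriminant_eqn γ τ]
  have hj : denom γ τ ≠ 0 := denom_ne_zero γ τ
  have hΔ : Δ τ ≠ 0 := discriminant_ne_zero τ
  have e4 : denom γ τ ^ (4 : ℤ) = denom γ τ ^ 4 := by norm_cast
  have e6 : denom γ τ ^ (6 : ℤ) = denom γ τ ^ 6 := by norm_cast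
  have e12 : denom γ τ ^ (12 : ℤ) = denom γ τ ^ 12 := by norm_cast
  rw [e4, e6, e12]
  field_simp

/-- The order of vanishing of `Dj` at `z` is one less than that of `j - j(z)`. -/
theorem h3_order_Dj (z : ℍ) :
    (h2_taylorH h3_Dj z).order + 1 = (h2_taylorH (fun τ => jFun τ - jFun z) z).order := by
  rw [h3_order_taylorH_eq h3_Dj_mdiff, h3_order_taylorH_eq (h3_jFun_sub_const_mdiff _)]
  have han : AnalyticAt ℂ (jFun ∘ ofComplex) (z : ℂ) := h3_jFun_analyticAt z
  have h1 := han.analyticOrderAt_deriv_add_one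
  have hz : (jFun ∘ ofComplex) (z : ℂ) = jFun z := by
    simp only [Function.comp_apply, ofComplex_apply]
  have e2 : ((fun τ => jFun τ - jFun z) ∘ ofComplex) =
      fun w => (jFun ∘ ofComplex) w - (jFun ∘ ofComplex) (z : ℂ) := by
    funext w
    simp only [Function.comp_apply, ofComplex_apply]
  rw [e2, ← h1]
  congr 1
  -- `deriv (j ∘ ofComplex) = 2πi • (Dj ∘ ofComplex)` near `z`
  have hev : deriv (jFun ∘ ofComplex) =ᶠ[𝓝 (z : ℂ)]
      fun w => (2 * π * Complex.I) * (h3_Dj ∘ ofComplex) w := by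
    have hopen : {w : ℂ | 0 < w.im} ∈ 𝓝 (z : ℂ) :=
      (isOpen_lt continuous_const Complex.continuous_im).mem_nhds z.2
    filter_upwards [hopen] with w hw
    have := h3_deriv_eq_D jFun ⟨w, hw⟩
    simp only [Function.comp_apply]
    rw [show (w : ℂ) = ((⟨w, hw⟩ : ℍ) : ℂ) from rfl, this, ofComplex_apply, h3_Dj_eq_D]
  rw [analyticOrderAt_congr hev]
  have hc : AnalyticAt ℂ (fun _ : ℂ => (2 * π * Complex.I : ℂ)) (z : ℂ) := analyticAt_const
  have hmul : (fun w => (2 * π * Complex.I) * (h3_Dj ∘ ofComplex) w) =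
      (fun _ : ℂ => (2 * π * Complex.I : ℂ)) * (h3_Dj ∘ ofComplex) := rfl
  rw [hmul, analyticOrderAt_mul hc (h3_Dj_analyticAt z)]
  have h0 : analyticOrderAt (fun _ : ℂ => (2 * π * Complex.I : ℂ)) (z : ℂ) = 0 := by
    rw [hc.analyticOrderAt_eq_zero]
    exact h3_two_pi_I_ne_zero
  rw [h0, zero_add]

/-- `Dj · q → -1` at `i∞`. -/
theorem h3_tendsto_Dj_mul_q :
    Tendsto (fun τ : ℍ => h3_Dj τ * 𝕢 1 τ) atImInfty (𝓝 (-1)) := by
  have h4 := h3_tendsto_modform E₄
  rw [E_qExpansion_coeff_zero _ ⟨2, rfl⟩] at h4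
  have h6 := h3_tendsto_modform E₆
  rw [E_qExpansion_coeff_zero _ ⟨3, rfl⟩] at h6
  have hΔ := h3_tendsto_discriminant_div_q
  have := (((h4.pow 2).mul h6).neg).div hΔ one_ne_zero
  simp only [one_pow, mul_one, div_one] at this
  refine this.congr fun τ => ?_
  unfold h3_Dj
  have hq : 𝕢 1 (τ : ℂ) ≠ 0 := Periodic.qParam_ne_zero (h := 1) (τ : ℂ)
  have hΔne : Δ τ ≠ 0 := discriminant_ne_zero τ
  simp only [Pi.div_apply]
  field_simp

end Fermat.Agent.Lib.S20
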