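/-
Project S20, slab (MF-D) (helper3): the concrete local embedding data of `M_N`:
Taylor expansions at an arbitrary base point `τ₀ ∈ ℍ` and `q_N`-expansions at the cusps.
-/
import Fermat.Agent.Lib.S20.DictDj
import Fermat.Agent.Lib.S20.CFiniteM
import Fermat.Agent.Lib.S20.CInftyM

set_option autoImplicit false

noncomputable section

namespace Fermat.Agent.Lib.S20

open UpperHalfPlane
open Fermat.Agent.Lib.X0
open scoped MatrixGroups Manifold

/-- The Taylor series of `Dj` is nonzero at every point. -/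
theorem h3_taylorH_Dj_ne_zero (z : ℍ) : h2_taylorH h3_Dj z ≠ 0 := by
  intro h
  have h0 := (h2_taylorH_eq_zero_iff h3_Dj_mdiff z).mp h
  exact h3_DjHolo_ne_zero (Subtype.ext h0)

/-- The order `M_z` of `j - j(z)` at `z`, as a natural number. -/
def h3_ordJ (z : ℍ) : ℕ := (h2_taylorH h3_Dj z).order.toNat + 1

theorem h3_ordJ_pos (z : ℍ) : 0 < h3_ordJ z := Nat.succ_pos _

theorem h3_order_Dj_eq (z : ℍ) :
    (h2_taylorH h3_Dj z).order = (((h3_ordJ z - 1 : ℕ) : ℕ) : ℕ∞) := by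
  have hne : (h2_taylorH h3_Dj z).order ≠ ⊤ := by
    rw [Ne, PowerSeries.order_eq_top]
    exact h3_taylorH_Dj_ne_zero z
  unfold h3_ordJ
  rw [Nat.add_sub_cancel, ENat.natCast_toNat hne]

theorem h3_order_j_sub (z : ℍ) :
    (h2_taylorH (fun τ => jFun τ - jFun z) z).order = ((h3_ordJ z : ℕ) : ℕ∞) := by
  rw [← h3_order_Dj, h3_order_Dj_eq]
  unfold h3_ordJ
  push_cast
  rfl

/-- **(MF-C, finite points, concrete form).** -/
theorem h3_cFiniteConcrete (N : ℕ) [NeZero N] : CFiniteConcrete N := by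
  intro τ₀
  refine ⟨h3_ordJ τ₀, (h2_psiRN N).localEmb h2_levelOneData (jFun τ₀) τ₀ (h3_ordJ τ₀)
    (h3_ordJ_pos τ₀) (h3_order_j_sub τ₀), ?_⟩
  intro g θ
  show (h2_psiRN N).emb τ₀ (g : QN N) (algebraMap (RN N) (MN N) θ) = _
  rw [h2_PsiG.emb_algebraMap, h2_finExp_mk]
  rfl

/-- **(MF-C, cusps, concrete form).** -/
theorem h3_cInftyConcrete (N : ℕ) [NeZero N] : CInftyConcrete N := by
  have hN : 0 < N := Nat.pos_of_ne_zero (NeZero.ne N)
  have ht : ∀ g : SL(2, ℤ), ((h5_cuspGFamily N).lift g (xM N)⁻¹).order = (N : ℤ) := by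
    intro g
    have hx : xM N = (h9_carrierRN N).φ (h9_carrierRN N).x := rfl
    rw [map_inv₀, hx, h9_GFamily.lift_phi]
    have hd : ((h5_cuspGFamily N).ψ g (h9_carrierRN N).x).order = -(N : ℤ) :=
      h5_psiRN_order_j N g
    have hne : (h5_cuspGFamily N).ψ g (h9_carrierRN N).x ≠ 0 := by
      intro h0
      rw [h0, HahnSeries.order_zero] at hd
      have hN' : (0 : ℤ) < N := by exact_mod_cast hN
      omega
    rw [h9_order_inv_laurentC hne, hd, neg_neg]
  refine ⟨(h5_cuspGFamily N).localEmb (xM N)⁻¹ N hN ht, ?_⟩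
  intro g θ
  rw [h9_GFamily.localEmb_tau, h9_GFamily.tau_mk]
  have h1 : (h5_cuspGFamily N).lift g (algebraMap (RN N) (MN N) θ) = h5_psiRN N g θ :=
    (h5_cuspGFamily N).lift_phi g θ
  rw [h1]
  exact h5_psiRN_expands N g θ

end Fermat.Agent.Lib.S20
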