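/-
Project S20, slab (MF-D) (helper3): the analytic core of the dictionary at the cusps:
for `ua · Dj = ub · φ` with `ua, ub` having `q_N`-expansions `sa, sb`,
`φ → 0` at `i∞` iff `N + 1 ≤ ord sa - ord sb`.
-/
import Fermat.Agent.Lib.S20.DictDj

set_option autoImplicit false

noncomputable section

namespace Fermat.Agent.Lib.S20

open UpperHalfPlane hiding I
open Complex ModularForm EisensteinSeries ModularGroup Filter Function
open Fermat.Agent.Lib.X0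
open scoped MatrixGroups ModularForm Manifold Topology Real

local notation "𝕢" => Periodic.qParam

/-- `q_N ^ N = q_1`. -/
theorem h3_qParam_pow (N : ℕ) [NeZero N] (z : ℂ) : 𝕢 (N : ℝ) z ^ N = 𝕢 1 z := by
  have hN : (N : ℂ) ≠ 0 := Nat.cast_ne_zero.mpr (NeZero.ne N)
  unfold Periodic.qParam
  rw [← Complex.exp_nat_mul]
  congr 1
  push_cast
  field_simp

theorem h3_norm_qParam_le_one (N : ℕ) [NeZero N] (z : ℍ) : ‖𝕢 (N : ℝ) (z : ℂ)‖ ≤ 1 := by
  have hN : (0 : ℝ) < N := Nat.cast_pos.mpr (Nat.pos_of_ne_zero (NeZero.ne N))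
  exact (Periodic.norm_qParam_lt_one hN z.im_pos).le

theorem h3_tendsto_qParam_zpow (N : ℕ) [NeZero N] {e : ℤ} (he : 1 ≤ e) :
    Tendsto (fun z : ℍ => 𝕢 (N : ℝ) (z : ℂ) ^ e) atImInfty (𝓝 0) := by
  have hN : (0 : ℝ) < N := Nat.cast_pos.mpr (Nat.pos_of_ne_zero (NeZero.ne N))
  have hq := qParam_tendsto_atImInfty hN
  obtain ⟨n, rfl⟩ : ∃ n : ℕ, e = n := ⟨e.toNat, by omega⟩
  have hn : n ≠ 0 := by omega
  have := hq.pow n
  rw [zero_pow hn] at this
  simpa [zpow_natCast] using this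

/-- **The analytic core at a cusp.** -/
theorem h3_cusp_core (hAs : AsympStatement) (N : ℕ) [NeZero N] (ua ub φ : ℍ → ℂ)
    (sa sb : LaurentSeries ℂ) (ha : h9_ExpandsInfty N ua sa) (hb : h9_ExpandsInfty N ub sb)
    (hsa : sa ≠ 0) (hsb : sb ≠ 0) (hrel : ∀ z : ℍ, ua z * h3_Dj z = ub z * φ z) :
    Tendsto φ atImInfty (𝓝 0) ↔ (N : ℤ) + 1 ≤ sa.order - sb.order := by
  set ma := sa.order with hma
  set mb := sb.order with hmb
  set e : ℤ := ma - mb - N with he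
  have hA := hAs N ua sa ha hsa
  have hB := hAs N ub sb hb hsb
  have hC := h3_tendsto_Dj_mul_q
  have hα : sa.coeff ma ≠ 0 := fun h => hsa (HahnSeries.coeff_order_eq_zero.mp h)
  have hβ : sb.coeff mb ≠ 0 := fun h => hsb (HahnSeries.coeff_order_eq_zero.mp h)
  set L : ℂ := sa.coeff ma * (-1) / sb.coeff mb with hL
  have hLne : L ≠ 0 := by
    rw [hL]
    exact div_ne_zero (mul_ne_zero hα (by norm_num)) hβ
  -- ψ := φ · q^{-e} → L
  have hψ : Tendsto (fun z : ℍ => φ z * 𝕢 (N : ℝ) (z : ℂ) ^ (-e)) atImInfty (𝓝 L) := by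
    have hquot := (hA.mul hC).div hB hβ
    refine hquot.congr' ?_
    have hBne : ∀ᶠ z : ℍ in atImInfty, ub z * 𝕢 (N : ℝ) (z : ℂ) ^ (-mb) ≠ 0 :=
      hB.eventually_ne hβ
    filter_upwards [hBne] with z hz
    have hq : 𝕢 (N : ℝ) (z : ℂ) ≠ 0 := Periodic.qParam_ne_zero _
    have hub : ub z ≠ 0 := fun h => hz (by rw [h, zero_mul])
    have hqmb : 𝕢 (N : ℝ) (z : ℂ) ^ (-mb) ≠ 0 := zpow_ne_zero _ hq
    have h1 : 𝕢 1 (z : ℂ) = 𝕢 (N : ℝ) (z : ℂ) ^ (N : ℤ) := by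
      rw [zpow_natCast, h3_qParam_pow]
    have hφ : φ z = ua z * h3_Dj z / ub z := by
      rw [hrel z]; field_simp
    simp only [Pi.div_apply]
    rw [hφ, h1, ← hma, ← hmb]
    have he' : -e = -ma + mb + N := by rw [he]; ring
    rw [he', zpow_add₀ hq, zpow_add₀ hq, zpow_neg, zpow_neg]
    have hqma : 𝕢 (N : ℝ) (z : ℂ) ^ ma ≠ 0 := zpow_ne_zero _ hq
    have hqmb' : 𝕢 (N : ℝ) (z : ℂ) ^ mb ≠ 0 := zpow_ne_zero _ hq
    field_simp
  constructor
  · intro hφ0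
    by_contra hcon
    have he0 : 0 ≤ -e := by rw [he]; omega
    -- |ψ| ≤ |φ|
    have hψ0 : Tendsto (fun z : ℍ => φ z * 𝕢 (N : ℝ) (z : ℂ) ^ (-e)) atImInfty (𝓝 0) := by
      rw [tendsto_zero_iff_norm_tendsto_zero] at hφ0 ⊢
      refine squeeze_zero (fun z => norm_nonneg _) (fun z => ?_) hφ0
      rw [norm_mul]
      obtain ⟨n, hn⟩ : ∃ n : ℕ, -e = n := ⟨(-e).toNat, by omega⟩
      rw [hn, zpow_natCast, norm_pow]
      have h1 : ‖𝕢 (N : ℝ) (z : ℂ)‖ ^ n ≤ 1 :=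
        pow_le_one₀ (norm_nonneg _) (h3_norm_qParam_le_one N z)
      exact mul_le_of_le_one_right (norm_nonneg _) h1
    exact hLne (tendsto_nhds_unique hψ hψ0)
  · intro hle
    have he1 : 1 ≤ e := by rw [he]; omega
    have hq := h3_tendsto_qParam_zpow N he1
    have := hψ.mul hq
    rw [mul_zero] at this
    refine this.congr fun z => ?_
    have hq0 : 𝕢 (N : ℝ) (z : ℂ) ≠ 0 := Periodic.qParam_ne_zero _
    rw [mul_assoc, ← zpow_add₀ hq0, neg_add_cancel, zpow_zero, mul_one]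

end Fermat.Agent.Lib.S20
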