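/-
Project S20, slab (MF-D) (helper3): local order computations for the dictionary
`S₂(Γ₀(N)) ≃ L(div dj)`: for `a, b ∈ R_N` and a function `c` with `a · Dj = b · c`, the orders of
the expansions of `a / b` at the finite points and at the cusps in terms of `c`.
-/
import Fermat.Agent.Lib.S20.DictCore
import Fermat.Agent.Lib.S20.DictConcrete
import Fermat.Agent.Lib.X0.FracOrder

set_option autoImplicit false

noncomputable section

namespace Fermat.Agent.Lib.S20

open UpperHalfPlane hiding I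
open Complex ModularForm EisensteinSeries ModularGroup Filter Function
open Fermat.Agent.Lib.X0
open scoped MatrixGroups ModularForm Manifold Topology Real

/-! ## The slash relation -/

/-- From `A · Dj = B · C` to `A ∘ γ · Dj = B ∘ γ · (C ∣[2] γ)`. -/
theorem h3_slash_rel {A B C : ℍ → ℂ} (h : ∀ w : ℍ, A w * h3_Dj w = B w * C w)
    (γ : SL(2, ℤ)) (z : ℍ) :
    A (γ • z) * h3_Dj z = B (γ • z) * (C ∣[(2 : ℤ)] γ) z := by
  have hd : denom γ z ≠ 0 := denom_ne_zero γ z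
  have h1 := h (γ • z)
  rw [h3_Dj_smul] at h1
  rw [SL_slash_apply]
  have e : denom γ z ^ (-(2 : ℤ)) = (denom γ z ^ 2)⁻¹ := by
    rw [zpow_neg]; norm_cast
  rw [e]
  have hd2 : denom γ z ^ 2 ≠ 0 := pow_ne_zero 2 hd
  field_simp
  linear_combination h1

/-! ## Orders at the finite points -/

theorem h3_expG_eq_laurentHom (τ₀ : ℍ) (g : SL(2, ℤ)) (F : h2_holo) :
    (h2_expG τ₀ g F).order = (h2_laurentHom (g⁻¹ • τ₀) F).order := by
  rw [h2_expG_apply, h2_order_laurentHom_smul]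

theorem h3_order_expG_nonneg (τ₀ : ℍ) (g : SL(2, ℤ)) (F : h2_holo) :
    0 ≤ (h2_expG τ₀ g F).order := by
  by_cases hF : F = 0
  · subst hF; simp
  · rw [h3_expG_eq_laurentHom, h2_order_laurentHom _ _ hF]
    exact Int.natCast_nonneg _

/-- The order of the expansion of `Dj` attached to `(τ₀, g)` is `M - 1`, where `M` is the common
order of `j - j(τ₀)`. -/
theorem h3_order_expG_Dj (N : ℕ) [NeZero N] (τ₀ : ℍ) (M : ℕ)
    (E : LocalEmb (RingHom.id ℂ) (xM N) (xM N - algebraMap ℂ (MN N) (jFun τ₀)) (QN N) M)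
    (hE : ∀ (g : SL(2, ℤ)) (θ : RN N),
      E.τ (g : QN N) (algebraMap (RN N) (MN N) θ) = h2_expG τ₀ g θ.1) (g : SL(2, ℤ)) :
    (h2_expG τ₀ g h3_DjHolo).order = (M : ℤ) - 1 := by
  set z : ℍ := g⁻¹ • τ₀ with hz
  have hjz : jFun z = jFun τ₀ := h3_jFun_smul _ _
  -- the order of `Dj`
  have h1 : (h2_expG τ₀ g h3_DjHolo).order = ((h3_ordJ z - 1 : ℕ) : ℤ) := by
    rw [h3_expG_eq_laurentHom, h2_order_laurentHom _ _ h3_DjHolo_ne_zero]
    have := h3_order_Dj_eq z
    have h2 : (h3_DjHolo : h2_holo).1 = h3_Dj := rfl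
    rw [h2, this, ENat.toNat_natCast]
  -- the order `M`
  have h2 : (M : ℤ) = (h3_ordJ z : ℤ) := by
    have hord := E.ord_t (g : QN N)
    have hx : xM N - algebraMap ℂ (MN N) (jFun τ₀)
        = algebraMap (RN N) (MN N) (jRN N - constRN N (jFun τ₀)) := by
      rw [map_sub, h2_algebraMap_const]; rfl
    have hord' : (E.τ (g : QN N)
        (algebraMap (RN N) (MN N) (jRN N - constRN N (jFun τ₀)))).order = (M : ℤ) := by
      rw [← hx]; exact hord
    rw [hE] at hord'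
    rw [← hord', h3_expG_eq_laurentHom]
    have hne : (jRN N - constRN N (jFun τ₀) : RN N).1 ≠ 0 := by
      intro h0
      obtain ⟨τ, hτ⟩ := h3_jFun_surjective (jFun τ₀ + 1)
      have h3 := congrArg (fun F : h2_holo => F.1 τ) h0
      have h4 : (jRN N - constRN N (jFun τ₀) : RN N).1.1 τ = jFun τ - jFun τ₀ := by
        show (jRN N).1.1 τ - jFun τ₀ = _
        rw [h5_jRN_apply]
      have h5 : jFun τ - jFun τ₀ = 0 := by rw [← h4]; exact h3
      rw [hτ] at h5
      simp at h5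
    rw [h2_order_laurentHom _ _ hne]
    have hfun : ((jRN N - constRN N (jFun τ₀) : RN N).1 : h2_holo).1
        = fun τ => jFun τ - jFun z := by
      funext τ
      show (jRN N).1.1 τ - jFun τ₀ = _
      rw [h5_jRN_apply, hjz]
    rw [hfun, h3_order_j_sub z]
    simp
  rw [h1, h2]
  have := h3_ordJ_pos z
  omega

/-- **Orders at a finite point.**  If `a · Dj = b · c` with `c` holomorphic, then the expansion of
`a / b` attached to `(τ₀, g)` has order `ord c - (M - 1)`. -/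
theorem h3_fin_order_of_rel (N : ℕ) [NeZero N] (a b : RN N) (hb : b ≠ 0) (c : h2_holo)
    (hc : c ≠ 0) (hrel : a.1 * h3_DjHolo = b.1 * c) (τ₀ : ℍ) (M : ℕ)
    (E : LocalEmb (RingHom.id ℂ) (xM N) (xM N - algebraMap ℂ (MN N) (jFun τ₀)) (QN N) M)
    (hE : ∀ (g : SL(2, ℤ)) (θ : RN N),
      E.τ (g : QN N) (algebraMap (RN N) (MN N) θ) = h2_expG τ₀ g θ.1) (g : SL(2, ℤ)) :
    (E.τ (g : QN N) (algebraMap (RN N) (MN N) a / algebraMap (RN N) (MN N) b)).order
      + ((M : ℤ) - 1) = (h2_expG τ₀ g c).order := by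
  have hb' : b.1 ≠ 0 := fun h => hb (Subtype.ext h)
  have ha' : a.1 ≠ 0 := by
    intro h0
    rw [h0, zero_mul] at hrel
    exact (mul_ne_zero hb' hc) hrel.symm
  have hinj := h2_expG_injective τ₀ g
  have hΛa : h2_expG τ₀ g a.1 ≠ 0 := fun h => ha' (hinj (by rw [h, map_zero]))
  have hΛb : h2_expG τ₀ g b.1 ≠ 0 := fun h => hb' (hinj (by rw [h, map_zero]))
  have hΛc : h2_expG τ₀ g c ≠ 0 := fun h => hc (hinj (by rw [h, map_zero]))
  have hΛD : h2_expG τ₀ g h3_DjHolo ≠ 0 :=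
    fun h => h3_DjHolo_ne_zero (hinj (by rw [h, map_zero]))
  rw [map_div₀, hE, hE, h2_order_div _ _ hΛa hΛb]
  have h1 := congrArg (h2_expG τ₀ g) hrel
  rw [map_mul, map_mul] at h1
  have h2 := congrArg HahnSeries.order h1
  rw [HahnSeries.order_mul hΛa hΛD, HahnSeries.order_mul hΛb hΛc,
    h3_order_expG_Dj N τ₀ M E hE g] at h2
  linarith

/-! ## Orders at the cusps -/

/-- **Orders at a cusp.**  If `a ∘ g⁻¹ · Dj = b ∘ g⁻¹ · φ`, then `φ → 0` at `i∞` iff the
`q_N`-expansion of `a / b` attached to `g` has order at least `N + 1`. -/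
theorem h3_inf_iff_of_rel (N : ℕ) [NeZero N] (a b : RN N) (ha : a ≠ 0) (hb : b ≠ 0)
    (E : LocalEmb (RingHom.id ℂ) (xM N) (xM N)⁻¹ (QN N) N)
    (hE : ∀ (g : SL(2, ℤ)) (θ : RN N), h9_ExpandsInfty N (fun z : ℍ => θ.1.1 (g⁻¹ • z))
      (E.τ (g : QN N) (algebraMap (RN N) (MN N) θ)))
    (hAs : AsympStatement) (g : SL(2, ℤ)) (φ : ℍ → ℂ)
    (hrel : ∀ z : ℍ, a.1.1 (g⁻¹ • z) * h3_Dj z = b.1.1 (g⁻¹ • z) * φ z) :
    Tendsto φ atImInfty (𝓝 0) ↔ (N : ℤ) + 1 ≤
      (E.τ (g : QN N) (algebraMap (RN N) (MN N) a / algebraMap (RN N) (MN N) b)).order := by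
  have hinj : Function.Injective (algebraMap (RN N) (MN N)) := IsFractionRing.injective (RN N) (MN N)
  have hsa : E.τ (g : QN N) (algebraMap (RN N) (MN N) a) ≠ 0 := by
    rw [Ne, map_eq_zero_iff _ (E.τ (g : QN N)).injective, map_eq_zero_iff _ hinj]
    exact ha
  have hsb : E.τ (g : QN N) (algebraMap (RN N) (MN N) b) ≠ 0 := by
    rw [Ne, map_eq_zero_iff _ (E.τ (g : QN N)).injective, map_eq_zero_iff _ hinj]
    exact hb
  rw [map_div₀, h2_order_div _ _ hsa hsb]
  exact h3_cusp_core hAs N _ _ φ _ _ (hE g a) (hE g b) hsa hsb hrel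

end Fermat.Agent.Lib.S20
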