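import Mathlib
import Fermat.Agent.Lib.X0.TaylorL

set_option autoImplicit false

open Filter Topology UpperHalfPlane
open scoped Manifold MatrixGroups

namespace Fermat.Agent.Lib.S20

open Fermat.Agent.Lib.X0

/-- the order of the Taylor expansion at `τ₀` is the analytic order. -/
theorem h6_order_taylorHom (τ₀ : ℍ) (a : h2_holo) :
    (h2_taylorHom τ₀ a).order = analyticOrderAt (a.1 ∘ ofComplex) (τ₀ : ℂ) :=
  h2_order_taylorPS (h2_analyticAt_comp_ofComplex a.2 τ₀)

/-- **Division in the ring of holomorphic functions on `ℍ`**: if at every point the order of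
vanishing of `b ≠ 0` is at most that of `a`, then `b ∣ a`. -/
theorem h6_holo_dvd (a b : h2_holo) (hb : b ≠ 0)
    (h : ∀ τ₀ : ℍ, (h2_taylorHom τ₀ b).order ≤ (h2_taylorHom τ₀ a).order) : b ∣ a := by
  set U : Set ℂ := {z : ℂ | 0 < z.im} with hU
  have hUo : IsOpen U := isOpen_upperHalfPlaneSet
  set A : ℂ → ℂ := a.1 ∘ ofComplex with hA
  set B : ℂ → ℂ := b.1 ∘ ofComplex with hB
  have hAan : ∀ x ∈ U, AnalyticAt ℂ A x := fun x hx =>
    h2_analyticAt_comp_ofComplex a.2 ⟨x, hx⟩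
  have hBan : ∀ x ∈ U, AnalyticAt ℂ B x := fun x hx =>
    h2_analyticAt_comp_ofComplex b.2 ⟨x, hx⟩
  -- `B` has finite order everywhere
  have hBord : ∀ x ∈ U, analyticOrderAt B x ≠ ⊤ := by
    intro x hx htop
    have h1 : (h2_taylorHom ⟨x, hx⟩ b).order = ⊤ := by
      rw [h6_order_taylorHom]; exact htop
    rw [PowerSeries.order_eq_top] at h1
    exact hb (h2_taylorHom_injective ⟨x, hx⟩ (by rw [h1, map_zero]))
  have hG : MeromorphicOn (A * B⁻¹) U := fun x hx =>
    (hAan x hx).meromorphicAt.mul (hBan x hx).meromorphicAt.inv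
  set c' : ℂ → ℂ := toMeromorphicNFOn (A * B⁻¹) U with hc'
  have hc'an : ∀ x ∈ U, AnalyticAt ℂ c' x := by
    intro x hx
    have hnf : MeromorphicNFAt c' x := meromorphicNFOn_toMeromorphicNFOn (A * B⁻¹) U hx
    rw [← hnf.meromorphicOrderAt_nonneg_iff_analyticAt, hc',
      meromorphicOrderAt_toMeromorphicNFOn hG hx,
      meromorphicOrderAt_mul (hAan x hx).meromorphicAt (hBan x hx).meromorphicAt.inv,
      meromorphicOrderAt_inv, (hAan x hx).meromorphicOrderAt_eq, (hBan x hx).meromorphicOrderAt_eq]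
    have hle : analyticOrderAt B x ≤ analyticOrderAt A x := by
      have := h ⟨x, hx⟩
      rwa [h6_order_taylorHom, h6_order_taylorHom] at this
    obtain ⟨n, hn⟩ := ENat.ne_top_iff_exists.mp (hBord x hx)
    rw [← hn] at hle ⊢
    cases hm : analyticOrderAt A x with
    | top => simp
    | coe m =>
      rw [hm] at hle
      have : n ≤ m := by exact_mod_cast hle
      simp only [ENat.map_natCast]
      have h2 : ((m : ℤ) : WithTop ℤ) + -((n : ℤ) : WithTop ℤ) = (((m : ℤ) - (n : ℤ) : ℤ) : WithTop ℤ) := by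
        rw [sub_eq_add_neg]; rfl
      rw [h2]
      exact_mod_cast (by omega : (0 : ℤ) ≤ (m : ℤ) - n)
  -- the quotient as a holomorphic function
  have hcmd : MDiff (fun τ : ℍ => c' (τ : ℂ)) := by
    rw [UpperHalfPlane.mdifferentiable_iff]
    intro x hx
    have h1 : (fun τ : ℍ => c' (τ : ℂ)) ∘ ofComplex =ᶠ[𝓝 x] c' := by
      filter_upwards [hUo.mem_nhds hx] with y hy
      simp only [Function.comp_apply]
      rw [ofComplex_apply_of_im_pos hy]
    exact ((hc'an x hx).differentiableAt.congr_of_eventuallyEq h1).differentiableWithinAt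
  refine ⟨⟨fun τ : ℍ => c' (τ : ℂ), hcmd⟩, ?_⟩
  apply Subtype.ext
  funext τ
  show a.1 τ = b.1 τ * c' (τ : ℂ)
  have hx : (τ : ℂ) ∈ U := τ.im_pos
  -- `B ≠ 0` on a punctured neighbourhood
  have hBne : ∀ᶠ z in 𝓝[≠] (τ : ℂ), B z ≠ 0 := by
    rcases (hBan _ hx).eventually_eq_zero_or_eventually_ne_zero with h0 | h0
    · exact absurd (analyticOrderAt_eq_top.mpr h0) (hBord _ hx)
    · exact h0
  have heq : ∀ᶠ z in 𝓝[≠] (τ : ℂ), A z = B z * c' z := by
    filter_upwards [hBne, hG.toMeromorphicNFOn_eq_self_on_nhdsNE hx] with z hz1 hz2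
    have hz3 : c' z = (A * B⁻¹) z := hz2
    rw [hz3]
    simp only [Pi.mul_apply, Pi.inv_apply]
    field_simp
  have hcontA : ContinuousAt A (τ : ℂ) := (hAan _ hx).continuousAt
  have hcontBc : ContinuousAt (fun z => B z * c' z) (τ : ℂ) :=
    ((hBan _ hx).continuousAt).mul ((hc'an _ hx).continuousAt)
  have hlim1 : Tendsto A (𝓝[≠] (τ : ℂ)) (𝓝 (A τ)) := hcontA.tendsto.mono_left nhdsWithin_le_nhds
  have hlim2 : Tendsto A (𝓝[≠] (τ : ℂ)) (𝓝 (B τ * c' τ)) :=
    (hcontBc.tendsto.mono_left nhdsWithin_le_nhds).congr' (heq.mono fun z hz => hz.symm)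
  have := tendsto_nhds_unique hlim1 hlim2
  simpa [hA, hB] using this

end Fermat.Agent.Lib.S20
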