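/-
Project S20, slab (MF-D) (helper3): the dictionary `S₂(Γ₀(N)) ≃ L(div dj)` inside `M_N`.
-/
import Fermat.Agent.Lib.S20.DictLocal
import Fermat.Agent.Lib.S20.DictAbs
import Fermat.Agent.Lib.S20.DictCusp
import Fermat.Agent.Lib.S20.HoloDiv
import Fermat.Agent.Lib.S20.CanonicalW
import Fermat.Agent.Lib.S20.CoordG
import Fermat.Agent.Lib.X0.Comb

set_option autoImplicit false

noncomputable section

namespace Fermat.Agent.Lib.S20

open UpperHalfPlane hiding I
open Complex ModularForm EisensteinSeries ModularGroup Filter Function AlgebraicCurve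
open Fermat.Agent.Lib.X0
open scoped MatrixGroups ModularForm Manifold Topology Real

local notation "Δ" => ModularForm.discriminant

/-- The denominator `j (j - 1728) ∈ R_N`. -/
def h3_den (N : ℕ) [NeZero N] : RN N := jRN N * (jRN N - constRN N 1728)

theorem h3_den_apply (N : ℕ) [NeZero N] (τ : ℍ) :
    (h3_den N).1.1 τ = jFun τ * (jFun τ - 1728) := by
  show (jRN N).1.1 τ * ((jRN N).1.1 τ - 1728) = _
  rw [h5_jRN_apply]

theorem h3_den_ne_zero (N : ℕ) [NeZero N] : h3_den N ≠ 0 := by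
  intro h
  obtain ⟨τ, hτ⟩ := h3_jFun_surjective 1
  have h1 : (h3_den N).1.1 τ = 0 := by rw [h]; rfl
  rw [h3_den_apply, hτ] at h1
  norm_num at h1

/-- A cusp form as a holomorphic function. -/
def h3_cuspHolo {N : ℕ} (f : CuspForm (CongruenceSubgroup.Gamma0 N) 2) : h2_holo :=
  ⟨f, CuspFormClass.holo f⟩

/-- `(-F_f) · Dj = j (j - 1728) · f`. -/
theorem h3_rel_Ff (N : ℕ) [NeZero N]
    (Ff : CuspForm (CongruenceSubgroup.Gamma0 N) 2 →ₗ[ℂ] RN N)
    (hFf : ∀ (f : CuspForm (CongruenceSubgroup.Gamma0 N) 2) (τ : ℍ),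
      (Ff f).1.1 τ = f τ * E₄ τ * E₆ τ / Δ τ)
    (f : CuspForm (CongruenceSubgroup.Gamma0 N) 2) :
    (-(Ff f) : RN N).1 * h3_DjHolo = (h3_den N).1 * h3_cuspHolo f := by
  apply Subtype.ext
  funext τ
  show -(Ff f).1.1 τ * h3_Dj τ = (h3_den N).1.1 τ * f τ
  rw [hFf, h3_den_apply, h3_jFun_sub_1728]
  unfold h3_Dj jFun
  have hΔ : Δ τ ≠ 0 := discriminant_ne_zero τ
  field_simp

/-- **The dictionary**, from the weight `0` function `F_f`. -/
theorem h3_dict_of (N : ℕ) [NeZero N] (hFfS : FfStatement N) : DictStatement N := by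
  classical
  obtain ⟨Ff, hFf⟩ := hFfS
  have hC := h2_coordG N
  have hcomb := h8_combStatement N
  haveI : Finite (QN N) :=
    Nat.finite_of_card_ne_zero (by rw [hcomb.1]; exact (dedekindPsi_pos N).ne')
  haveI : Fintype (QN N) := Fintype.ofFinite _
  have hQ : Fintype.card (QN N) = coordDegree ℂ (xM N) := by
    rw [← Nat.card_eq_fintype_card, ← hC.2]
  have hx := hC.1
  obtain ⟨W, hW⟩ := h6_exists_divisor_dx (RingHom.id ℂ) (xM N) hx N hQ (h2_cFiniteG N)
  refine ⟨W, hW, ?_⟩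
  have hden := h3_den_ne_zero N
  have hden' : (h3_den N).1 ≠ 0 := fun h => hden (Subtype.ext h)
  have hinj : Function.Injective (algebraMap (RN N) (MN N)) :=
    IsFractionRing.injective (RN N) (MN N)
  have hdenM : algebraMap (RN N) (MN N) (h3_den N) ≠ 0 := by
    rw [Ne, map_eq_zero_iff _ hinj]; exact hden
  -- the linear map
  let A : RN N →ₗ[ℂ] MN N := (IsScalarTower.toAlgHom ℂ (RN N) (MN N)).toLinearMap
  let Φ : CuspForm (CongruenceSubgroup.Gamma0 N) 2 →ₗ[ℂ] MN N :=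
    (LinearMap.mulRight ℂ (algebraMap (RN N) (MN N) (h3_den N))⁻¹).comp (A.comp (-Ff))
  have hΦ : ∀ f, Φ f = algebraMap (RN N) (MN N) (-(Ff f)) / algebraMap (RN N) (MN N) (h3_den N) := by
    intro f
    rw [div_eq_mul_inv]
    rfl
  -- `Φ f = 0 → f = 0`
  have hker : ∀ f, Φ f = 0 → f = 0 := by
    intro f h0
    rw [hΦ, div_eq_zero_iff, or_iff_left hdenM, map_eq_zero_iff _ hinj] at h0
    have hrel := h3_rel_Ff N Ff hFf f
    rw [h0] at hrel
    have h1 : (h3_den N).1 * h3_cuspHolo f = 0 := by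
      rw [← hrel]; exact zero_mul _
    have h2 : h3_cuspHolo f = 0 := (mul_eq_zero.mp h1).resolve_left hden'
    apply DFunLike.ext
    intro τ
    exact congrFun (congrArg Subtype.val h2) τ
  -- membership
  have hmem : ∀ f, Φ f ∈ riemannRochSpace W := by
    intro f
    by_cases hf : f = 0
    · rw [hf, map_zero]; exact zero_mem _
    have hΦne : Φ f ≠ 0 := fun h => hf (hker f h)
    have hcne : h3_cuspHolo f ≠ 0 := by
      intro h
      apply hf
      apply DFunLike.ext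
      intro τ
      exact congrFun (congrArg Subtype.val h) τ
    have hane : (-(Ff f) : RN N) ≠ 0 := by
      intro h
      apply hΦne
      rw [hΦ, h, map_zero, zero_div]
    have hrel := h3_rel_Ff N Ff hFf f
    refine h6_mem_rr_of_orders (RingHom.id ℂ) (xM N) hx (QN N) hQ W hW (Φ f) hΦne ?_ ?_
    · intro c
      obtain ⟨τ₀, rfl⟩ := h3_jFun_surjective c
      obtain ⟨M, E, hE⟩ := h3_cFiniteConcrete N τ₀
      refine ⟨M, E, fun q => ?_⟩
      obtain ⟨g, rfl⟩ := QuotientGroup.mk_surjective q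
      rw [hΦ, h3_fin_order_of_rel N _ _ hden _ hcne hrel τ₀ M E hE g]
      exact h3_order_expG_nonneg _ _ _
    · obtain ⟨E, hE⟩ := h3_cInftyConcrete N
      refine ⟨N, E, fun q => ?_⟩
      obtain ⟨g, rfl⟩ := QuotientGroup.mk_surjective q
      rw [hΦ]
      refine (h3_inf_iff_of_rel N _ _ hane hden E hE h5_asymp g
        ((f : ℍ → ℂ) ∣[(2 : ℤ)] g⁻¹) ?_).mp (h5_cuspZero N f g⁻¹)
      intro z
      refine h3_slash_rel (A := (-(Ff f) : RN N).1.1) (B := (h3_den N).1.1) (C := f) ?_ g⁻¹ z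
      intro w
      exact congrFun (congrArg Subtype.val hrel) w
  -- surjectivity
  have hsurj : ∀ h ∈ riemannRochSpace W, ∃ f, Φ f = h := by
    intro h hmemh
    by_cases hh : h = 0
    · exact ⟨0, by rw [map_zero, hh]⟩
    obtain ⟨a, b, hbm, hab⟩ := IsFractionRing.div_surjective (A := RN N) h
    have hb : b ≠ 0 := nonZeroDivisors.ne_zero hbm
    have hb' : b.1 ≠ 0 := fun h0 => hb (Subtype.ext h0)
    have ha : a ≠ 0 := by
      rintro rfl
      apply hh
      rw [← hab, map_zero, zero_div]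
    have ha' : a.1 ≠ 0 := fun h0 => ha (Subtype.ext h0)
    have haD : a.1 * h3_DjHolo ≠ 0 := mul_ne_zero ha' h3_DjHolo_ne_zero
    -- pointwise orders
    have hord : ∀ τ₀ : ℍ, (h2_taylorHom τ₀ b.1).order ≤ (h2_taylorHom τ₀ (a.1 * h3_DjHolo)).order := by
      intro τ₀
      obtain ⟨M, E, hE⟩ := h3_cFiniteConcrete N τ₀
      have h1 := h6_order_of_mem_rr_fin (RingHom.id ℂ) (xM N) hx (QN N) hQ W hW h hh hmemh
        (jFun τ₀) M E ((1 : SL(2, ℤ)) : QN N)
      have hi := h2_expG_injective τ₀ 1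
      have hΛa : h2_expG τ₀ 1 a.1 ≠ 0 := fun h0 => ha' (hi (by rw [h0, map_zero]))
      have hΛb : h2_expG τ₀ 1 b.1 ≠ 0 := fun h0 => hb' (hi (by rw [h0, map_zero]))
      rw [← hab, map_div₀, hE, hE, h2_order_div _ _ hΛa hΛb,
        ← h3_order_expG_Dj N τ₀ M E hE 1] at h1
      have e1 : ∀ F : h2_holo, F ≠ 0 →
          (h2_expG τ₀ 1 F).order = ((h2_taylorHom τ₀ F).order.toNat : ℤ) := by
        intro F hF
        rw [h3_expG_eq_laurentHom, inv_one, one_smul, h2_order_laurentHom _ _ hF]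
        rfl
      rw [e1 _ ha', e1 _ hb', e1 _ h3_DjHolo_ne_zero] at h1
      have hne : ∀ F : h2_holo, F ≠ 0 → (h2_taylorHom τ₀ F).order ≠ ⊤ := by
        intro F hF
        rw [Ne, PowerSeries.order_eq_top]
        intro h0
        exact hF ((h2_taylorHom_injective τ₀) (by rw [h0, map_zero]))
      rw [map_mul, PowerSeries.order_mul, ← ENat.natCast_toNat (hne _ ha'), ← ENat.natCast_toNat (hne _ hb'),
        ← ENat.natCast_toNat (hne _ h3_DjHolo_ne_zero)]
      have h2 : (h2_taylorHom τ₀ b.1).order.toNat ≤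
          (h2_taylorHom τ₀ a.1).order.toNat + (h2_taylorHom τ₀ h3_DjHolo).order.toNat := by
        omega
      exact_mod_cast h2
    obtain ⟨c, hc⟩ := h6_holo_dvd (a.1 * h3_DjHolo) b.1 hb' hord
    have hcne : c ≠ 0 := by
      rintro rfl
      rw [mul_zero] at hc
      exact haD hc
    have hpt : ∀ w : ℍ, a.1.1 w * h3_Dj w = b.1.1 w * c.1 w :=
      fun w => congrFun (congrArg Subtype.val hc) w
    -- slash invariance
    have hslash : ∀ δ ∈ CongruenceSubgroup.Gamma0 N, c.1 ∣[(2 : ℤ)] δ = c.1 := by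
      intro δ hδ
      have hmd : MDiff (c.1 ∣[(2 : ℤ)] δ) := by
        rw [SL_slash_def]
        exact (h2_mdiff_comp_smul c.2 δ).mul (mdifferentiable_denom_zpow δ (-2))
      set G : h2_holo := ⟨c.1 ∣[(2 : ℤ)] δ, hmd⟩ - c with hG
      have hbG : b.1 * G = 0 := by
        apply Subtype.ext
        funext z
        show b.1.1 z * ((c.1 ∣[(2 : ℤ)] δ) z - c.1 z) = 0
        have h1 := h3_slash_rel hpt δ z
        rw [h5_RN_invariant a δ hδ z, h5_RN_invariant b δ hδ z, hpt z] at h1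
        rw [mul_sub, ← h1, sub_self]
      have hG0 : G = 0 := (mul_eq_zero.mp hbG).resolve_left hb'
      funext z
      have := congrFun (congrArg Subtype.val hG0) z
      exact sub_eq_zero.mp this
    -- cusp conditions
    have hzero : ∀ γ : SL(2, ℤ), IsZeroAtImInfty (c.1 ∣[(2 : ℤ)] γ) := by
      intro γ
      obtain ⟨E, hE⟩ := h3_cInftyConcrete N
      have h2 := h6_order_of_mem_rr_inf (RingHom.id ℂ) (xM N) hx (QN N) hQ W hW h hh hmemh
        N E ((γ⁻¹ : SL(2, ℤ)) : QN N)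
      rw [← hab] at h2
      refine (h3_inf_iff_of_rel N a b ha hb E hE h5_asymp γ⁻¹ (c.1 ∣[(2 : ℤ)] γ) ?_).mpr h2
      intro z
      rw [inv_inv]
      exact h3_slash_rel hpt γ z
    obtain ⟨f, hf⟩ := h5_cuspMk N c.1 c.2 hslash hzero
    refine ⟨f, ?_⟩
    have hfc : h3_cuspHolo f = c := Subtype.ext (funext hf)
    have hrel := h3_rel_Ff N Ff hFf f
    rw [hfc] at hrel
    have hbM : algebraMap (RN N) (MN N) b ≠ 0 := by
      rw [Ne, map_eq_zero_iff _ hinj]; exact hb
    rw [hΦ, ← hab, div_eq_div_iff hdenM hbM, ← map_mul, ← map_mul]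
    congr 1
    apply Subtype.ext
    show (-(Ff f) : RN N).1 * b.1 = a.1 * (h3_den N).1
    have h3 : ((-(Ff f) : RN N).1 * b.1 - a.1 * (h3_den N).1) * h3_DjHolo = 0 := by
      have e1 : ((-(Ff f) : RN N).1 * b.1 - a.1 * (h3_den N).1) * h3_DjHolo
          = ((-(Ff f) : RN N).1 * h3_DjHolo) * b.1 - (a.1 * h3_DjHolo) * (h3_den N).1 := by ring
      rw [e1, hrel, hc]; ring
    exact sub_eq_zero.mp ((mul_eq_zero.mp h3).resolve_right h3_DjHolo_ne_zero)
  -- the equivalence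
  refine ⟨LinearEquiv.ofBijective (Φ.codRestrict (riemannRochSpace W) hmem) ⟨?_, ?_⟩⟩
  · rw [← LinearMap.ker_eq_bot, LinearMap.ker_codRestrict, LinearMap.ker_eq_bot']
    exact hker
  · rintro ⟨h, hmemh⟩
    obtain ⟨f, hf⟩ := hsurj h hmemh
    exact ⟨f, Subtype.ext hf⟩

end Fermat.Agent.Lib.S20
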