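import Fermat.Agent.Lib.S20.DictDefs

/-!
# Project S20, (MF-D) (helper6): `FfStatement N`

The weight `0` function `F_f = f E₄ E₆ / Δ ∈ R_N` attached to `f ∈ S₂(Γ₀(N))`:
* `h6_FfFun f τ = f τ * E₄ τ * E₆ τ / Δ τ`, holomorphic (`h6_FfFun_mdiff`),
  `F_f ∘ g = F_{f ∣[2] g}` (`h6_FfFun_smul`), `Γ₀(N)`-invariant, of moderate growth at all cusps;
* `h6_Ff N : CuspForm (Γ₀(N)) 2 →ₗ[ℂ] RN N`, `h6_ff N : FfStatement N`, `h6_Ff_injective`;
* `h6_Ff_mul_Dj` : `F_f * Dj = -(f * j * (j - 1728))`.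
-/

set_option autoImplicit false

noncomputable section

namespace Fermat.Agent.Lib.S20

open AlgebraicCurve ModularCurve UpperHalfPlane ModularForm EisensteinSeries
open Fermat.Agent.Lib.X0 Filter Topology
open scoped MatrixGroups Manifold

local notation "Δ" => ModularForm.discriminant

/-- the function `f E₄ E₆ / Δ`. -/
def h6_FfFun (f : ℍ → ℂ) (τ : ℍ) : ℂ := f τ * E₄ τ * E₆ τ / Δ τ

theorem h6_FfFun_mdiff {f : ℍ → ℂ} (hf : MDiff f) : MDiff (h6_FfFun f) := by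
  rw [UpperHalfPlane.mdifferentiable_iff]
  intro z hz
  have h1 := h3_analyticAt_of_mdiff hf ⟨z, hz⟩
  have h2 := h3_analyticAt_of_mdiff (h3_mdiff E₄) ⟨z, hz⟩
  have h3 := h3_analyticAt_of_mdiff (h3_mdiff E₆) ⟨z, hz⟩
  have h4 := h3_analyticAt_of_mdiff h3_discriminant_mdiff ⟨z, hz⟩
  have h5 : AnalyticAt ℂ (((f ∘ ofComplex) * (E₄ ∘ ofComplex) * (E₆ ∘ ofComplex))
      / (Δ ∘ ofComplex)) z := by
    refine ((h1.mul h2).mul h3).div h4 ?_
    simp only [Function.comp_apply]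
    exact discriminant_ne_zero _
  have e : h6_FfFun f ∘ ofComplex = ((f ∘ ofComplex) * (E₄ ∘ ofComplex) * (E₆ ∘ ofComplex))
      / (Δ ∘ ofComplex) := by
    funext w
    simp [h6_FfFun]
  rw [e]
  exact h5.differentiableAt.differentiableWithinAt

/-- `F_f ∘ g = F_{f ∣[2] g}` for `g ∈ SL₂(ℤ)`. -/
theorem h6_FfFun_smul (f : ℍ → ℂ) (g : SL(2, ℤ)) (τ : ℍ) :
    h6_FfFun f (g • τ) = h6_FfFun (f ∣[(2 : ℤ)] g) τ := by
  unfold h6_FfFun
  rw [ModularForm.SL_slash_apply, h3_modular_eqn E₄ g τ, h3_modular_eqn E₆ g τ,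
    h3_discriminant_eqn g τ]
  have hd : denom g τ ≠ 0 := denom_ne_zero g τ
  have hΔ : Δ τ ≠ 0 := discriminant_ne_zero τ
  have e12 : denom g τ ^ (12 : ℤ) = denom g τ ^ (2 : ℤ) * (denom g τ ^ (4 : ℤ) * denom g τ ^ (6 : ℤ)) := by
    rw [← zpow_add₀ hd, ← zpow_add₀ hd]; norm_num
  have e2 : denom g τ ^ (-(2 : ℤ)) * denom g τ ^ (2 : ℤ) = 1 := by
    rw [← zpow_add₀ hd]; norm_num
  have h2 : denom g τ ^ (2 : ℤ) ≠ 0 := zpow_ne_zero _ hd
  have h4 : denom g τ ^ (4 : ℤ) ≠ 0 := zpow_ne_zero _ hd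
  have h6 : denom g τ ^ (6 : ℤ) ≠ 0 := zpow_ne_zero _ hd
  rw [e12]
  rw [div_eq_div_iff (mul_ne_zero (mul_ne_zero h2 (mul_ne_zero h4 h6)) hΔ) hΔ]
  linear_combination (-(f (g • τ) * denom g τ ^ (4 : ℤ) * E₄ τ * denom g τ ^ (6 : ℤ) * E₆ τ * Δ τ)) * e2

variable (N : ℕ) [NeZero N]

omit [NeZero N] in
theorem h6_cusp_slash_eq (f : CuspForm (CongruenceSubgroup.Gamma0 N) 2) (δ : SL(2, ℤ))
    (hδ : δ ∈ CongruenceSubgroup.Gamma0 N) : (f : ℍ → ℂ) ∣[(2 : ℤ)] δ = f := by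
  rw [ModularForm.SL_slash]
  exact SlashInvariantForm.slash_action_eqn f _ ⟨δ, hδ, rfl⟩

theorem h6_FfFun_invariant (f : CuspForm (CongruenceSubgroup.Gamma0 N) 2) (δ : SL(2, ℤ))
    (hδ : δ ∈ CongruenceSubgroup.Gamma0 N) (τ : ℍ) :
    h6_FfFun f (δ • τ) = h6_FfFun f τ := by
  rw [h6_FfFun_smul, h6_cusp_slash_eq N f δ hδ]

theorem h6_FfFun_growth (f : CuspForm (CongruenceSubgroup.Gamma0 N) 2) (g : SL(2, ℤ)) :
    h2_ModGrowth (fun τ : ℍ => h6_FfFun f (g • τ)) := by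
  refine ⟨1, ?_⟩
  have h1 : IsBoundedAtImInfty ((f : ℍ → ℂ) ∣[(2 : ℤ)] g) :=
    (CuspFormClass.zero_at_infty_slash f g).isBoundedAtImInfty
  have h2 : IsBoundedAtImInfty (E₄ : ℍ → ℂ) := ModularFormClass.bdd_at_infty E₄
  have h3 : IsBoundedAtImInfty (E₆ : ℍ → ℂ) := ModularFormClass.bdd_at_infty E₆
  have h4 := (h1.mul h2).mul h3
  have e : (fun τ : ℍ => h6_FfFun f (g • τ) * Δ τ ^ 1)
      = ((f : ℍ → ℂ) ∣[(2 : ℤ)] g) * (E₄ : ℍ → ℂ) * (E₆ : ℍ → ℂ) := by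
    funext τ
    rw [h6_FfFun_smul]
    unfold h6_FfFun
    simp only [pow_one, Pi.mul_apply]
    have hΔ : Δ τ ≠ 0 := discriminant_ne_zero τ
    field_simp
  rw [e]
  exact h4

/-- `F_f` as an element of `R_N`. -/
def h6_FfElem (f : CuspForm (CongruenceSubgroup.Gamma0 N) 2) : RN N :=
  ⟨⟨h6_FfFun f, h6_FfFun_mdiff (CuspFormClass.holo f)⟩,
    mem_RN.2 ⟨fun δ hδ => by
      apply Subtype.ext
      funext τ
      rw [h2_holoSmul_apply]
      exact h6_FfFun_invariant N f δ hδ τ,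
    fun g => h6_FfFun_growth N f g⟩⟩

theorem h6_FfElem_apply (f : CuspForm (CongruenceSubgroup.Gamma0 N) 2) (τ : ℍ) :
    (h6_FfElem N f).1.1 τ = f τ * E₄ τ * E₆ τ / Δ τ := rfl

omit [NeZero N] in
theorem h6_RN_ext {θ θ' : RN N} (h : ∀ τ : ℍ, θ.1.1 τ = θ'.1.1 τ) : θ = θ' :=
  Subtype.ext (Subtype.ext (funext h))

omit [NeZero N] in
theorem h6_RN_smul_apply (c : ℂ) (θ : RN N) (τ : ℍ) : (c • θ).1.1 τ = c * θ.1.1 τ := by
  rw [Algebra.smul_def]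
  rfl

/-- `f ↦ F_f`, as a `ℂ`-linear map. -/
def h6_Ff : CuspForm (CongruenceSubgroup.Gamma0 N) 2 →ₗ[ℂ] RN N where
  toFun := h6_FfElem N
  map_add' f g := by
    apply h6_RN_ext
    intro τ
    show (h6_FfElem N (f + g)).1.1 τ = (h6_FfElem N f).1.1 τ + (h6_FfElem N g).1.1 τ
    rw [h6_FfElem_apply, h6_FfElem_apply, h6_FfElem_apply, _root_.add_apply]
    ring
  map_smul' c f := by
    apply h6_RN_ext
    intro τ
    rw [RingHom.id_apply, h6_RN_smul_apply, h6_FfElem_apply, h6_FfElem_apply,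
      _root_.smul_apply]
    rw [smul_eq_mul]
    ring

/-- **`FfStatement N`**. -/
theorem h6_ff : FfStatement N := ⟨h6_Ff N, fun f τ => h6_FfElem_apply N f τ⟩

theorem h6_Ff_apply (f : CuspForm (CongruenceSubgroup.Gamma0 N) 2) (τ : ℍ) :
    (h6_Ff N f).1.1 τ = f τ * E₄ τ * E₆ τ / Δ τ := rfl

theorem h6_Ff_mul_Dj (f : CuspForm (CongruenceSubgroup.Gamma0 N) 2) (τ : ℍ) :
    (h6_Ff N f).1.1 τ * h3_Dj τ = -(f τ * jFun τ * (jFun τ - 1728)) := by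
  rw [h6_Ff_apply, h3_jFun_sub_1728]
  unfold h3_Dj jFun
  have hΔ : Δ τ ≠ 0 := discriminant_ne_zero τ
  field_simp

theorem h6_Ff_injective : Function.Injective (h6_Ff N) := by
  intro f g hfg
  have h0 : ∀ τ : ℍ, (f τ - g τ) * (E₄ τ * E₆ τ) = 0 := by
    intro τ
    have h1 := congrArg (fun θ : RN N => θ.1.1 τ) hfg
    simp only [h6_Ff_apply] at h1
    have hΔ : Δ τ ≠ 0 := discriminant_ne_zero τ
    field_simp at h1
    linear_combination h1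
  -- work in the domain of holomorphic functions
  let fh : h2_holo := ⟨fun τ => f τ - g τ, (CuspFormClass.holo f).sub (CuspFormClass.holo g)⟩
  let eh : h2_holo := ⟨fun τ => E₄ τ * E₆ τ, (h3_mdiff E₄).mul (h3_mdiff E₆)⟩
  have hprod : fh * eh = 0 := by
    apply Subtype.ext
    funext τ
    exact h0 τ
  have heh : eh ≠ 0 := by
    intro h
    obtain ⟨τ, hτ⟩ := h3_jFun_surjective 1
    have h1 := congrArg (fun θ : h2_holo => θ.1 τ) h
    have h4 : E₄ τ ≠ 0 := fun h4 => by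
      have := (h3_jFun_eq_zero_iff τ).mpr h4
      rw [hτ] at this
      exact one_ne_zero this
    have h6 : E₆ τ ≠ 0 := fun h6 => by
      have := (h3_jFun_eq_1728_iff τ).mpr h6
      rw [hτ] at this
      norm_num at this
    exact mul_ne_zero h4 h6 h1
  have hfh : fh = 0 := (mul_eq_zero.mp hprod).resolve_right heh
  apply DFunLike.ext
  intro τ
  have h1 := congrArg (fun θ : h2_holo => θ.1 τ) hfh
  exact sub_eq_zero.mp h1

end Fermat.Agent.Lib.S20
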