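/-
Project S20, slab (MF-D): contract `DictStatement N` closed.
-/
import Fermat.Agent.Lib.S20.DictFinal
import Fermat.Agent.Lib.S20.FfRN

set_option autoImplicit false

namespace Fermat.Agent.Lib.S20

/-- **(MF-D)** `S₂(Γ₀(N)) ≃ L(div dj)` inside the function field `M_N` of `X₀(N)` over `ℂ`. -/
theorem h3_dict (N : ℕ) [NeZero N] : DictStatement N :=
  h3_dict_of N (h6_ff N)

end Fermat.Agent.Lib.S20
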