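/-
S20 project, piece (RR): the local step.  For a place `v` of degree one with uniformizer `π`, the
`k`-submodule `{f | f = 0 ∨ -n ≤ ord_v f}` of `F` maps onto `k` (leading coefficient) with kernel
`{f | f = 0 ∨ -(n-1) ≤ ord_v f}`.
-/
import Fermat.Agent.Lib.X0.PlacesProof
import Fermat.Prelude.Def_AlgebraicCurve_Repartitions

set_option autoImplicit false

open AlgebraicCurve Fermat.Agent.Lib.X0

namespace Fermat.Agent.Lib.S20

section Local

variable {k F : Type*} [Field k] [Field F] [Algebra k F]

/-- The fractional ideal `π^{-n} O_v`, as a `k`-submodule of `F`. -/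
def h4_localSub (v : Place k F) (n : ℤ) : Submodule k F where
  carrier := {f | v.adicValuation f ≤ WithZero.exp n}
  zero_mem' := by
    show v.adicValuation (0 : F) ≤ WithZero.exp n
    simp
  add_mem' := by
    intro f g hf hg
    have hf' : v.adicValuation f ≤ WithZero.exp n := hf
    have hg' : v.adicValuation g ≤ WithZero.exp n := hg
    show v.adicValuation (f + g) ≤ WithZero.exp n
    exact (Valuation.map_add _ _ _).trans (max_le hf' hg')
  smul_mem' := by
    intro c f hf
    have hf' : v.adicValuation f ≤ WithZero.exp n := hf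
    show v.adicValuation (c • f) ≤ WithZero.exp n
    rw [Algebra.smul_def, map_mul]
    exact (mul_le_of_le_one_left' (v.adicValuation_algebraMap_le_one c)).trans hf'

theorem h4_mem_localSub_iff (v : Place k F) (n : ℤ) (f : F) :
    f ∈ h4_localSub v n ↔ f = 0 ∨ -n ≤ v.ord f := by
  show v.adicValuation f ≤ WithZero.exp n ↔ _
  exact v.adicValuation_le_exp_iff

theorem h4_localSub_mono (v : Place k F) {m n : ℤ} (h : m ≤ n) :
    h4_localSub v m ≤ h4_localSub v n := by
  intro f hf
  have hf' : v.adicValuation f ≤ WithZero.exp m := hf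
  exact le_trans hf' (WithZero.exp_le_exp.mpr h)

/-- `ord (π^n * f) = n + ord f`. -/
theorem h4_ord_zpow_mul (v : Place k F) {π : F} (hπ : v.ord π = 1) (n : ℤ) {f : F} (hf : f ≠ 0) :
    v.ord (π ^ n * f) = n + v.ord f := by
  have hπ0 : π ≠ 0 := by
    rintro rfl
    rw [v.ord_zero] at hπ
    exact zero_ne_one hπ
  rw [v.ord_mul (zpow_ne_zero n hπ0) hf, v.ord_zpow, hπ, mul_one]

/-- **The local step.** -/
theorem h4_localStep (v : Place k F) (hdeg : v.deg = 1) (n : ℤ) :
    ∃ φ : h4_localSub v n →ₗ[k] k, Function.Surjective φ ∧
      ∀ f : h4_localSub v n, φ f = 0 ↔ (f : F) ∈ h4_localSub v (n - 1) := by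
  classical
  obtain ⟨π₀, hπ₀⟩ := IsDiscreteValuationRing.exists_irreducible v.toValuationSubring
  set π : F := (π₀ : F) with hπdef
  have hπ : v.ord π = 1 := v.ord_coe_irreducible hπ₀
  have hπ0 : π ≠ 0 := by
    intro h0
    rw [h0, v.ord_zero] at hπ
    exact zero_ne_one hπ
  -- the residue field is `k`
  have hfr : Module.finrank k v.ResidueField = 1 := hdeg
  have hsurj : Function.Surjective (algebraMap k v.ResidueField) := by
    rw [Algebra.surjective_algebraMap_iff]
    exact (Subalgebra.bot_eq_top_of_finrank_eq_one hfr).symm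
  have hinj : Function.Injective (algebraMap k v.ResidueField) :=
    (algebraMap k v.ResidueField).injective
  let e : k ≃ₗ[k] v.ResidueField :=
    LinearEquiv.ofBijective (Algebra.linearMap k v.ResidueField) ⟨hinj, hsurj⟩
  have he : ∀ c : k, e c = algebraMap k v.ResidueField c := fun c => rfl
  -- multiplication by `π^n` into the valuation ring
  have hmem : ∀ f : h4_localSub v n, π ^ n * (f : F) ∈ v.toValuationSubring := by
    intro f
    rcases (h4_mem_localSub_iff v n f).mp f.2 with h0 | h
    · rw [h0, mul_zero]
      exact zero_mem _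
    · by_cases hf0 : (f : F) = 0
      · rw [hf0, mul_zero]
        exact zero_mem _
      · apply h4_mem_of_ord_nonneg
        rw [h4_ord_zpow_mul v hπ n hf0]
        omega
  let μ : h4_localSub v n →ₗ[k] v.toValuationSubring :=
    { toFun := fun f => ⟨π ^ n * (f : F), hmem f⟩
      map_add' := fun f g => by
        apply Subtype.ext
        simp [mul_add]
      map_smul' := fun c f => by
        apply Subtype.ext
        show π ^ n * ((c • f : h4_localSub v n) : F)
          = ((c • (⟨π ^ n * (f : F), hmem f⟩ : v.toValuationSubring) : v.toValuationSubring) : F)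
        rw [Submodule.coe_smul, Algebra.smul_def, Algebra.smul_def]
        show π ^ n * (algebraMap k F c * (f : F)) = algebraMap k F c * (π ^ n * (f : F))
        ring }
  have hμ : ∀ f, ((μ f : v.toValuationSubring) : F) = π ^ n * (f : F) := fun f => rfl
  -- residue as a `k`-linear map
  let res : v.toValuationSubring →ₗ[k] v.ResidueField :=
    { toFun := fun a => IsLocalRing.residue v.toValuationSubring a
      map_add' := fun a b => map_add _ a b
      map_smul' := fun c a => by
        simp only [RingHom.id_apply]
        rw [Algebra.smul_def, map_mul, Algebra.smul_def]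
        rfl }
  have hres : ∀ a, res a = IsLocalRing.residue v.toValuationSubring a := fun a => rfl
  refine ⟨(e.symm : v.ResidueField →ₗ[k] k).comp (res.comp μ), ?_, ?_⟩
  · intro c
    have hcmem : π ^ (-n) * algebraMap k F c ∈ h4_localSub v n := by
      rw [h4_mem_localSub_iff]
      rcases eq_or_ne c 0 with rfl | hc
      · left; simp
      · right
        have hc' : algebraMap k F c ≠ 0 := by simpa using hc
        rw [h4_ord_zpow_mul v hπ (-n) hc', h4_ord_const]
        omega
    refine ⟨⟨_, hcmem⟩, ?_⟩
    show e.symm (res (μ ⟨_, hcmem⟩)) = c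
    rw [LinearEquiv.symm_apply_eq, he, hres]
    have : μ ⟨_, hcmem⟩ = algebraMap k v.toValuationSubring c := by
      apply Subtype.ext
      rw [hμ]
      show π ^ n * (π ^ (-n) * algebraMap k F c) = algebraMap k F c
      rw [← mul_assoc, ← zpow_add₀ hπ0]
      simp
    rw [this]
    rfl
  · intro f
    show e.symm (res (μ f)) = 0 ↔ _
    rw [LinearEquiv.map_eq_zero_iff, hres, IsLocalRing.residue_eq_zero_iff, h4_mem_localSub_iff]
    by_cases hf0 : (f : F) = 0
    · have : μ f = 0 := by
        apply Subtype.ext
        rw [hμ, hf0, mul_zero]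
        rfl
      rw [this]
      simp [hf0]
    · have hμ0 : μ f ≠ 0 := by
        intro h0
        have := congrArg Subtype.val h0
        rw [hμ] at this
        have h1 : π ^ n * (f : F) = 0 := this
        rcases mul_eq_zero.mp h1 with h | h
        · exact zpow_ne_zero n hπ0 h
        · exact hf0 h
      rw [← h4_ord_pos_iff v (μ f) hμ0, hμ, h4_ord_zpow_mul v hπ n hf0]
      constructor
      · intro h
        right
        omega
      · rintro (h | h)
        · exact absurd h hf0
        · omega

end Local

end Fermat.Agent.Lib.S20
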