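/-
S20 project, piece (RR), part P1: basics on the Riemann-Roch spaces `L(D) = riemannRochSpace D`
of a function field of one variable over an algebraically closed field.
-/
import Fermat.Agent.Lib.S20.RRLocal
import Fermat.Agent.Lib.X0.Defs

set_option autoImplicit false

open AlgebraicCurve Fermat.Agent.Lib.X0

namespace Fermat.Agent.Lib.S20

section Generic

variable {k F : Type*} [Field k] [Field F] [Algebra k F]

theorem h4_rr_mono {D D' : Divisor k F} (h : D ≤ D') :
    riemannRochSpace D ≤ riemannRochSpace D' := by
  intro f hf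
  rw [mem_riemannRochSpace_iff] at hf ⊢
  intro v
  rcases hf v with h0 | h1
  · exact Or.inl h0
  · right
    have := Finsupp.le_def.mp h v
    omega

/-- The "sum of coefficients" of a divisor. -/
noncomputable def h4_coeffSum : Divisor k F →+ ℤ :=
  Finsupp.liftAddHom fun _ => AddMonoidHom.id ℤ

theorem h4_coeffSum_apply (D : Divisor k F) : h4_coeffSum D = D.sum fun _ n => n := by
  simp [h4_coeffSum]
  rfl

@[simp]
theorem h4_coeffSum_single (v : Place k F) (n : ℤ) : h4_coeffSum (Finsupp.single v n) = n := by
  simp [h4_coeffSum]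

theorem h4_coeffSum_nonneg {D : Divisor k F} (h : 0 ≤ D) : 0 ≤ h4_coeffSum D := by
  rw [h4_coeffSum_apply]
  exact Finset.sum_nonneg fun v _ => Finsupp.le_def.mp h v

theorem h4_eq_zero_of_coeffSum_eq_zero {D : Divisor k F} (h : 0 ≤ D) (h0 : h4_coeffSum D = 0) :
    D = 0 := by
  rw [h4_coeffSum_apply, Finsupp.sum] at h0
  have := (Finset.sum_eq_zero_iff_of_nonneg (fun v _ => Finsupp.le_def.mp h v)).mp h0
  ext v
  by_cases hv : v ∈ D.support
  · exact this v hv
  · simpa using hv

/-- Induction along a chain `D < D + v₁ < D + v₁ + v₂ < ... < D'`. -/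
theorem h4_divisor_induction {P : Divisor k F → Prop} {D D' : Divisor k F} (h : D ≤ D')
    (base : P D)
    (step : ∀ (E : Divisor k F) (v : Place k F), D ≤ E → E + Finsupp.single v 1 ≤ D' → P E →
      P (E + Finsupp.single v 1)) : P D' := by
  classical
  have key : ∀ n : ℕ, ∀ E : Divisor k F, D ≤ E → E ≤ D' → h4_coeffSum (D' - E) = n → P E →
      P D' := by
    intro n
    induction n with
    | zero =>
      intro E _ hE' hs hP
      have h0 : D' - E = 0 := by
        apply h4_eq_zero_of_coeffSum_eq_zero
        · exact sub_nonneg.mpr hE'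
        · simpa using hs
      rw [sub_eq_zero] at h0
      rw [h0]
      exact hP
    | succ n ih =>
      intro E hE hE' hs hP
      have hne : D' - E ≠ 0 := by
        intro h0
        rw [h0, map_zero] at hs
        have : (0 : ℤ) = ((n + 1 : ℕ) : ℤ) := hs
        omega
      obtain ⟨v, hv⟩ : ∃ v, (D' - E) v ≠ 0 := by
        by_contra hall
        apply hne
        ext w
        by_contra hw
        exact hall ⟨w, hw⟩
      have hpos : E v < D' v := by
        have h1 := Finsupp.le_def.mp hE' v
        have h2 : D' v - E v ≠ 0 := by simpa using hv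
        omega
      have hE1 : E + Finsupp.single v 1 ≤ D' := by
        rw [Finsupp.le_def]
        intro w
        by_cases hw : w = v
        · subst hw
          simp only [Finsupp.add_apply, Finsupp.single_eq_same]
          omega
        · have := Finsupp.le_def.mp hE' w
          simp only [Finsupp.add_apply, Finsupp.single_apply, if_neg (Ne.symm hw), add_zero]
          exact this
      apply ih (E + Finsupp.single v 1) (le_trans hE (le_add_of_nonneg_right (by
        rw [Finsupp.le_def]
        intro w
        simp only [Finsupp.coe_zero, Pi.zero_apply, Finsupp.single_apply]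
        split_ifs <;> norm_num))) hE1
      · have e : D' - (E + Finsupp.single v 1) = (D' - E) - Finsupp.single v 1 := by abel
        rw [e, map_sub, hs, h4_coeffSum_single]
        push_cast
        ring
      · exact step E v hE hE1 hP
  exact key (h4_coeffSum (D' - D)).toNat D le_rfl h
    (Int.toNat_of_nonneg (h4_coeffSum_nonneg (sub_nonneg.mpr h))).symm base

theorem h4_degree_nonneg {D : Divisor k F} (h : 0 ≤ D) : 0 ≤ Divisor.degree D := by
  have : Divisor.degree D = D.sum fun v n => n * (v.deg : ℤ) := by
    simp [Divisor.degree]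
  rw [this]
  exact Finset.sum_nonneg fun v _ =>
    mul_nonneg (Finsupp.le_def.mp h v) (Int.natCast_nonneg _)

/-- The one-place step for `L(D)`. -/
theorem h4_rr_step_of_deg (D : Divisor k F) (v : Place k F) (hdeg : v.deg = 1) :
    ∃ φ : riemannRochSpace (D + Finsupp.single v 1) →ₗ[k] k,
      ∀ f, φ f = 0 ↔ (f : F) ∈ riemannRochSpace D := by
  obtain ⟨φ, -, hφ⟩ := h4_localStep v hdeg (D v + 1)
  have hmem : ∀ f : riemannRochSpace (D + Finsupp.single v 1),
      (f : F) ∈ h4_localSub v (D v + 1) := by
    intro f
    rw [h4_mem_localSub_iff]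
    have := (mem_riemannRochSpace_iff.mp f.2) v
    simpa using this
  let ι : riemannRochSpace (D + Finsupp.single v 1) →ₗ[k] h4_localSub v (D v + 1) :=
    { toFun := fun f => ⟨(f : F), hmem f⟩
      map_add' := fun _ _ => rfl
      map_smul' := fun _ _ => rfl }
  refine ⟨φ.comp ι, fun f => ?_⟩
  show φ (ι f) = 0 ↔ _
  rw [hφ, h4_mem_localSub_iff, mem_riemannRochSpace_iff]
  show ((f : F) = 0 ∨ -(D v + 1 - 1) ≤ v.ord (f : F)) ↔ _
  constructor
  · intro h w
    by_cases hw : w = v
    · subst hw
      rcases h with h | h
      · exact Or.inl h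
      · right; omega
    · have := (mem_riemannRochSpace_iff.mp f.2) w
      simpa [Finsupp.single_apply, Ne.symm hw, hw] using this
  · intro h
    rcases h v with h | h
    · exact Or.inl h
    · right; omega

/-- Dimension consequence of a one-place step. -/
theorem h4_finrank_step {M : Type*} [AddCommGroup M] [Module k M] (N : Submodule k M)
    (φ : M →ₗ[k] k) (hφ : ∀ m, φ m = 0 ↔ m ∈ N) [Module.Finite k N] :
    Module.Finite k M ∧ Module.finrank k M ≤ Module.finrank k N + 1 := by
  have hker : LinearMap.ker φ = N := by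
    ext m
    rw [LinearMap.mem_ker, hφ]
  have hfinK : Module.Finite k (LinearMap.ker φ) := by
    rw [hker]
    infer_instance
  have hfinR : Module.Finite k (LinearMap.range φ) := inferInstance
  have hfin : Module.Finite k M := by
    have e := φ.quotKerEquivRange
    have : Module.Finite k (M ⧸ LinearMap.ker φ) := Module.Finite.equiv e.symm
    exact Module.Finite.of_submodule_quotient (LinearMap.ker φ)
  refine ⟨hfin, ?_⟩
  have h1 := φ.finrank_range_add_finrank_ker
  have h2 : Module.finrank k (LinearMap.range φ) ≤ 1 := by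
    have := Submodule.finrank_le (LinearMap.range φ)
    simpa using this
  rw [hker] at h1
  omega

end Generic

section FunctionField

open IntermediateField

variable {k F : Type} [Field k] [IsAlgClosed k] [CharZero k] [Field F] [Algebra k F]

theorem h4_degree_eq_coeffSum (x : F) (hx : IsCoord k x) (D : Divisor k F) :
    Divisor.degree D = h4_coeffSum D := by
  have h1 : Divisor.degree D = D.sum fun v n => n * (v.deg : ℤ) := by
    simp [Divisor.degree]
  rw [h1, h4_coeffSum_apply]
  refine Finset.sum_congr rfl fun v _ => ?_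
  show D v * (v.deg : ℤ) = D v
  rw [h4_deg_eq_one x hx v]
  simp

theorem h4_degree_eq_sum (x : F) (hx : IsCoord k x) (D : Divisor k F) :
    Divisor.degree D = D.sum fun _ n => n := by
  rw [h4_degree_eq_coeffSum x hx, h4_coeffSum_apply]

theorem h4_degree_single (x : F) (hx : IsCoord k x) (v : Place k F) (n : ℤ) :
    Divisor.degree (Finsupp.single v n) = n := by
  rw [Divisor.degree_single, h4_deg_eq_one x hx v]
  simp

/-- The principal divisor of a nonzero function. -/
noncomputable def h4_div (x : F) (hx : IsCoord k x) (z : F) (hz : z ≠ 0) : Divisor k F :=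
  (h4_principal_divisor x hx z hz).choose

theorem h4_div_apply (x : F) (hx : IsCoord k x) (z : F) (hz : z ≠ 0) (v : Place k F) :
    h4_div x hx z hz v = v.ord z :=
  (h4_principal_divisor x hx z hz).choose_spec.1 v

theorem h4_degree_div (x : F) (hx : IsCoord k x) (z : F) (hz : z ≠ 0) :
    Divisor.degree (h4_div x hx z hz) = 0 :=
  (h4_principal_divisor x hx z hz).choose_spec.2

theorem h4_rr_eq_bot (x : F) (hx : IsCoord k x) {D : Divisor k F}
    (h : Divisor.degree D < 0) : riemannRochSpace D = ⊥ := by
  rw [eq_bot_iff]
  intro f hf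
  rw [Submodule.mem_bot]
  by_contra hf0
  have hD : 0 ≤ D + h4_div x hx f hf0 := by
    rw [Finsupp.le_def]
    intro v
    rcases (mem_riemannRochSpace_iff.mp hf) v with h0 | h1
    · exact absurd h0 hf0
    · simp only [Finsupp.coe_zero, Pi.zero_apply, Finsupp.add_apply, h4_div_apply]
      omega
  have := h4_degree_nonneg hD
  rw [map_add, h4_degree_div] at this
  omega

theorem h4_nonempty_place (x : F) (hx : IsCoord k x) : Nonempty (Place k F) := by
  obtain ⟨S, hS, hsum⟩ := h4_sum_ord x hx x hx.transc
  have := hx.finite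
  have hpos : 0 < Module.finrank k⟮x⟯ F := Module.finrank_pos
  by_contra hne
  rw [not_nonempty_iff] at hne
  have hS0 : S = ∅ := Finset.eq_empty_of_isEmpty S
  rw [hS0, Finset.sum_empty] at hsum
  have : (0 : ℤ) < (Module.finrank k⟮x⟯ F : ℤ) := by exact_mod_cast hpos
  omega

theorem h4_rr_finite_and_le (x : F) (hx : IsCoord k x) {D D' : Divisor k F} (h : D ≤ D')
    [Module.Finite k (riemannRochSpace D)] :
    Module.Finite k (riemannRochSpace D') ∧
      (Module.finrank k (riemannRochSpace D') : ℤ)
        ≤ Module.finrank k (riemannRochSpace D) + (Divisor.degree D' - Divisor.degree D) := by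
  refine h4_divisor_induction (P := fun E => Module.Finite k (riemannRochSpace E) ∧
      (Module.finrank k (riemannRochSpace E) : ℤ)
        ≤ Module.finrank k (riemannRochSpace D) + (Divisor.degree E - Divisor.degree D)) h
    ⟨inferInstance, by simp⟩ ?_
  intro E v _ _ hE
  obtain ⟨hfin, hle⟩ := hE
  obtain ⟨φ, hφ⟩ := h4_rr_step_of_deg E v (h4_deg_eq_one x hx v)
  have hmono : riemannRochSpace E ≤ riemannRochSpace (E + Finsupp.single v 1) :=
    h4_rr_mono (le_add_of_nonneg_right (Finsupp.single_nonneg.mpr (by norm_num)))
  let N : Submodule k (riemannRochSpace (E + Finsupp.single v 1)) :=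
    (riemannRochSpace E).comap (riemannRochSpace (E + Finsupp.single v 1)).subtype
  have hN : N ≃ₗ[k] riemannRochSpace E := Submodule.comapSubtypeEquivOfLe hmono
  have : Module.Finite k N := Module.Finite.equiv hN.symm
  obtain ⟨h1, h2⟩ := h4_finrank_step N φ (fun m => by rw [hφ]; rfl)
  refine ⟨h1, ?_⟩
  rw [map_add, h4_degree_single x hx]
  have h3 : Module.finrank k N = Module.finrank k (riemannRochSpace E) := hN.finrank_eq
  have h4 : (Module.finrank k (riemannRochSpace (E + Finsupp.single v 1)) : ℤ)
      ≤ Module.finrank k N + 1 := by exact_mod_cast h2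
  rw [h3] at h4
  linarith

/-- Auxiliary: `L(D)` is finite-dimensional of dimension at most `max (deg D + 1) 0`. -/
theorem h4_rr_finite_aux (x : F) (hx : IsCoord k x) (D : Divisor k F) :
    Module.Finite k (riemannRochSpace D) ∧
      (Module.finrank k (riemannRochSpace D) : ℤ) ≤ max (Divisor.degree D + 1) 0 := by
  obtain ⟨v₀⟩ := h4_nonempty_place x hx
  set m : ℤ := max (Divisor.degree D + 1) 0 with hm
  set D₀ : Divisor k F := D - Finsupp.single v₀ m with hD₀
  have hdeg : Divisor.degree D₀ < 0 := by
    rw [hD₀, map_sub, h4_degree_single x hx]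
    have : Divisor.degree D + 1 ≤ m := le_max_left _ _
    omega
  have hle : D₀ ≤ D := by
    rw [hD₀, sub_le_self_iff]
    exact Finsupp.single_nonneg.mpr (le_max_right _ _)
  have hbot := h4_rr_eq_bot x hx hdeg
  have hfin0 : Module.Finite k (riemannRochSpace D₀) := by
    rw [hbot]
    infer_instance
  obtain ⟨h1, h2⟩ := h4_rr_finite_and_le x hx hle
  refine ⟨h1, ?_⟩
  have h0 : Module.finrank k (riemannRochSpace D₀) = 0 := by
    rw [hbot]
    exact finrank_bot k F
  rw [h0, hD₀, map_sub, h4_degree_single x hx] at h2
  push_cast at h2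
  linarith

theorem h4_rr_finite (x : F) (hx : IsCoord k x) (D : Divisor k F) :
    Module.Finite k (riemannRochSpace D) :=
  (h4_rr_finite_aux x hx D).1

theorem h4_rr_finrank_le (x : F) (hx : IsCoord k x) {D D' : Divisor k F} (h : D ≤ D') :
    (Module.finrank k (riemannRochSpace D') : ℤ)
      ≤ Module.finrank k (riemannRochSpace D) + (Divisor.degree D' - Divisor.degree D) := by
  have := h4_rr_finite x hx D
  exact (h4_rr_finite_and_le x hx h).2

theorem h4_rr_finrank_le_deg (x : F) (hx : IsCoord k x) (D : Divisor k F)
    (h : 0 ≤ Divisor.degree D) :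
    (Module.finrank k (riemannRochSpace D) : ℤ) ≤ Divisor.degree D + 1 := by
  have := (h4_rr_finite_aux x hx D).2
  rwa [max_eq_left (by omega)] at this

theorem h4_rr_zero (x : F) (hx : IsCoord k x) :
    Module.finrank k (riemannRochSpace (0 : Divisor k F)) = 1 := by
  have := h4_rr_finite x hx (0 : Divisor k F)
  have h1 := h4_rr_finrank_le_deg x hx (0 : Divisor k F) (by simp)
  rw [map_zero, zero_add] at h1
  have hmem : (1 : F) ∈ riemannRochSpace (0 : Divisor k F) := by
    rw [mem_riemannRochSpace_iff]
    intro v
    right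
    simp
  have h2 : 0 < Module.finrank k (riemannRochSpace (0 : Divisor k F)) := by
    rw [Module.finrank_pos_iff_exists_ne_zero]
    refine ⟨⟨1, hmem⟩, ?_⟩
    intro h0
    have := congrArg Subtype.val h0
    exact one_ne_zero this
  have h3 : Module.finrank k (riemannRochSpace (0 : Divisor k F)) ≤ 1 := by exact_mod_cast h1
  omega

/-- Multiplication by `z` identifies `L(D + div z)` with `L(D)`. -/
noncomputable def h4_rr_mulEquiv (x : F) (hx : IsCoord k x) (D : Divisor k F) (z : F)
    (hz : z ≠ 0) : riemannRochSpace (D + h4_div x hx z hz) ≃ₗ[k] riemannRochSpace D where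
  toFun f := ⟨(f : F) * z, by
    rw [mem_riemannRochSpace_iff]
    intro v
    rcases (mem_riemannRochSpace_iff.mp f.2) v with h0 | h1
    · left
      rw [h0, zero_mul]
    · by_cases hf0 : (f : F) = 0
      · left
        rw [hf0, zero_mul]
      · right
        rw [v.ord_mul hf0 hz]
        simp only [Finsupp.add_apply, h4_div_apply] at h1
        omega⟩
  map_add' f g := by
    apply Subtype.ext
    simp [add_mul]
  map_smul' c f := by
    apply Subtype.ext
    simp
  invFun g := ⟨(g : F) * z⁻¹, by
    rw [mem_riemannRochSpace_iff]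
    intro v
    rcases (mem_riemannRochSpace_iff.mp g.2) v with h0 | h1
    · left
      rw [h0, zero_mul]
    · by_cases hg0 : (g : F) = 0
      · left
        rw [hg0, zero_mul]
      · right
        rw [v.ord_mul hg0 (inv_ne_zero hz), v.ord_inv]
        simp only [Finsupp.add_apply, h4_div_apply]
        omega⟩
  left_inv f := by
    apply Subtype.ext
    simp [mul_assoc, mul_inv_cancel₀ hz]
  right_inv g := by
    apply Subtype.ext
    simp [mul_assoc, inv_mul_cancel₀ hz]

theorem h4_rr_finrank_add_div (x : F) (hx : IsCoord k x) (D : Divisor k F) (z : F)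
    (hz : z ≠ 0) :
    Module.finrank k (riemannRochSpace (D + h4_div x hx z hz))
      = Module.finrank k (riemannRochSpace D) :=
  (h4_rr_mulEquiv x hx D z hz).finrank_eq

theorem h4_rr_step (x : F) (hx : IsCoord k x) (D : Divisor k F) (v : Place k F) :
    ∃ φ : riemannRochSpace (D + Finsupp.single v 1) →ₗ[k] k,
      ∀ f, φ f = 0 ↔ (f : F) ∈ riemannRochSpace D :=
  h4_rr_step_of_deg D v (h4_deg_eq_one x hx v)

end FunctionField

end Fermat.Agent.Lib.S20
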