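/-
Project S20 / S23 (helper8): the *explicit* dictionary `S₂(Γ₀(N)) ↔ L(div dj)`, for ANY divisor
`W` of the differential `dj`, in the shape needed by the `q`-expansion contract of S23:

* `h8_dict_fwd` : every cusp form `f` gives `a / b ∈ L(W)` with `b f = a Dj` pointwise;
* `h8_dict_bwd` : every `h ∈ L(W)` is `a / b` with `b f = a Dj` for a cusp form `f`;
* `h8_cuspForm_finite` : `S₂(Γ₀(N))` is finite dimensional.

The proofs follow helper3's `h3_dict_of` (Lib/S20/DictFinal.lean).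
-/
import Fermat.Agent.Lib.S20.DictFinal
import Fermat.Agent.Lib.S20.Dict
import Fermat.Agent.Lib.S20.FfRN
import Fermat.Agent.Lib.S20.RRSpace

set_option autoImplicit false

noncomputable section

namespace Fermat.Agent.Lib.S20

open UpperHalfPlane hiding I
open Complex ModularForm EisensteinSeries ModularGroup Filter Function AlgebraicCurve
open Fermat.Agent.Lib.X0
open scoped MatrixGroups ModularForm Manifold Topology Real

local notation "Δ" => ModularForm.discriminant

/-- **Explicit dictionary, forward direction**: for any divisor `W` of `dj`, a cusp form `f`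
gives the element `(-F_f) / (j (j - 1728))` of `L(W)`, and `j (j - 1728) f = (-F_f) Dj`. -/
theorem h8_dict_fwd (N : ℕ) [NeZero N] (W : Divisor ℂ (MN N))
    (hW : ∀ v : Place ℂ (MN N),
      W v = v.ordDifferential (KaehlerDifferential.D ℂ (MN N) (xM N)))
    (f : CuspForm (CongruenceSubgroup.Gamma0 N) 2) :
    ∃ a b : RN N, b ≠ 0 ∧
      algebraMap (RN N) (MN N) a / algebraMap (RN N) (MN N) b ∈ riemannRochSpace W ∧
      ∀ τ : ℍ, b.1.1 τ * f τ = a.1.1 τ * h3_Dj τ := by
  classical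
  have hC := h2_coordG N
  have hcomb := h8_combStatement N
  haveI : Finite (QN N) :=
    Nat.finite_of_card_ne_zero (by rw [hcomb.1]; exact (dedekindPsi_pos N).ne')
  haveI : Fintype (QN N) := Fintype.ofFinite _
  have hQ : Fintype.card (QN N) = coordDegree ℂ (xM N) := by
    rw [← Nat.card_eq_fintype_card, ← hC.2]
  have hx := hC.1
  have hden := h3_den_ne_zero N
  have hden' : (h3_den N).1 ≠ 0 := fun h => hden (Subtype.ext h)
  have hinj : Function.Injective (algebraMap (RN N) (MN N)) :=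
    IsFractionRing.injective (RN N) (MN N)
  have hdenM : algebraMap (RN N) (MN N) (h3_den N) ≠ 0 := by
    rw [Ne, map_eq_zero_iff _ hinj]; exact hden
  have hrel := h3_rel_Ff N (h6_Ff N) (fun f τ => h6_Ff_apply N f τ) f
  refine ⟨-(h6_Ff N f), h3_den N, hden, ?_, fun τ => ?_⟩
  · -- membership
    by_cases hf : f = 0
    · rw [hf, map_zero, neg_zero, map_zero, zero_div]; exact zero_mem _
    have hcne : h3_cuspHolo f ≠ 0 := by
      intro h
      apply hf
      apply DFunLike.ext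
      intro τ
      exact congrFun (congrArg Subtype.val h) τ
    have hane : (-(h6_Ff N f) : RN N) ≠ 0 := by
      intro h
      rw [h] at hrel
      have h1 : (h3_den N).1 * h3_cuspHolo f = 0 := by
        rw [← hrel]; exact zero_mul _
      exact hcne ((mul_eq_zero.mp h1).resolve_left hden')
    have hΦne : algebraMap (RN N) (MN N) (-(h6_Ff N f)) /
        algebraMap (RN N) (MN N) (h3_den N) ≠ 0 := by
      rw [Ne, div_eq_zero_iff, or_iff_left hdenM, map_eq_zero_iff _ hinj]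
      exact hane
    refine h6_mem_rr_of_orders (RingHom.id ℂ) (xM N) hx (QN N) hQ W hW _ hΦne ?_ ?_
    · intro c
      obtain ⟨τ₀, rfl⟩ := h3_jFun_surjective c
      obtain ⟨M, E, hE⟩ := h3_cFiniteConcrete N τ₀
      refine ⟨M, E, fun q => ?_⟩
      obtain ⟨g, rfl⟩ := QuotientGroup.mk_surjective q
      rw [h3_fin_order_of_rel N _ _ hden _ hcne hrel τ₀ M E hE g]
      exact h3_order_expG_nonneg _ _ _
    · obtain ⟨E, hE⟩ := h3_cInftyConcrete N
      refine ⟨N, E, fun q => ?_⟩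
      obtain ⟨g, rfl⟩ := QuotientGroup.mk_surjective q
      refine (h3_inf_iff_of_rel N _ _ hane hden E hE h5_asymp g
        ((f : ℍ → ℂ) ∣[(2 : ℤ)] g⁻¹) ?_).mp (h5_cuspZero N f g⁻¹)
      intro z
      refine h3_slash_rel (A := (-(h6_Ff N f) : RN N).1.1) (B := (h3_den N).1.1) (C := f) ?_ g⁻¹ z
      intro w
      exact congrFun (congrArg Subtype.val hrel) w
  · exact (congrFun (congrArg Subtype.val hrel) τ).symm

/-- **Explicit dictionary, backward direction**: for any divisor `W` of `dj`, every element of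
`L(W)` is a quotient `a / b` of elements of `R_N` with `b f = a Dj` for a cusp form `f`. -/
theorem h8_dict_bwd (N : ℕ) [NeZero N] (W : Divisor ℂ (MN N))
    (hW : ∀ v : Place ℂ (MN N),
      W v = v.ordDifferential (KaehlerDifferential.D ℂ (MN N) (xM N)))
    (h : MN N) (hmemh : h ∈ riemannRochSpace W) :
    ∃ (f : CuspForm (CongruenceSubgroup.Gamma0 N) 2) (a b : RN N), b ≠ 0 ∧
      h = algebraMap (RN N) (MN N) a / algebraMap (RN N) (MN N) b ∧
      ∀ τ : ℍ, b.1.1 τ * f τ = a.1.1 τ * h3_Dj τ := by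
  classical
  have hC := h2_coordG N
  have hcomb := h8_combStatement N
  haveI : Finite (QN N) :=
    Nat.finite_of_card_ne_zero (by rw [hcomb.1]; exact (dedekindPsi_pos N).ne')
  haveI : Fintype (QN N) := Fintype.ofFinite _
  have hQ : Fintype.card (QN N) = coordDegree ℂ (xM N) := by
    rw [← Nat.card_eq_fintype_card, ← hC.2]
  have hx := hC.1
  by_cases hh : h = 0
  · refine ⟨0, 0, 1, one_ne_zero, ?_, fun τ => ?_⟩
    · rw [hh, map_zero, zero_div]
    · show (1 : RN N).1.1 τ * (0 : ℂ) = (0 : RN N).1.1 τ * h3_Dj τ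
      rw [mul_zero]
      show (0 : ℂ) = 0 * h3_Dj τ
      rw [zero_mul]
  obtain ⟨a, b, hbm, hab⟩ := IsFractionRing.div_surjective (A := RN N) h
  have hb : b ≠ 0 := nonZeroDivisors.ne_zero hbm
  have hb' : b.1 ≠ 0 := fun h0 => hb (Subtype.ext h0)
  have ha : a ≠ 0 := by
    rintro rfl
    apply hh
    rw [← hab, map_zero, zero_div]
  have ha' : a.1 ≠ 0 := fun h0 => ha (Subtype.ext h0)
  have haD : a.1 * h3_DjHolo ≠ 0 := mul_ne_zero ha' h3_DjHolo_ne_zero
  -- pointwise orders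
  have hord : ∀ τ₀ : ℍ,
      (h2_taylorHom τ₀ b.1).order ≤ (h2_taylorHom τ₀ (a.1 * h3_DjHolo)).order := by
    intro τ₀
    obtain ⟨M, E, hE⟩ := h3_cFiniteConcrete N τ₀
    have h1 := h6_order_of_mem_rr_fin (RingHom.id ℂ) (xM N) hx (QN N) hQ W hW h hh hmemh
      (jFun τ₀) M E ((1 : SL(2, ℤ)) : QN N)
    have hi := h2_expG_injective τ₀ 1
    have hΛa : h2_expG τ₀ 1 a.1 ≠ 0 := fun h0 => ha' (hi (by rw [h0, map_zero]))
    have hΛb : h2_expG τ₀ 1 b.1 ≠ 0 := fun h0 => hb' (hi (by rw [h0, map_zero]))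
    rw [← hab, map_div₀, hE, hE, h2_order_div _ _ hΛa hΛb,
      ← h3_order_expG_Dj N τ₀ M E hE 1] at h1
    have e1 : ∀ F : h2_holo, F ≠ 0 →
        (h2_expG τ₀ 1 F).order = ((h2_taylorHom τ₀ F).order.toNat : ℤ) := by
      intro F hF
      rw [h3_expG_eq_laurentHom, inv_one, one_smul, h2_order_laurentHom _ _ hF]
      rfl
    rw [e1 _ ha', e1 _ hb', e1 _ h3_DjHolo_ne_zero] at h1
    have hne : ∀ F : h2_holo, F ≠ 0 → (h2_taylorHom τ₀ F).order ≠ ⊤ := by
      intro F hF
      rw [Ne, PowerSeries.order_eq_top]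
      intro h0
      exact hF ((h2_taylorHom_injective τ₀) (by rw [h0, map_zero]))
    rw [map_mul, PowerSeries.order_mul, ← ENat.natCast_toNat (hne _ ha'),
      ← ENat.natCast_toNat (hne _ hb'), ← ENat.natCast_toNat (hne _ h3_DjHolo_ne_zero)]
    have h2 : (h2_taylorHom τ₀ b.1).order.toNat ≤
        (h2_taylorHom τ₀ a.1).order.toNat + (h2_taylorHom τ₀ h3_DjHolo).order.toNat := by
      omega
    exact_mod_cast h2
  obtain ⟨c, hc⟩ := h6_holo_dvd (a.1 * h3_DjHolo) b.1 hb' hord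
  have hpt : ∀ w : ℍ, a.1.1 w * h3_Dj w = b.1.1 w * c.1 w :=
    fun w => congrFun (congrArg Subtype.val hc) w
  -- slash invariance
  have hslash : ∀ δ ∈ CongruenceSubgroup.Gamma0 N, c.1 ∣[(2 : ℤ)] δ = c.1 := by
    intro δ hδ
    have hmd : MDiff (c.1 ∣[(2 : ℤ)] δ) := by
      rw [SL_slash_def]
      exact (h2_mdiff_comp_smul c.2 δ).mul (mdifferentiable_denom_zpow δ (-2))
    set G : h2_holo := ⟨c.1 ∣[(2 : ℤ)] δ, hmd⟩ - c with hG
    have hbG : b.1 * G = 0 := by
      apply Subtype.ext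
      funext z
      show b.1.1 z * ((c.1 ∣[(2 : ℤ)] δ) z - c.1 z) = 0
      have h1 := h3_slash_rel hpt δ z
      rw [h5_RN_invariant a δ hδ z, h5_RN_invariant b δ hδ z, hpt z] at h1
      rw [mul_sub, ← h1, sub_self]
    have hG0 : G = 0 := (mul_eq_zero.mp hbG).resolve_left hb'
    funext z
    have := congrFun (congrArg Subtype.val hG0) z
    exact sub_eq_zero.mp this
  -- cusp conditions
  have hzero : ∀ γ : SL(2, ℤ), IsZeroAtImInfty (c.1 ∣[(2 : ℤ)] γ) := by
    intro γ
    obtain ⟨E, hE⟩ := h3_cInftyConcrete N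
    have h2 := h6_order_of_mem_rr_inf (RingHom.id ℂ) (xM N) hx (QN N) hQ W hW h hh hmemh
      N E ((γ⁻¹ : SL(2, ℤ)) : QN N)
    rw [← hab] at h2
    refine (h3_inf_iff_of_rel N a b ha hb E hE h5_asymp γ⁻¹ (c.1 ∣[(2 : ℤ)] γ) ?_).mpr h2
    intro z
    rw [inv_inv]
    exact h3_slash_rel hpt γ z
  obtain ⟨f, hf⟩ := h5_cuspMk N c.1 c.2 hslash hzero
  refine ⟨f, a, b, hb, hab.symm, fun τ => ?_⟩
  rw [hf τ, hpt τ]

/-- `S₂(Γ₀(N))` is finite dimensional. -/
theorem h8_cuspForm_finite (N : ℕ) [NeZero N] :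
    FiniteDimensional ℂ (CuspForm (CongruenceSubgroup.Gamma0 N) 2) := by
  obtain ⟨W, -, ⟨e⟩⟩ := h3_dict N
  haveI : Module.Finite ℂ (riemannRochSpace W) := h4_rr_finite (xM N) (h2_coordG N).1 W
  exact LinearEquiv.finiteDimensional e.symm

end Fermat.Agent.Lib.S20
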