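/-
S20 project, slab (RR), piece (P5-b) (helper8): the residue functional
`ω α = ∑ᶠ v, ρ_v (α_v)` on repartitions attached to a residue datum; it vanishes on
`A(W) + F` (`W = div dx`) and on no `A(W + v)`.
-/
import Fermat.Agent.Lib.S20.Defs
import Fermat.Agent.Lib.S20.RRAdele

set_option autoImplicit false

open AlgebraicCurve KaehlerDifferential
open Fermat.Agent.Lib.X0

noncomputable section

namespace Fermat.Agent.Lib.S20

section ResFunctional

variable {k F : Type} [Field k] [IsAlgClosed k] [CharZero k] [Field F] [Algebra k F]

/-- the support of `v ↦ ρ_v (α_v)` is finite. -/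
theorem h8_resTerm_support_finite (x : F) (hx : IsCoord k x) (R : ResidueDatum k F x)
    (W : Divisor k F) (hW : ∀ v, W v = v.ordDifferential (D k F x)) (α : repartitions k F) :
    (Function.support fun v : Place k F => R.ρ v ((α : Place k F → F) v)).Finite := by
  have hfin := (h7_mem_repartitions_iff x hx).mp α.2
  refine (hfin.union W.support.finite_toSet).subset ?_
  intro v hv
  rw [Function.mem_support] at hv
  by_contra hcon
  rw [Set.mem_union, not_or] at hcon
  obtain ⟨h1, h2⟩ := hcon
  apply hv
  by_cases h0 : (α : Place k F → F) v = 0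
  · rw [h0, map_zero]
  · apply R.vanish v _ h0
    have h1' : 0 ≤ v.ord ((α : Place k F → F) v) := not_lt.mp h1
    have h2' : W v = 0 := by
      by_contra hne
      exact h2 (Finset.mem_coe.mpr (Finsupp.mem_support_iff.mpr hne))
    rw [← hW v, h2']; omega

/-- The residue functional on repartitions. -/
def h8_omega (x : F) (hx : IsCoord k x) (R : ResidueDatum k F x)
    (W : Divisor k F) (hW : ∀ v, W v = v.ordDifferential (D k F x)) :
    repartitions k F →ₗ[k] k where
  toFun α := ∑ᶠ v : Place k F, R.ρ v ((α : Place k F → F) v)
  map_add' α β := by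
    rw [← finsum_add_distrib (h8_resTerm_support_finite x hx R W hW α)
      (h8_resTerm_support_finite x hx R W hW β)]
    refine finsum_congr fun v => ?_
    show R.ρ v (((α + β : repartitions k F) : Place k F → F) v) = _
    rw [← map_add]; rfl
  map_smul' c α := by
    rw [RingHom.id_apply, smul_finsum]
    refine finsum_congr fun v => ?_
    show R.ρ v (((c • α : repartitions k F) : Place k F → F) v) = _
    rw [← map_smul]; rfl

theorem h8_omega_apply (x : F) (hx : IsCoord k x) (R : ResidueDatum k F x)
    (W : Divisor k F) (hW : ∀ v, W v = v.ordDifferential (D k F x)) (α : repartitions k F) :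
    h8_omega x hx R W hW α = ∑ᶠ v : Place k F, R.ρ v ((α : Place k F → F) v) := rfl

/-- **(P5-b)** the residue functional is a Weil differential with divisor exactly `W`. -/
theorem h8_resFunctional (x : F) (hx : IsCoord k x) (R : ResidueDatum k F x)
    (W : Divisor k F) (hW : ∀ v, W v = v.ordDifferential (D k F x)) :
    ∃ ω : repartitions k F →ₗ[k] k,
      (∀ α ∈ repartitionsOf W ⊔ principalRepartitions k F, ω α = 0) ∧
      (∀ v : Place k F, ∃ α ∈ repartitionsOf (W + Finsupp.single v 1), ω α ≠ 0) := by
  classical
  refine ⟨h8_omega x hx R W hW, ?_, ?_⟩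
  · -- vanishing on `A(W) ⊔ F`
    have hle : repartitionsOf W ⊔ principalRepartitions k F ≤
        LinearMap.ker (h8_omega x hx R W hW) := by
      refine sup_le ?_ ?_
      · intro α hα
        rw [LinearMap.mem_ker, h8_omega_apply]
        rw [mem_repartitionsOf_iff] at hα
        refine finsum_eq_zero_of_forall_eq_zero fun v => ?_
        rcases hα v with h0 | h1
        · rw [h0, map_zero]
        · by_cases h0 : (α : Place k F → F) v = 0
          · rw [h0, map_zero]
          · apply R.vanish v _ h0
            rw [← hW v]; omega
      · intro α hα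
        rw [LinearMap.mem_ker, h8_omega_apply]
        rw [mem_principalRepartitions_iff] at hα
        obtain ⟨f, hf⟩ := hα
        rw [hf]
        exact R.sum_eq_zero f
    intro α hα
    exact LinearMap.mem_ker.mp (hle hα)
  · intro v
    obtain ⟨p, hp⟩ := h7_exists_uniformizer v
    have hp0 : p ≠ 0 := h7_ord_ne_zero_of_ord_one hp
    set f : F := p ^ (-(W v) - 1) with hf
    have hf0 : f ≠ 0 := zpow_ne_zero _ hp0
    have hford : v.ord f = -(W v) - 1 := by rw [hf, v.ord_zpow, hp, mul_one]
    refine ⟨h7_single v f, ?_, ?_⟩
    · apply h7_single_mem_repartitionsOf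
      rw [h7_mem_ball_iff, h7_add_single_apply_self]
      right; rw [hford]; omega
    · rw [h8_omega_apply, finsum_eq_single _ v (fun w hw => by
        rw [h7_single_apply_of_ne v f hw, map_zero]), h7_single_apply_self]
      apply R.nonvanish v f hf0
      rw [hford, ← hW v]; ring

end ResFunctional

end Fermat.Agent.Lib.S20
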