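/-
S20 project, piece (RR), part P3: Riemann's theorem: `deg D - ℓ(D)` is bounded above.
-/
import Fermat.Agent.Lib.S20.RRSpace

set_option autoImplicit false

open AlgebraicCurve Fermat.Agent.Lib.X0 IntermediateField

namespace Fermat.Agent.Lib.S20

section Riemann

variable {k F : Type} [Field k] [IsAlgClosed k] [CharZero k] [Field F] [Algebra k F]

/-- The pole divisor of a nonzero function. -/
noncomputable def h4_poleDiv (x : F) (hx : IsCoord k x) (z : F) (hz : z ≠ 0) : Divisor k F :=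
  (h4_div x hx z hz).mapRange (fun n => max 0 (-n)) (by simp)

theorem h4_poleDiv_apply (x : F) (hx : IsCoord k x) (z : F) (hz : z ≠ 0) (v : Place k F) :
    h4_poleDiv x hx z hz v = max 0 (-(v.ord z)) := by
  rw [h4_poleDiv, Finsupp.mapRange_apply, h4_div_apply]

theorem h4_poleDiv_nonneg (x : F) (hx : IsCoord k x) (z : F) (hz : z ≠ 0) :
    0 ≤ h4_poleDiv x hx z hz := by
  rw [Finsupp.le_def]
  intro v
  rw [h4_poleDiv_apply]
  exact le_max_left _ _

/-- The pole divisor of the coordinate has degree `[F : k(x)]`. -/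
theorem h4_degree_poleDiv_coord (x : F) (hx : IsCoord k x) (hx0 : x ≠ 0) :
    Divisor.degree (h4_poleDiv x hx x hx0) = (Module.finrank k⟮x⟯ F : ℤ) := by
  classical
  have htr' : Transcendental k x⁻¹ := by
    intro h
    apply hx.transc
    have := h.inv
    rwa [inv_inv] at this
  obtain ⟨S, hS, hsum⟩ := h4_sum_ord x hx x⁻¹ htr'
  rw [h4_finrank_adjoin_inv] at hsum
  rw [h4_degree_eq_sum x hx, ← hsum, Finsupp.sum]
  have hsupp : (h4_poleDiv x hx x hx0).support = S := by
    ext v
    rw [Finsupp.mem_support_iff, h4_poleDiv_apply, hS, v.ord_inv]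
    constructor
    · intro h
      by_contra hneg
      apply h
      rw [max_eq_left (by omega)]
    · intro h
      rw [max_eq_right (by omega)]
      omega
  rw [hsupp]
  refine Finset.sum_congr rfl fun v hv => ?_
  have := (hS v).mp hv
  rw [v.ord_inv] at this ⊢
  rw [h4_poleDiv_apply, max_eq_right (by omega)]

omit [IsAlgClosed k] [CharZero k] in
/-- Powers of a transcendental element are linearly independent. -/
theorem h4_linearIndependent_pow_gen (x : F) (hx : Transcendental k x) (l : ℕ) :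
    LinearIndependent k (fun i : Fin (l + 1) => (AdjoinSimple.gen k x) ^ (i : ℕ)) := by
  have hinj : Function.Injective (Polynomial.aeval (R := k) (AdjoinSimple.gen k x)) := by
    rw [← transcendental_iff_injective]
    intro halg
    apply hx
    have := halg.algebraMap (A := F)
    simpa using this
  have h1 : LinearIndependent k (fun i : ℕ => (Polynomial.monomial i (1 : k))) := by
    have := (Polynomial.basisMonomials k).linearIndependent
    convert this using 2
    simp
  have h2 := h1.comp (fun i : Fin (l + 1) => (i : ℕ)) Fin.val_injective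
  have h3 := h2.map' (Polynomial.aeval (R := k) (AdjoinSimple.gen k x)).toLinearMap
    (LinearMap.ker_eq_bot.mpr hinj)
  have e : (fun i : Fin (l + 1) => (AdjoinSimple.gen k x) ^ (i : ℕ))
      = (Polynomial.aeval (R := k) (AdjoinSimple.gen k x)).toLinearMap ∘
        (fun i : ℕ => (Polynomial.monomial i (1 : k))) ∘ fun i : Fin (l + 1) => (i : ℕ) := by
    ext i
    simp [Polynomial.aeval_monomial]
  rw [e]
  exact h3

variable (x : F) (hx : IsCoord k x) [FiniteDimensional k⟮x⟯ F]

/-- The divisor bounding the poles of a basis of `F / k(x)`. -/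
noncomputable def h4_basisPoleDiv : Divisor k F :=
  ∑ j, h4_poleDiv x hx (Module.finBasis k⟮x⟯ F j) ((Module.finBasis k⟮x⟯ F).ne_zero j)

theorem h4_basisPoleDiv_nonneg : 0 ≤ h4_basisPoleDiv x hx :=
  Finset.sum_nonneg fun _ _ => h4_poleDiv_nonneg x hx _ _

theorem h4_basisPoleDiv_ge (j : Fin (Module.finrank k⟮x⟯ F)) (v : Place k F) :
    -(h4_basisPoleDiv x hx v) ≤ v.ord (Module.finBasis k⟮x⟯ F j) := by
  have h1 : h4_poleDiv x hx (Module.finBasis k⟮x⟯ F j) ((Module.finBasis k⟮x⟯ F).ne_zero j) v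
      ≤ h4_basisPoleDiv x hx v := by
    rw [h4_basisPoleDiv, Finsupp.finsetSum_apply]
    exact Finset.single_le_sum (f := fun i => h4_poleDiv x hx (Module.finBasis k⟮x⟯ F i)
      ((Module.finBasis k⟮x⟯ F).ne_zero i) v)
      (fun i _ => Finsupp.le_def.mp (h4_poleDiv_nonneg x hx _ _) v) (Finset.mem_univ j)
  rw [h4_poleDiv_apply] at h1
  have h2 := le_max_right 0 (-(v.ord (Module.finBasis k⟮x⟯ F j)))
  omega

/-- The functions `x^i u_j`, `i ≤ l`, lie in `L(l B + C)`. -/
theorem h4_pow_mul_basis_mem (hx0 : x ≠ 0) (l : ℕ) (i : Fin (l + 1))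
    (j : Fin (Module.finrank k⟮x⟯ F)) :
    x ^ (i : ℕ) * Module.finBasis k⟮x⟯ F j
      ∈ riemannRochSpace (l • h4_poleDiv x hx x hx0 + h4_basisPoleDiv x hx) := by
  rw [mem_riemannRochSpace_iff]
  intro v
  right
  have hb0 : Module.finBasis k⟮x⟯ F j ≠ 0 := (Module.finBasis k⟮x⟯ F).ne_zero j
  rw [v.ord_mul (pow_ne_zero _ hx0) hb0, ← zpow_natCast, v.ord_zpow]
  have h1 := h4_basisPoleDiv_ge x hx j v
  have h2 : -(h4_poleDiv x hx x hx0 v) ≤ v.ord x := by
    rw [h4_poleDiv_apply]
    have := le_max_right 0 (-(v.ord x))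
    omega
  have h3 : 0 ≤ h4_poleDiv x hx x hx0 v :=
    Finsupp.le_def.mp (h4_poleDiv_nonneg x hx x hx0) v
  have h4 : ((i : ℕ) : ℤ) ≤ l := by
    have := i.2
    omega
  have e0 : (l • h4_poleDiv x hx x hx0 + h4_basisPoleDiv x hx) v
      = (l : ℤ) * h4_poleDiv x hx x hx0 v + h4_basisPoleDiv x hx v := by
    simp [Finsupp.add_apply, Finsupp.smul_apply]
  rw [e0]
  have e1 : ((i : ℕ) : ℤ) * (-(h4_poleDiv x hx x hx0 v)) ≤ ((i : ℕ) : ℤ) * v.ord x :=
    mul_le_mul_of_nonneg_left h2 (Int.natCast_nonneg _)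
  have e2 : ((i : ℕ) : ℤ) * h4_poleDiv x hx x hx0 v ≤ (l : ℤ) * h4_poleDiv x hx x hx0 v :=
    mul_le_mul_of_nonneg_right h4 h3
  linarith

set_option maxHeartbeats 1000000 in
/-- `ℓ(l B + C) ≥ n (l + 1)`. -/
theorem h4_rr_lower (hx0 : x ≠ 0) (l : ℕ) :
    Module.finrank k⟮x⟯ F * (l + 1)
      ≤ Module.finrank k (riemannRochSpace (l • h4_poleDiv x hx x hx0 + h4_basisPoleDiv x hx)) := by
  classical
  have hli : LinearIndependent k
      (fun p : Fin (l + 1) × Fin (Module.finrank k⟮x⟯ F) =>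
        (AdjoinSimple.gen k x) ^ (p.1 : ℕ) • Module.finBasis k⟮x⟯ F p.2) :=
    linearIndependent_smul (h4_linearIndependent_pow_gen x hx.transc l)
      (Module.finBasis k⟮x⟯ F).linearIndependent
  have hval : ∀ p : Fin (l + 1) × Fin (Module.finrank k⟮x⟯ F),
      (AdjoinSimple.gen k x) ^ (p.1 : ℕ) • Module.finBasis k⟮x⟯ F p.2
        = x ^ (p.1 : ℕ) * Module.finBasis k⟮x⟯ F p.2 := by
    intro p
    rw [Algebra.smul_def]
    simp
  have hmem : ∀ p : Fin (l + 1) × Fin (Module.finrank k⟮x⟯ F),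
      (AdjoinSimple.gen k x) ^ (p.1 : ℕ) • Module.finBasis k⟮x⟯ F p.2
        ∈ riemannRochSpace (l • h4_poleDiv x hx x hx0 + h4_basisPoleDiv x hx) := by
    intro p
    rw [hval]
    exact h4_pow_mul_basis_mem x hx hx0 l p.1 p.2
  have hw : LinearIndependent k
      (fun p : Fin (l + 1) × Fin (Module.finrank k⟮x⟯ F) =>
        (⟨_, hmem p⟩ : riemannRochSpace (l • h4_poleDiv x hx x hx0 + h4_basisPoleDiv x hx))) := by
    apply LinearIndependent.of_comp
      (riemannRochSpace (l • h4_poleDiv x hx x hx0 + h4_basisPoleDiv x hx)).subtype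
    exact hli
  have := h4_rr_finite x hx (l • h4_poleDiv x hx x hx0 + h4_basisPoleDiv x hx)
  have hcard := hw.fintype_card_le_finrank
  rw [Fintype.card_prod, Fintype.card_fin, Fintype.card_fin] at hcard
  rw [mul_comm]
  exact hcard

end Riemann

section RiemannThm

variable {k F : Type} [Field k] [IsAlgClosed k] [CharZero k] [Field F] [Algebra k F]

/-- **Riemann's theorem**: `deg D - ℓ(D)` is bounded above. -/
theorem h4_riemann (x : F) (hx : IsCoord k x) : ∃ c : ℤ, ∀ D : Divisor k F,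
    Divisor.degree D - (Module.finrank k (riemannRochSpace D) : ℤ) ≤ c := by
  classical
  have hfin := hx.finite
  have hx0 : x ≠ 0 := by
    rintro rfl
    exact hx.transc isAlgebraic_zero
  have hn : (1 : ℤ) ≤ (Module.finrank k⟮x⟯ F : ℤ) := by
    have : 0 < Module.finrank k⟮x⟯ F := Module.finrank_pos
    exact_mod_cast this
  have hdegB : Divisor.degree (h4_poleDiv x hx x hx0) = (Module.finrank k⟮x⟯ F : ℤ) :=
    h4_degree_poleDiv_coord x hx hx0
  -- Step 1
  have step1 : ∀ l : ℕ, (l : ℤ) * (Module.finrank k⟮x⟯ F : ℤ)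
      - (Divisor.degree (h4_basisPoleDiv x hx) - (Module.finrank k⟮x⟯ F : ℤ))
      ≤ (Module.finrank k (riemannRochSpace (l • h4_poleDiv x hx x hx0)) : ℤ) := by
    intro l
    have h1 := h4_rr_lower x hx hx0 l
    have h2 := h4_rr_finrank_le x hx (D := l • h4_poleDiv x hx x hx0)
      (D' := l • h4_poleDiv x hx x hx0 + h4_basisPoleDiv x hx)
      (le_add_of_nonneg_right (h4_basisPoleDiv_nonneg x hx))
    rw [map_add, add_sub_cancel_left] at h2
    have h1' : (Module.finrank k⟮x⟯ F : ℤ) * ((l : ℤ) + 1)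
        ≤ (Module.finrank k (riemannRochSpace
          (l • h4_poleDiv x hx x hx0 + h4_basisPoleDiv x hx)) : ℤ) := by
      exact_mod_cast h1
    linarith
  refine ⟨Divisor.degree (h4_basisPoleDiv x hx) - (Module.finrank k⟮x⟯ F : ℤ), fun D => ?_⟩
  -- positive part of `D`
  obtain ⟨D₁, hD₁, h0D₁⟩ : ∃ D₁ : Divisor k F, D ≤ D₁ ∧ 0 ≤ D₁ := by
    refine ⟨D.mapRange (fun m => max 0 m) (by simp), ?_, ?_⟩
    · rw [Finsupp.le_def]
      intro v
      rw [Finsupp.mapRange_apply]
      exact le_max_right _ _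
    · rw [Finsupp.le_def]
      intro v
      rw [Finsupp.mapRange_apply]
      exact le_max_left _ _
  obtain ⟨l, hl⟩ : ∃ l : ℕ, Divisor.degree (h4_basisPoleDiv x hx)
      - (Module.finrank k⟮x⟯ F : ℤ) + Divisor.degree D₁ + 1 ≤ (l : ℤ) :=
    ⟨_, Int.self_le_toNat _⟩
  have hl' : (l : ℤ) ≤ (l : ℤ) * (Module.finrank k⟮x⟯ F : ℤ) := by
    have : (0 : ℤ) ≤ l := Int.natCast_nonneg l
    nlinarith
  have h3 := h4_rr_finrank_le x hx (D := l • h4_poleDiv x hx x hx0 - D₁)
    (D' := l • h4_poleDiv x hx x hx0) (sub_le_self _ h0D₁)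
  rw [map_sub, sub_sub_cancel] at h3
  have hpos : 0 < Module.finrank k (riemannRochSpace (l • h4_poleDiv x hx x hx0 - D₁)) := by
    have h7 := step1 l
    have : (0 : ℤ) < (Module.finrank k
        (riemannRochSpace (l • h4_poleDiv x hx x hx0 - D₁)) : ℤ) := by
      linarith
    exact_mod_cast this
  have hfin2 := h4_rr_finite x hx (l • h4_poleDiv x hx x hx0 - D₁)
  obtain ⟨⟨z, hz⟩, hz0⟩ := Module.finrank_pos_iff_exists_ne_zero.mp hpos
  have hz0' : z ≠ 0 := fun h => hz0 (Subtype.ext h)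
  have hzinv : z⁻¹ ≠ 0 := inv_ne_zero hz0'
  have hD'le : D + h4_div x hx z⁻¹ hzinv ≤ l • h4_poleDiv x hx x hx0 := by
    rw [Finsupp.le_def]
    intro v
    rcases (mem_riemannRochSpace_iff.mp hz) v with h | h
    · exact absurd h hz0'
    · have h8 := Finsupp.le_def.mp hD₁ v
      simp only [Finsupp.coe_sub, Pi.sub_apply] at h
      simp only [Finsupp.add_apply, h4_div_apply, v.ord_inv]
      omega
  have h4 := h4_rr_finrank_le x hx hD'le
  have h5 : Module.finrank k (riemannRochSpace (D + h4_div x hx z⁻¹ hzinv))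
      = Module.finrank k (riemannRochSpace D) := h4_rr_finrank_add_div x hx D z⁻¹ hzinv
  have h6 : Divisor.degree (D + h4_div x hx z⁻¹ hzinv) = Divisor.degree D := by
    rw [map_add, h4_degree_div, add_zero]
  have h7 := step1 l
  rw [h5, h6, map_nsmul, hdegB] at h4
  simp only [nsmul_eq_mul] at h4
  linarith

end RiemannThm

end Fermat.Agent.Lib.S20
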