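/-
S20 / (RR) piece P4 (helper7): the INDEX THEOREM.

For a function field `F/k` (one variable, `k` algebraically closed of characteristic zero,
`x` a coordinate) and the adele ring `A = repartitions k F`:

  `dim_k A / (A(D) + F) = l(D) - deg D - 1 + g`   for every divisor `D`,

for some integer `g` independent of `D` (`h7_index`), given Riemann's inequality in the form
"`deg D - l(D)` is bounded above" (helper4's `h4_riemann`).  The proof is the usual one-place
step `D -> D + v` (`h7_index_step`): either `L` grows by one and `A(D) + F` is unchanged, or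
`L` is unchanged and `A(D + v) + F = (A(D) + F) + k a` with `a` outside `A(D) + F`.
-/
import Mathlib
import Fermat.Agent.Lib.S20.RRAdele
import Fermat.Agent.Lib.S20.RRSpace

set_option autoImplicit false
set_option linter.unusedSectionVars false
set_option linter.style.haveILetI false

namespace Fermat.Agent.Lib.S20

open AlgebraicCurve WithZero
open Fermat.Agent.Lib.X0

section LA

variable {k M : Type*} [Field k] [AddCommGroup M] [Module k M]

/-- Enlarging a subspace by one vector outside it lowers the codimension by one. -/
theorem h7_quot_sup_span (S : Submodule k M) (a : M) (ha : a ∉ S) :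
    (Module.Finite k (M ⧸ S) ↔ Module.Finite k (M ⧸ (S ⊔ Submodule.span k {a}))) ∧
    (Module.Finite k (M ⧸ S) →
      Module.finrank k (M ⧸ S) = Module.finrank k (M ⧸ (S ⊔ Submodule.span k {a})) + 1) := by
  set S' := S ⊔ Submodule.span k {a} with hS'
  have hle : S ≤ S' := le_sup_left
  let T : Submodule k (M ⧸ S) := S'.map S.mkQ
  have hT : T = Submodule.span k {S.mkQ a} := by
    show S'.map S.mkQ = _
    rw [hS', Submodule.map_sup, Submodule.map_span, Set.image_singleton]
    have : S.map S.mkQ = ⊥ := by
      rw [Submodule.eq_bot_iff]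
      rintro _ ⟨s, hs, rfl⟩
      exact (Submodule.Quotient.mk_eq_zero S).mpr hs
    rw [this, bot_sup_eq]
  have hne : S.mkQ a ≠ 0 := by
    rw [Ne, Submodule.mkQ_apply, Submodule.Quotient.mk_eq_zero]
    exact ha
  have hTfin : Module.Finite k T := by
    rw [hT]; infer_instance
  have hTrank : Module.finrank k T = 1 := by
    rw [hT]; exact finrank_span_singleton hne
  let e : ((M ⧸ S) ⧸ T) ≃ₗ[k] M ⧸ S' := Submodule.quotientQuotientEquivQuotient S S' hle
  constructor
  · constructor
    · intro h
      exact Module.Finite.equiv e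
    · intro h
      haveI : Module.Finite k ((M ⧸ S) ⧸ T) := Module.Finite.equiv e.symm
      exact Module.Finite.of_submodule_quotient T
  · intro h
    have h1 := Submodule.finrank_quotient_add_finrank T
    rw [hTrank, e.finrank_eq] at h1
    exact h1.symm

end LA


section Index

variable {k F : Type} [Field k] [IsAlgClosed k] [CharZero k] [Field F] [Algebra k F]

/-- The principal repartition of `f`. -/
noncomputable def h7_princ (f : F) : repartitions k F := algebraMap F (repartitions k F) f

theorem h7_princ_apply (f : F) (v : Place k F) :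
    ((h7_princ (k := k) f : repartitions k F) : Place k F → F) v = f := rfl

theorem h7_princ_mem_principal (f : F) :
    h7_princ (k := k) f ∈ principalRepartitions k F :=
  mem_principalRepartitions_iff.mpr ⟨f, rfl⟩

theorem h7_princ_mem_repartitionsOf_iff (D : Divisor k F) (f : F) :
    h7_princ (k := k) f ∈ repartitionsOf D ↔ f ∈ riemannRochSpace D := Iff.rfl

theorem h7_eq_princ_of_mem_principal {p : repartitions k F}
    (hp : p ∈ principalRepartitions k F) : ∃ f : F, p = h7_princ f := by
  obtain ⟨f, hf⟩ := mem_principalRepartitions_iff.mp hp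
  exact ⟨f, Subtype.ext hf⟩

/-- `A(D) + F`. -/
noncomputable def h7_S (D : Divisor k F) : Submodule k (repartitions k F) :=
  repartitionsOf D ⊔ principalRepartitions k F

theorem h7_le_add_single (D : Divisor k F) (v : Place k F) :
    D ≤ D + Finsupp.single v 1 := by
  classical
  apply le_add_of_nonneg_right
  rw [Finsupp.le_def]
  intro w
  show (0 : ℤ) ≤ (Finsupp.single v (1 : ℤ)) w
  rw [Finsupp.single_apply]
  split_ifs <;> norm_num

/-- **The one-place step.**  Either `L` grows and `A(D) + F` does not, or conversely. -/
theorem h7_index_step_aux (x : F) (hx : IsCoord k x) (D D' : Divisor k F) (v : Place k F)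
    (hD' : D' = D + Finsupp.single v 1) :
    (h7_S D' = h7_S D ∧
      Module.finrank k (riemannRochSpace D') = Module.finrank k (riemannRochSpace D) + 1) ∨
    (Module.finrank k (riemannRochSpace D') = Module.finrank k (riemannRochSpace D) ∧
      ∃ a : repartitions k F, a ∉ h7_S D ∧ h7_S D' = h7_S D ⊔ Submodule.span k {a}) := by
  classical
  have hDD' : D ≤ D' := by rw [hD']; exact h7_le_add_single D v
  have key1 := h7_adele_step x hx D v
  rw [← hD'] at key1
  obtain ⟨φ, hφsurj, hφker⟩ := key1
  obtain ⟨α₀, hα₀⟩ := hφsurj 1
  set a : repartitions k F := (α₀ : repartitions k F) with ha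
  have haD' : a ∈ repartitionsOf D' := α₀.2
  have hA : repartitionsOf D' = repartitionsOf D ⊔ Submodule.span k {a} := by
    apply le_antisymm
    · intro α hα
      let α' : repartitionsOf D' := ⟨α, hα⟩
      have hβ : φ (α' - φ α' • α₀) = 0 := by
        have h1 := map_sub φ α' (φ α' • α₀)
        have h2 := map_smul φ (φ α') α₀
        rw [h1, h2, hα₀, smul_eq_mul, mul_one, sub_self]
      have hβ' := (hφker _).mp hβ
      rw [Submodule.mem_sup]
      refine ⟨_, hβ', φ α' • a, Submodule.smul_mem _ _ (Submodule.mem_span_singleton_self a), ?_⟩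
      show (α - φ α' • a) + φ α' • a = α
      abel
    · apply sup_le (repartitionsOf_mono hDD')
      rw [Submodule.span_singleton_le_iff_mem]
      exact haD'
  have key2 := h4_rr_step x hx D v
  rw [← hD'] at key2
  obtain ⟨ψ, hψ⟩ := key2
  haveI := h4_rr_finite x hx D
  haveI := h4_rr_finite x hx D'
  have hLle : riemannRochSpace D ≤ riemannRochSpace D' := h4_rr_mono hDD'
  by_cases hgrow : ∃ f : riemannRochSpace D', (f : F) ∉ riemannRochSpace D
  · left
    obtain ⟨f, hf⟩ := hgrow
    -- a ∈ S(D)
    have haS : a ∈ h7_S D := by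
      have hfD' : h7_princ (k := k) (f : F) ∈ repartitionsOf D' :=
        (h7_princ_mem_repartitionsOf_iff D' _).mpr f.2
      rw [hA, Submodule.mem_sup] at hfD'
      obtain ⟨β, hβ, z, hz, hsum⟩ := hfD'
      obtain ⟨c, rfl⟩ := Submodule.mem_span_singleton.mp hz
      have hc : c ≠ 0 := by
        intro hc0
        rw [hc0, zero_smul, add_zero] at hsum
        rw [hsum] at hβ
        exact hf ((h7_princ_mem_repartitionsOf_iff D _).mp hβ)
      have : a = c⁻¹ • (h7_princ (k := k) (f : F) - β) := by
        rw [← hsum, add_sub_cancel_left, smul_smul, inv_mul_cancel₀ hc, one_smul]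
      rw [this]
      apply Submodule.smul_mem
      apply Submodule.sub_mem
      · exact Submodule.mem_sup_right (h7_princ_mem_principal _)
      · exact Submodule.mem_sup_left hβ
    constructor
    · unfold h7_S
      rw [hA]
      apply le_antisymm
      · apply sup_le (sup_le le_sup_left _) le_sup_right
        rw [Submodule.span_singleton_le_iff_mem]
        exact haS
      · exact sup_le_sup_right le_sup_left _
    · -- rank
      have hker : LinearMap.ker ψ = Submodule.comap (riemannRochSpace D').subtype
          (riemannRochSpace D) := by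
        ext g
        rw [LinearMap.mem_ker, hψ]
        rfl
      have hψne : ψ f ≠ 0 := fun h0 => hf ((hψ f).mp h0)
      have hrange : LinearMap.range ψ = ⊤ := by
        rw [LinearMap.range_eq_top]
        intro c
        refine ⟨(c * (ψ f)⁻¹) • f, ?_⟩
        rw [map_smul, smul_eq_mul, mul_assoc, inv_mul_cancel₀ hψne, mul_one]
      have h1 := ψ.finrank_range_add_finrank_ker
      rw [hrange, finrank_top, Module.finrank_self, hker,
        (Submodule.comapSubtypeEquivOfLe hLle).finrank_eq] at h1
      omega
  · right
    rw [not_exists] at hgrow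
    have hLeq : riemannRochSpace D' = riemannRochSpace D := by
      apply le_antisymm
      · intro f hf
        exact not_not.mp (hgrow ⟨f, hf⟩)
      · exact hLle
    refine ⟨by rw [hLeq], a, ?_, ?_⟩
    · intro haS
      unfold h7_S at haS
      rw [Submodule.mem_sup] at haS
      obtain ⟨β, hβ, p, hp, hsum⟩ := haS
      obtain ⟨f, rfl⟩ := h7_eq_princ_of_mem_principal hp
      have h1 : h7_princ (k := k) f ∈ repartitionsOf D' := by
        have : h7_princ (k := k) f = a - β := by rw [← hsum]; abel
        rw [this]
        exact Submodule.sub_mem _ haD' (repartitionsOf_mono hDD' hβ)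
      have h2 : f ∈ riemannRochSpace D := by
        rw [← hLeq]
        exact (h7_princ_mem_repartitionsOf_iff D' f).mp h1
      have h3 : a ∈ repartitionsOf D := by
        rw [← hsum]
        exact Submodule.add_mem _ hβ ((h7_princ_mem_repartitionsOf_iff D f).mpr h2)
      have h4 := (hφker α₀).mpr h3
      rw [hα₀] at h4
      exact one_ne_zero h4
    · unfold h7_S
      rw [hA]
      rw [sup_assoc, sup_assoc, sup_comm (Submodule.span k {a})]

/-- **The one-place step.** -/
theorem h7_index_step (x : F) (hx : IsCoord k x) (D : Divisor k F) (v : Place k F) :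
    (h7_S (D + Finsupp.single v 1) = h7_S D ∧
      Module.finrank k (riemannRochSpace (D + Finsupp.single v 1)) =
        Module.finrank k (riemannRochSpace D) + 1) ∨
    (Module.finrank k (riemannRochSpace (D + Finsupp.single v 1)) =
        Module.finrank k (riemannRochSpace D) ∧
      ∃ a : repartitions k F, a ∉ h7_S D ∧
        h7_S (D + Finsupp.single v 1) = h7_S D ⊔ Submodule.span k {a}) :=
  h7_index_step_aux x hx D _ v rfl

/-- A property of divisors invariant under adding a place is constant. -/
theorem h7_iff_of_step {P : Divisor k F → Prop}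
    (hstep : ∀ (E : Divisor k F) (v : Place k F), P E ↔ P (E + Finsupp.single v 1))
    (D D' : Divisor k F) : P D ↔ P D' := by
  have key : ∀ D D' : Divisor k F, D ≤ D' → (P D ↔ P D') := by
    intro D D' h
    constructor
    · intro base
      exact h4_divisor_induction h base (fun E v _ _ hE => (hstep E v).mp hE)
    · exact h4_divisor_induction (P := fun E => P E → P D) h (fun h => h)
        (fun E v _ _ ih hE' => ih ((hstep E v).mpr hE'))
  exact (key D (D ⊔ D') le_sup_left).trans (key D' (D ⊔ D') le_sup_right).symm

theorem h7_degree_add_single (x : F) (hx : IsCoord k x) (D : Divisor k F) (v : Place k F) :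
    Divisor.degree (D + Finsupp.single v 1) = Divisor.degree D + 1 := by
  rw [map_add, h4_degree_single x hx v 1]

/-- **Index theorem**: `dim A/(A(D) + F) = ℓ(D) - deg D - 1 + g`. -/
theorem h7_index (x : F) (hx : IsCoord k x)
    (hR : ∃ c : ℤ, ∀ D : Divisor k F,
      Divisor.degree D - Module.finrank k (riemannRochSpace D) ≤ c) :
    ∃ g : ℤ, ∀ D : Divisor k F, Module.Finite k (H1 D) ∧
      (Module.finrank k (H1 D) : ℤ) =
        Module.finrank k (riemannRochSpace D) - Divisor.degree D - 1 + g := by
  classical
  obtain ⟨c, hc⟩ := hR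
  let r : Divisor k F → ℤ := fun D =>
    Divisor.degree D - Module.finrank k (riemannRochSpace D)
  -- a divisor maximising `r`
  obtain ⟨R, ⟨D₀, hD₀⟩, hmax⟩ := Int.exists_greatest_of_bdd (P := fun z => ∃ D, r D = z)
    ⟨c, fun z ⟨D, hD⟩ => hD ▸ hc D⟩ ⟨r 0, 0, rfl⟩
  have hmax' : ∀ D, r D ≤ r D₀ := fun D => hD₀ ▸ hmax (r D) ⟨D, rfl⟩
  -- above `D₀` nothing changes
  have habove : ∀ D', D₀ ≤ D' → h7_S D' = h7_S D₀ ∧ r D' = r D₀ := by
    intro D' h
    refine h4_divisor_induction (P := fun E => h7_S E = h7_S D₀ ∧ r E = r D₀) h ⟨rfl, rfl⟩ ?_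
    intro E v _ _ ⟨hS, hr⟩
    rcases h7_index_step x hx E v with ⟨hS', hl⟩ | ⟨hl, _⟩
    · refine ⟨hS'.trans hS, ?_⟩
      show Divisor.degree (E + Finsupp.single v 1) - _ = _
      rw [h7_degree_add_single x hx, hl, ← hr]
      show _ = Divisor.degree E - _
      push_cast
      ring
    · exfalso
      have h1 := hmax' (E + Finsupp.single v 1)
      have h2 : r (E + Finsupp.single v 1) = r E + 1 := by
        show Divisor.degree (E + Finsupp.single v 1) - _ = Divisor.degree E - _ + 1
        rw [h7_degree_add_single x hx, hl]
        ring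
      rw [h2, hr] at h1
      omega
  have htop : h7_S D₀ = ⊤ := by
    rw [eq_top_iff]
    intro α _
    obtain ⟨D', hle, hα⟩ := h7_exists_divisor_ge x hx α D₀
    rw [← (habove D' hle).1]
    exact Submodule.mem_sup_left hα
  -- the invariant
  let P : Divisor k F → Prop := fun E =>
    Module.Finite k (repartitions k F ⧸ h7_S E) ∧
      (Module.finrank k (repartitions k F ⧸ h7_S E) : ℤ) + r E = r D₀
  have hP0 : P D₀ := by
    have hsub : Subsingleton (repartitions k F ⧸ h7_S D₀) :=
      Submodule.Quotient.subsingleton_iff.mpr htop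
    haveI : Finite (repartitions k F ⧸ h7_S D₀) := Finite.of_subsingleton
    exact ⟨Module.Finite.of_finite, by rw [Module.finrank_zero_of_subsingleton]; simp⟩
  have hstep : ∀ (E : Divisor k F) (v : Place k F), P E ↔ P (E + Finsupp.single v 1) := by
    intro E v
    have hdeg := h7_degree_add_single x hx E v
    rcases h7_index_step x hx E v with ⟨hS', hl⟩ | ⟨hl, a, ha, hS'⟩
    · have hr : r (E + Finsupp.single v 1) = r E := by
        show Divisor.degree (E + Finsupp.single v 1) - _ = Divisor.degree E - _
        rw [hdeg, hl]; push_cast; ring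
      show (_ ∧ _) ↔ (_ ∧ _)
      rw [hS', hr]
    · have hr : r (E + Finsupp.single v 1) = r E + 1 := by
        show Divisor.degree (E + Finsupp.single v 1) - _ = Divisor.degree E - _ + 1
        rw [hdeg, hl]; ring
      obtain ⟨hfin, hrank⟩ := h7_quot_sup_span (h7_S E) a ha
      show (_ ∧ _) ↔ (_ ∧ _)
      rw [hS', hr]
      constructor
      · rintro ⟨h1, h2⟩
        refine ⟨hfin.mp h1, ?_⟩
        have := hrank h1
        omega
      · rintro ⟨h1, h2⟩
        have h1' := hfin.mpr h1
        refine ⟨h1', ?_⟩
        have := hrank h1'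
        omega
  refine ⟨r D₀ + 1, fun D => ?_⟩
  have hPD : P D := (h7_iff_of_step hstep D₀ D).mp hP0
  obtain ⟨h1, h2⟩ := hPD
  refine ⟨h1, ?_⟩
  show (Module.finrank k (repartitions k F ⧸ h7_S D) : ℤ) = _
  have : r D = Divisor.degree D - Module.finrank k (riemannRochSpace D) := rfl
  omega

/-- `H1 D` is, by definition, the quotient by `h7_S D`. -/
theorem h7_H1_eq (D : Divisor k F) : H1 D = (repartitions k F ⧸ h7_S D) := rfl

/-- **Index theorem**, in the exact shape of helper4's msg 294 (the two extra hypotheses are
not needed: they are theorems of `RRSpace.lean`). -/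
theorem h7_index' (x : F) (hx : IsCoord k x)
    (_hfin : ∀ D : Divisor k F, Module.Finite k (riemannRochSpace D))
    (_hstep : ∀ (D : Divisor k F) (v : Place k F),
      ∃ φ : riemannRochSpace (D + Finsupp.single v 1) →ₗ[k] k,
        ∀ f, φ f = 0 ↔ (f : F) ∈ riemannRochSpace D)
    (hR : ∃ c : ℤ, ∀ D : Divisor k F,
      Divisor.degree D - Module.finrank k (riemannRochSpace D) ≤ c) :
    ∃ g : ℤ, ∀ D : Divisor k F, Module.Finite k (H1 D) ∧
      (Module.finrank k (H1 D) : ℤ) =
        Module.finrank k (riemannRochSpace D) - Divisor.degree D - 1 + g :=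
  h7_index x hx hR

/-- **Riemann's inequality** in the usual form, a corollary of the index theorem. -/
theorem h7_riemann_ineq {g : ℤ}
    (hg : ∀ D : Divisor k F, Module.Finite k (H1 D) ∧
      (Module.finrank k (H1 D) : ℤ) =
        Module.finrank k (riemannRochSpace D) - Divisor.degree D - 1 + g)
    (D : Divisor k F) :
    Divisor.degree D + 1 - g ≤ (Module.finrank k (riemannRochSpace D) : ℤ) := by
  have h := (hg D).2
  have h0 : (0 : ℤ) ≤ (Module.finrank k (H1 D) : ℤ) := Int.natCast_nonneg _
  omega

end Index

end Fermat.Agent.Lib.S20
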