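/-
S20 / (RR) piece P5-a (helper7): WEIL DIFFERENTIALS and the final count.

`Ω(D)` := `k`-linear functionals on the adele ring `A = repartitions k F` vanishing on
`A(D) + F` (`h7_Omega D`, of dimension `i(D) = dim H1 D`), with the `F`-action
`(f • ω)(α) = ω(f α)` (`h7_act`).  Using the index theorem `h7_index` (as a hypothesis):

* `h7_proportional`: any two nonzero Weil differentials are `F`-proportional (dimension count
  in `Ω(-n v₀)`);
* `h7_duality`: if `ω` vanishes on `A(W) + F` but on no `A(W + v)`, then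
  `ℓ(W - D) = i(D)` for every `D`;
* `h7_weil_final`: for such `ω`, `W`: `2 ℓ(W) - 2 = deg W`.
-/
import Mathlib
import Fermat.Agent.Lib.S20.RRIndex

set_option autoImplicit false
set_option linter.unusedSectionVars false
set_option linter.style.haveILetI false

namespace Fermat.Agent.Lib.S20

open AlgebraicCurve WithZero
open Fermat.Agent.Lib.X0

section Weil

variable {k F : Type} [Field k] [IsAlgClosed k] [CharZero k] [Field F] [Algebra k F]

/-- Multiplication by the principal repartition of `f`, as a `k`-linear endomorphism. -/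
noncomputable def h7_mulPrinc (f : F) : repartitions k F →ₗ[k] repartitions k F where
  toFun α := h7_princ f * α
  map_add' a b := mul_add _ a b
  map_smul' c α := by
    apply Subtype.ext
    funext v
    show f * (c • (α : Place k F → F) v) = c • (f * (α : Place k F → F) v)
    rw [mul_smul_comm]

theorem h7_mulPrinc_apply (f : F) (α : repartitions k F) (v : Place k F) :
    ((h7_mulPrinc (k := k) f α : repartitions k F) : Place k F → F) v
      = f * (α : Place k F → F) v := rfl

/-- The action of `F` on `k`-linear functionals on the adeles. -/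
noncomputable def h7_act (f : F) (ω : Module.Dual k (repartitions k F)) :
    Module.Dual k (repartitions k F) := ω.comp (h7_mulPrinc f)

theorem h7_act_apply (f : F) (ω : Module.Dual k (repartitions k F)) (α : repartitions k F) :
    h7_act f ω α = ω (h7_mulPrinc f α) := rfl

theorem h7_mulPrinc_one (α : repartitions k F) : h7_mulPrinc (k := k) (1 : F) α = α := by
  apply Subtype.ext
  funext v
  rw [h7_mulPrinc_apply, one_mul]

theorem h7_mulPrinc_mul (f g : F) (α : repartitions k F) :
    h7_mulPrinc (k := k) f (h7_mulPrinc g α) = h7_mulPrinc (f * g) α := by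
  apply Subtype.ext
  funext v
  rw [h7_mulPrinc_apply, h7_mulPrinc_apply, h7_mulPrinc_apply, mul_assoc]

theorem h7_mulPrinc_add (f g : F) (α : repartitions k F) :
    h7_mulPrinc (k := k) (f + g) α = h7_mulPrinc f α + h7_mulPrinc g α := by
  apply Subtype.ext
  funext v
  show (f + g) * (α : Place k F → F) v = f * (α : Place k F → F) v + g * (α : Place k F → F) v
  rw [add_mul]

theorem h7_mulPrinc_smul (c : k) (f : F) (α : repartitions k F) :
    h7_mulPrinc (k := k) (c • f) α = c • h7_mulPrinc f α := by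
  apply Subtype.ext
  funext v
  show (c • f) * (α : Place k F → F) v = c • (f * (α : Place k F → F) v)
  rw [smul_mul_assoc]

theorem h7_mulPrinc_princ (f g : F) :
    h7_mulPrinc (k := k) f (h7_princ g) = h7_princ (f * g) := by
  apply Subtype.ext
  funext v
  rfl

theorem h7_act_one (ω : Module.Dual k (repartitions k F)) : h7_act (1 : F) ω = ω := by
  apply LinearMap.ext
  intro α
  rw [h7_act_apply, h7_mulPrinc_one]

theorem h7_act_act (f g : F) (ω : Module.Dual k (repartitions k F)) :
    h7_act f (h7_act g ω) = h7_act (g * f) ω := by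
  apply LinearMap.ext
  intro α
  rw [h7_act_apply, h7_act_apply, h7_act_apply, h7_mulPrinc_mul]

theorem h7_act_zero (ω : Module.Dual k (repartitions k F)) : h7_act (0 : F) ω = 0 := by
  apply LinearMap.ext
  intro α
  rw [h7_act_apply]
  have : h7_mulPrinc (k := k) (0 : F) α = 0 := by
    apply Subtype.ext
    funext v
    rw [h7_mulPrinc_apply, zero_mul]
    rfl
  rw [this, map_zero]
  rfl

/-- `f ↦ f • ω`, as a `k`-linear map. -/
noncomputable def h7_actL (ω : Module.Dual k (repartitions k F)) :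
    F →ₗ[k] Module.Dual k (repartitions k F) where
  toFun f := h7_act f ω
  map_add' f g := by
    apply LinearMap.ext
    intro α
    show ω (h7_mulPrinc (f + g) α) = ω (h7_mulPrinc f α) + ω (h7_mulPrinc g α)
    rw [h7_mulPrinc_add, map_add]
  map_smul' c f := by
    apply LinearMap.ext
    intro α
    show ω (h7_mulPrinc (c • f) α) = c • ω (h7_mulPrinc f α)
    rw [h7_mulPrinc_smul, map_smul]

theorem h7_actL_apply (ω : Module.Dual k (repartitions k F)) (f : F) :
    h7_actL ω f = h7_act f ω := rfl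

theorem h7_act_eq_zero {f : F} (hf : f ≠ 0) {ω : Module.Dual k (repartitions k F)}
    (h : h7_act f ω = 0) : ω = 0 := by
  have h1 : h7_act f⁻¹ (h7_act f ω) = ω := by
    rw [h7_act_act, mul_inv_cancel₀ hf, h7_act_one]
  rw [← h1, h]
  apply LinearMap.ext
  intro α
  rfl

/-- Weil differentials vanishing on `A(D) + F`. -/
noncomputable def h7_Omega (D : Divisor k F) : Submodule k (Module.Dual k (repartitions k F)) :=
  (h7_S D).dualAnnihilator

theorem h7_mem_Omega_iff {D : Divisor k F} {ω : Module.Dual k (repartitions k F)} :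
    ω ∈ h7_Omega D ↔ ∀ α ∈ h7_S D, ω α = 0 :=
  Submodule.mem_dualAnnihilator _

theorem h7_mem_Omega_iff' {D : Divisor k F} {ω : Module.Dual k (repartitions k F)} :
    ω ∈ h7_Omega D ↔ (∀ α ∈ repartitionsOf D, ω α = 0) ∧ ∀ f : F, ω (h7_princ f) = 0 := by
  rw [h7_mem_Omega_iff]
  constructor
  · intro h
    exact ⟨fun α hα => h α (Submodule.mem_sup_left hα),
      fun f => h _ (Submodule.mem_sup_right (h7_princ_mem_principal f))⟩
  · rintro ⟨h1, h2⟩ α hα
    unfold h7_S at hα
    rw [Submodule.mem_sup] at hα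
    obtain ⟨β, hβ, p, hp, rfl⟩ := hα
    obtain ⟨f, rfl⟩ := h7_eq_princ_of_mem_principal hp
    rw [map_add, h1 β hβ, h2 f, add_zero]

theorem h7_finrank_Omega (D : Divisor k F) :
    Module.finrank k (h7_Omega D) = Module.finrank k (H1 D) := by
  have e := Submodule.dualQuotEquivDualAnnihilator (h7_S D)
  have h1 : Module.finrank k (h7_Omega D)
      = Module.finrank k (Module.Dual k (repartitions k F ⧸ h7_S D)) := e.finrank_eq.symm
  rw [h1, Subspace.dual_finrank_eq]
  rfl

theorem h7_finite_Omega (D : Divisor k F) [Module.Finite k (H1 D)] :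
    Module.Finite k (h7_Omega D) := by
  have e := Submodule.dualQuotEquivDualAnnihilator (h7_S D)
  haveI : Module.Finite k (repartitions k F ⧸ h7_S D) := ‹Module.Finite k (H1 D)›
  exact Module.Finite.equiv e

/-- `L(E) · A(D) ⊆ A(D + E)`. -/
theorem h7_mulPrinc_mem_repartitionsOf {D E : Divisor k F} {f : F} (hf : f ∈ riemannRochSpace E)
    {α : repartitions k F} (hα : α ∈ repartitionsOf D) :
    h7_mulPrinc f α ∈ repartitionsOf (D + E) := by
  intro v
  show v.adicValuation (f * (α : Place k F → F) v) ≤ exp ((D + E) v)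
  rw [map_mul, Finsupp.add_apply, add_comm, exp_add]
  exact mul_le_mul' (hf v) (hα v)

/-- `L(E) · Ω(D + E) ⊆ Ω(D)`. -/
theorem h7_act_mem_Omega {D E D' : Divisor k F} (hD' : D' = D + E) {f : F}
    (hf : f ∈ riemannRochSpace E)
    {ω : Module.Dual k (repartitions k F)} (hω : ω ∈ h7_Omega D') :
    h7_act f ω ∈ h7_Omega D := by
  rw [h7_mem_Omega_iff'] at hω ⊢
  constructor
  · intro α hα
    rw [h7_act_apply]
    apply hω.1
    rw [hD']
    exact h7_mulPrinc_mem_repartitionsOf hf hα
  · intro g
    rw [h7_act_apply, h7_mulPrinc_princ]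
    exact hω.2 _

/-- **Any two nonzero Weil differentials are `F`-proportional.** -/
theorem h7_proportional (x : F) (hx : IsCoord k x) {g : ℤ}
    (hg : ∀ D : Divisor k F, Module.Finite k (H1 D) ∧
      (Module.finrank k (H1 D) : ℤ) =
        Module.finrank k (riemannRochSpace D) - Divisor.degree D - 1 + g)
    {ω₁ ω₂ : Module.Dual k (repartitions k F)} {D₁ D₂ : Divisor k F}
    (h₁ : ω₁ ∈ h7_Omega D₁) (h₂ : ω₂ ∈ h7_Omega D₂) (hω₁ : ω₁ ≠ 0) (hω₂ : ω₂ ≠ 0) :
    ∃ f : F, f ≠ 0 ∧ ω₂ = h7_act f ω₁ := by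
  classical
  obtain ⟨v₀⟩ := h4_nonempty_place x hx
  set d₁ := Divisor.degree D₁ with hd₁
  set d₂ := Divisor.degree D₂ with hd₂
  obtain ⟨n, hn1, hn2⟩ : ∃ n : ℕ, (1 : ℤ) ≤ n ∧ 3 * g - 3 - d₁ - d₂ < n := by
    refine ⟨(max 1 (3 * g - 2 - d₁ - d₂)).toNat, ?_, ?_⟩ <;>
    · rw [Int.toNat_of_nonneg (le_trans zero_le_one (le_max_left _ _))]
      first
        | exact le_max_left _ _
        | exact lt_of_lt_of_le (by omega) (le_max_right _ _)
  let B : Divisor k F := Finsupp.single v₀ (n : ℤ)
  have hdegB : Divisor.degree B = n := h4_degree_single x hx v₀ n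
  have hdegnB : Divisor.degree (-B) = -(n : ℤ) := by rw [map_neg, hdegB]
  have hLnB : Module.finrank k (riemannRochSpace (-B)) = 0 := by
    rw [h4_rr_eq_bot x hx (by rw [hdegnB]; omega)]
    exact finrank_bot k F
  have hΩ : (Module.finrank k (h7_Omega (-B)) : ℤ) = n - 1 + g := by
    rw [h7_finrank_Omega, (hg (-B)).2, hLnB, hdegnB]
    push_cast
    ring
  haveI := (hg (-B)).1
  haveI : Module.Finite k (h7_Omega (-B)) := h7_finite_Omega (-B)
  have hl₁ := h7_riemann_ineq hg (D₁ + B)
  have hl₂ := h7_riemann_ineq hg (D₂ + B)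
  rw [map_add, hdegB] at hl₁ hl₂
  haveI := h4_rr_finite x hx (D₁ + B)
  haveI := h4_rr_finite x hx (D₂ + B)
  let Ψ : (riemannRochSpace (D₁ + B) × riemannRochSpace (D₂ + B)) →ₗ[k]
      Module.Dual k (repartitions k F) :=
    ((h7_actL ω₁).comp (riemannRochSpace (D₁ + B)).subtype).coprod
      (-((h7_actL ω₂).comp (riemannRochSpace (D₂ + B)).subtype))
  have hΨ : ∀ p, Ψ p = h7_act (p.1 : F) ω₁ - h7_act (p.2 : F) ω₂ := by
    intro p
    show h7_act (p.1 : F) ω₁ + -(h7_act (p.2 : F) ω₂) = _
    rw [sub_eq_add_neg]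
  have hrange : LinearMap.range Ψ ≤ h7_Omega (-B) := by
    rintro _ ⟨p, rfl⟩
    rw [hΨ]
    apply Submodule.sub_mem
    · exact h7_act_mem_Omega (D := -B) (E := D₁ + B) (by abel) p.1.2 h₁
    · exact h7_act_mem_Omega (D := -B) (E := D₂ + B) (by abel) p.2.2 h₂
  have h1 := Submodule.finrank_mono hrange
  have h2 := Ψ.finrank_range_add_finrank_ker
  rw [Module.finrank_prod] at h2
  have hker : 0 < Module.finrank k (LinearMap.ker Ψ) := by
    have : ((Module.finrank k (LinearMap.range Ψ) : ℤ)) ≤ n - 1 + g := by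
      rw [← hΩ]; exact_mod_cast h1
    have h2' : ((Module.finrank k (LinearMap.range Ψ) : ℤ))
        + (Module.finrank k (LinearMap.ker Ψ) : ℤ)
        = (Module.finrank k (riemannRochSpace (D₁ + B)) : ℤ)
          + (Module.finrank k (riemannRochSpace (D₂ + B)) : ℤ) := by exact_mod_cast h2
    have : (0 : ℤ) < (Module.finrank k (LinearMap.ker Ψ) : ℤ) := by omega
    exact_mod_cast this
  have hkne : LinearMap.ker Ψ ≠ ⊥ := by
    intro h
    rw [h, finrank_bot] at hker
    exact lt_irrefl _ hker
  obtain ⟨p, hpker, hp0⟩ := (Submodule.ne_bot_iff _).mp hkne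
  have hpeq : h7_act (p.1 : F) ω₁ = h7_act (p.2 : F) ω₂ := by
    have := LinearMap.mem_ker.mp hpker
    rw [hΨ] at this
    exact sub_eq_zero.mp this
  have hp2 : (p.2 : F) ≠ 0 := by
    intro h2z
    rw [h2z, h7_act_zero] at hpeq
    have h1z : (p.1 : F) = 0 := by
      by_contra hne
      exact hω₁ (h7_act_eq_zero hne hpeq)
    apply hp0
    apply Prod.ext
    · exact Subtype.ext h1z
    · exact Subtype.ext h2z
  have hp1 : (p.1 : F) ≠ 0 := by
    intro h1z
    rw [h1z, h7_act_zero] at hpeq
    exact hω₂ (h7_act_eq_zero hp2 hpeq.symm)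
  refine ⟨(p.1 : F) * (p.2 : F)⁻¹, mul_ne_zero hp1 (inv_ne_zero hp2), ?_⟩
  rw [← h7_act_act, hpeq, h7_act_act, mul_inv_cancel₀ hp2, h7_act_one]

/-- If `ω` vanishes on `A(W) + F` but on no `A(W + v)`, then every `D` with `ω` vanishing on
`A(D)` satisfies `D ≤ W`. -/
theorem h7_le_of_vanish (W : Divisor k F) (ω : Module.Dual k (repartitions k F))
    (h0 : ∀ α ∈ repartitionsOf W, ω α = 0)
    (h1 : ∀ v : Place k F, ∃ α ∈ repartitionsOf (W + Finsupp.single v 1), ω α ≠ 0)
    {D : Divisor k F} (hD : ∀ α ∈ repartitionsOf D, ω α = 0) : D ≤ W := by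
  classical
  rw [Finsupp.le_def]
  intro v
  by_contra hlt
  rw [not_le] at hlt
  obtain ⟨α, hα, hne⟩ := h1 v
  apply hne
  set β : repartitions k F := h7_single v ((α : Place k F → F) v) with hβdef
  have hβ : β ∈ repartitionsOf D := by
    apply h7_single_mem_repartitionsOf D v
    rw [h7_mem_ball_iff']
    refine (hα v).trans (exp_le_exp.mpr ?_)
    rw [h7_add_single_apply_self]
    omega
  have hγ : α - β ∈ repartitionsOf W := by
    intro w
    show w.adicValuation ((α : Place k F → F) w - (β : Place k F → F) w) ≤ exp (W w)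
    by_cases hw : w = v
    · rw [hw, hβdef, h7_single_apply_self, sub_self, map_zero]
      exact zero_le
    · rw [hβdef, h7_single_apply_of_ne v _ hw, sub_zero]
      have := hα w
      rwa [h7_add_single_apply_of_ne W hw] at this
  have hsplit : α = (α - β) + β := by abel
  rw [hsplit, map_add, h0 _ hγ, hD _ hβ, add_zero]

/-- `f⁻¹ ∈ L(div f)`. -/
theorem h7_inv_mem_rr_div (x : F) (hx : IsCoord k x) (f : F) (hf : f ≠ 0) :
    f⁻¹ ∈ riemannRochSpace (h4_div x hx f hf) := by
  rw [mem_riemannRochSpace_iff]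
  intro v
  right
  rw [h4_div_apply, Place.ord_inv]

/-- **Duality** `L(W - D) ≃ Ω(D)` for the divisor `W` of a Weil differential, in numerical
form: `ℓ(W - D) = i(D)`. -/
theorem h7_duality (x : F) (hx : IsCoord k x) {g : ℤ}
    (hg : ∀ D : Divisor k F, Module.Finite k (H1 D) ∧
      (Module.finrank k (H1 D) : ℤ) =
        Module.finrank k (riemannRochSpace D) - Divisor.degree D - 1 + g)
    (W : Divisor k F) (ω : Module.Dual k (repartitions k F)) (h0 : ω ∈ h7_Omega W)
    (h1 : ∀ v : Place k F, ∃ α ∈ repartitionsOf (W + Finsupp.single v 1), ω α ≠ 0)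
    (D : Divisor k F) :
    Module.finrank k (riemannRochSpace (W - D)) = Module.finrank k (H1 D) := by
  classical
  have hω : ω ≠ 0 := by
    obtain ⟨v₀⟩ := h4_nonempty_place x hx
    obtain ⟨α, -, hne⟩ := h1 v₀
    intro h
    apply hne
    rw [h]
    rfl
  let Φ : riemannRochSpace (W - D) →ₗ[k] h7_Omega D :=
    LinearMap.codRestrict (h7_Omega D) ((h7_actL ω).comp (riemannRochSpace (W - D)).subtype)
      (fun f => h7_act_mem_Omega (D := D) (E := W - D) (by abel) f.2 h0)
  have hΦ : ∀ f : riemannRochSpace (W - D), ((Φ f : h7_Omega D) : Module.Dual k _)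
      = h7_act (f : F) ω := fun f => rfl
  have hinj : Function.Injective Φ := by
    apply (injective_iff_map_eq_zero Φ).mpr
    intro f hf
    have h2 : h7_act (f : F) ω = 0 := by
      rw [← hΦ, hf]
      rfl
    by_contra hne
    exact hω (h7_act_eq_zero (fun h => hne (Subtype.ext h)) h2)
  have hsurj : Function.Surjective Φ := by
    rintro ⟨ω', hω'⟩
    by_cases hz : ω' = 0
    · refine ⟨0, ?_⟩
      apply Subtype.ext
      rw [map_zero]
      exact hz.symm
    · obtain ⟨f, hf, hff⟩ := h7_proportional x hx hg h0 hω' hω hz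
      have hmem : f ∈ riemannRochSpace (W - D) := by
        have hωeq : ω = h7_act f⁻¹ ω' := by
          rw [hff, h7_act_act, mul_inv_cancel₀ hf, h7_act_one]
        have h2 : ω ∈ h7_Omega (D - h4_div x hx f hf) := by
          rw [hωeq]
          exact h7_act_mem_Omega (D := D - h4_div x hx f hf) (E := h4_div x hx f hf)
            (by abel) (h7_inv_mem_rr_div x hx f hf) hω'
        have h3 := h7_le_of_vanish W ω (h7_mem_Omega_iff'.mp h0).1 h1
          (h7_mem_Omega_iff'.mp h2).1
        rw [mem_riemannRochSpace_iff]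
        intro v
        right
        have h4 := Finsupp.le_def.mp h3 v
        rw [Finsupp.sub_apply, h4_div_apply] at h4
        rw [Finsupp.sub_apply]
        omega
      exact ⟨⟨f, hmem⟩, Subtype.ext hff.symm⟩
  have e := LinearEquiv.ofBijective Φ ⟨hinj, hsurj⟩
  rw [e.finrank_eq, h7_finrank_Omega]

/-- **`2 ℓ(W) - 2 = deg W`** for the divisor `W` of a Weil differential. -/
theorem h7_weil_final (x : F) (hx : IsCoord k x)
    (hidx : ∃ g : ℤ, ∀ D : Divisor k F, Module.Finite k (H1 D) ∧
      (Module.finrank k (H1 D) : ℤ) =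
        Module.finrank k (riemannRochSpace D) - Divisor.degree D - 1 + g)
    (W : Divisor k F) (ω : repartitions k F →ₗ[k] k)
    (h0 : ∀ α ∈ repartitionsOf W ⊔ principalRepartitions k F, ω α = 0)
    (h1 : ∀ v : Place k F, ∃ α ∈ repartitionsOf (W + Finsupp.single v 1), ω α ≠ 0) :
    2 * (Module.finrank k (riemannRochSpace W) : ℤ) - 2 = Divisor.degree W := by
  obtain ⟨g, hg⟩ := hidx
  have hΩ : ω ∈ h7_Omega W := h7_mem_Omega_iff.mpr h0
  have e0 := h7_duality x hx hg W ω hΩ h1 0
  have eW := h7_duality x hx hg W ω hΩ h1 W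
  rw [sub_zero] at e0
  rw [sub_self, h4_rr_zero x hx] at eW
  have i0 := (hg 0).2
  have iW := (hg W).2
  rw [h4_rr_zero x hx, map_zero] at i0
  rw [← eW] at iW
  rw [← e0] at i0
  push_cast at i0 iW
  omega

end Weil

end Fermat.Agent.Lib.S20
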