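/-
S20 project, contract (RR) CLOSED: `h8_canonicalDim : CanonicalDimStatement`
(assembly of helper4's RRSpace/RRRiemann, helper7's RRIndex/RRWeil and helper8's RRResidue).
-/
import Fermat.Agent.Lib.S20.RRResidue
import Fermat.Agent.Lib.S20.RRWeil
import Fermat.Agent.Lib.S20.RRRiemann

set_option autoImplicit false

open AlgebraicCurve

namespace Fermat.Agent.Lib.S20

/-- **Contract (RR)**: `L(div dx)` is finite-dimensional and `2 ℓ(div dx) - 2 = deg div dx`. -/
theorem h8_canonicalDim : CanonicalDimStatement := by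
  intro k F _ _ _ _ _ x hx R W hW
  obtain ⟨ω, h0, h1⟩ := h8_resFunctional x hx R W hW
  exact ⟨h4_rr_finite x hx W,
    h7_weil_final x hx (h7_index x hx (h4_riemann x hx)) W ω h0 h1⟩

end Fermat.Agent.Lib.S20
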