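import Fermat.Agent.Lib.S20.AssemblyG
import Fermat.Agent.Lib.X0.PlacesProof
import Fermat.Agent.Lib.X0.EmbCountCor
import Fermat.Agent.Lib.X0.DictFG
import Fermat.Agent.Lib.X0.Comb

/-!
# Project S20: final assembly (owner: lead)
-/

set_option autoImplicit false

noncomputable section

namespace Fermat.Agent.Lib.S20

open AlgebraicCurve ModularCurve KaehlerDifferential
open Fermat.Agent.Lib.X0
open scoped MatrixGroups

/-- **S20 from the contracts.** -/
theorem s20_of_contracts (N : ℕ) [NeZero N]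
    (hRR : CanonicalDimStatement) (hRes : ResidueStatement)
    (hC : CoordG ℂ (xM N) N) (hCf : CFiniteG (RingHom.id ℂ) (xM N) N)
    (hCi : CInftyG (RingHom.id ℂ) (xM N) N) (hDict : DictStatement N) :
    (Module.finrank ℂ (CuspForm (CongruenceSubgroup.Gamma0 N) 2) : ℚ) = genusFormula N := by
  classical
  obtain ⟨W, hW, ⟨e⟩⟩ := hDict
  have hcomb := h8_combStatement N
  haveI : Finite (QN N) :=
    Nat.finite_of_card_ne_zero (by rw [hcomb.1]; exact (dedekindPsi_pos N).ne')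
  haveI : Fintype (QN N) := Fintype.ofFinite _
  have hQ : Fintype.card (QN N) = coordDegree ℂ (xM N) := by
    rw [← Nat.card_eq_fintype_card, ← hC.2]
  obtain ⟨R⟩ := hRes (RingHom.id ℂ) (xM N) hC.1 (QN N) hQ
    (fun c => by
      obtain ⟨M, E, -⟩ := hCf c
      exact ⟨M, ⟨E⟩⟩)
    (by
      obtain ⟨E, -⟩ := hCi
      exact ⟨N, ⟨E⟩⟩)
  obtain ⟨hfd, hdim⟩ := hRR (xM N) hC.1 R W hW
  have hdeg := degree_of_contractsG (RingHom.id ℂ) (xM N) N h4_places h7_embCountCor
    h4_differential hC hCf hCi hcomb W hW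
  rw [e.finrank_eq]
  have h2 : ((2 * (Module.finrank ℂ (riemannRochSpace W) : ℤ) - 2 : ℤ) : ℚ)
      = 2 * genusFormula N - 2 := by
    rw [hdim, hdeg]
  push_cast at h2
  linarith

/-- Finite-dimensionality of `S₂(Γ₀(N))` from the same contracts. -/
theorem s20_finiteDimensional_of_contracts (N : ℕ) [NeZero N]
    (hRR : CanonicalDimStatement) (hRes : ResidueStatement)
    (hC : CoordG ℂ (xM N) N) (hCf : CFiniteG (RingHom.id ℂ) (xM N) N)
    (hCi : CInftyG (RingHom.id ℂ) (xM N) N) (hDict : DictStatement N) :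
    FiniteDimensional ℂ (CuspForm (CongruenceSubgroup.Gamma0 N) 2) := by
  classical
  obtain ⟨W, hW, ⟨e⟩⟩ := hDict
  have hcomb := h8_combStatement N
  haveI : Finite (QN N) :=
    Nat.finite_of_card_ne_zero (by rw [hcomb.1]; exact (dedekindPsi_pos N).ne')
  haveI : Fintype (QN N) := Fintype.ofFinite _
  have hQ : Fintype.card (QN N) = coordDegree ℂ (xM N) := by
    rw [← Nat.card_eq_fintype_card, ← hC.2]
  obtain ⟨R⟩ := hRes (RingHom.id ℂ) (xM N) hC.1 (QN N) hQ
    (fun c => by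
      obtain ⟨M, E, -⟩ := hCf c
      exact ⟨M, ⟨E⟩⟩)
    (by
      obtain ⟨E, -⟩ := hCi
      exact ⟨N, ⟨E⟩⟩)
  obtain ⟨hfd, -⟩ := hRR (xM N) hC.1 R W hW
  exact LinearEquiv.finiteDimensional e.symm

end Fermat.Agent.Lib.S20
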