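import Mathlib

/-!
# Project S20, slab (RES-1): formal residue calculus in `K((u))`

Owner: helper1.  Mathlib-only.  `K` a field (characteristic `0` where stated).

* `h1_der S` : the formal derivative `dS/du` (`= LaurentSeries.derivative K S`), with
  `h1_der_coeff`, additivity, `h1_der_C`, `h1_der_single`, Leibniz `h1_der_mul`,
  `h1_der_inv`, `h1_der_pow`, `h1_der_zpow`.
* `h1_res S = S.coeff (-1)` (linear), `h1_res_der : res (dS/du) = 0`,
  `h1_res_of_order_nonneg`.
* `h1_res_zpow_mul_der` : `res (T ^ n * dT/du) = if n = -1 then ord T else 0` (char. `0`).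
* `h1_order_der` : `ord (dT/du) = ord T - 1` if `ord T ≠ 0` (char. `0`).
-/

set_option autoImplicit false

noncomputable section

namespace Fermat.Agent.Lib.S20

open HahnSeries

variable {K : Type*} [Field K]

/-- The formal derivative of a Laurent series. -/
def h1_der (S : LaurentSeries K) : LaurentSeries K := LaurentSeries.derivative K S

theorem h1_der_coeff (S : LaurentSeries K) (n : ℤ) :
    (h1_der S).coeff n = ((n + 1 : ℤ) : K) * S.coeff (n + 1) := by
  rw [h1_der, LaurentSeries.derivative_apply, LaurentSeries.hasseDeriv_coeff]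
  have h : Ring.choose (n + ((1 : ℕ) : ℤ)) 1 = n + 1 := by
    rw [Ring.choose_one_right]
    simp
  rw [h, zsmul_eq_mul]
  simp

@[simp] theorem h1_der_zero : h1_der (0 : LaurentSeries K) = 0 := by
  rw [h1_der, map_zero]

theorem h1_der_add (S T : LaurentSeries K) : h1_der (S + T) = h1_der S + h1_der T := by
  rw [h1_der, map_add]; rfl

theorem h1_der_neg (S : LaurentSeries K) : h1_der (-S) = -h1_der S := by
  rw [h1_der, map_neg]; rfl

theorem h1_der_sub (S T : LaurentSeries K) : h1_der (S - T) = h1_der S - h1_der T := by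
  rw [h1_der, map_sub]; rfl

theorem h1_der_sum {ι : Type*} (s : Finset ι) (f : ι → LaurentSeries K) :
    h1_der (∑ i ∈ s, f i) = ∑ i ∈ s, h1_der (f i) := by
  rw [h1_der, map_sum]; rfl

theorem h1_der_single (n : ℤ) (c : K) :
    h1_der (HahnSeries.single n c) = HahnSeries.single (n - 1) ((n : K) * c) := by
  ext m
  rw [h1_der_coeff]
  by_cases h : m = n - 1
  · subst h
    rw [HahnSeries.coeff_single_same, sub_add_cancel, HahnSeries.coeff_single_same]
  · rw [HahnSeries.coeff_single_of_ne h, HahnSeries.coeff_single_of_ne (by omega), mul_zero]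

@[simp] theorem h1_der_C (c : K) : h1_der (HahnSeries.C c : LaurentSeries K) = 0 := by
  rw [HahnSeries.C_apply, h1_der_single]
  simp

@[simp] theorem h1_der_one : h1_der (1 : LaurentSeries K) = 0 := by
  rw [← HahnSeries.C_one, h1_der_C]

/-- The derivative of the image of a power series. -/
theorem h1_der_ofPowerSeries (A : PowerSeries K) :
    h1_der (HahnSeries.ofPowerSeries ℤ K A)
      = HahnSeries.ofPowerSeries ℤ K (PowerSeries.derivative K A) := by
  ext n
  rw [h1_der_coeff]
  rcases lt_or_ge n 0 with hn | hn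
  · have h1 : (HahnSeries.ofPowerSeries ℤ K (PowerSeries.derivative K A)).coeff n = 0 := by
      rw [HahnSeries.ofPowerSeries_apply]
      refine HahnSeries.embDomain_of_notMem_range ?_
      rintro ⟨k, hk⟩
      simp only [Nat.castOrderEmbedding_apply] at hk
      omega
    rw [h1]
    rcases eq_or_ne n (-1) with rfl | hne
    · simp
    · have h2 : (HahnSeries.ofPowerSeries ℤ K A).coeff (n + 1) = 0 := by
        rw [HahnSeries.ofPowerSeries_apply]
        refine HahnSeries.embDomain_of_notMem_range ?_
        rintro ⟨k, hk⟩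
        simp only [Nat.castOrderEmbedding_apply] at hk
        omega
      rw [h2, mul_zero]
  · obtain ⟨k, rfl⟩ := Int.eq_ofNat_of_zero_le hn
    have e : ((k : ℤ) + 1) = ((k + 1 : ℕ) : ℤ) := by push_cast; ring
    rw [e, HahnSeries.ofPowerSeries_apply_coeff, HahnSeries.ofPowerSeries_apply_coeff,
      PowerSeries.coeff_derivative]
    push_cast
    ring

/-- The derivative of `u ^ a * S`. -/
theorem h1_der_single_mul (a : ℤ) (c : K) (S : LaurentSeries K) :
    h1_der (HahnSeries.single a c * S)
      = HahnSeries.single (a - 1) ((a : K) * c) * S + HahnSeries.single a c * h1_der S := by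
  ext n
  rw [h1_der_coeff, HahnSeries.coeff_add, HahnSeries.coeff_single_mul, HahnSeries.coeff_single_mul,
    HahnSeries.coeff_single_mul, h1_der_coeff]
  have e1 : n - (a - 1) = n + 1 - a := by ring
  have e2 : n - a + 1 = n + 1 - a := by ring
  rw [e1, e2]
  push_cast
  ring

theorem h1_der_single_one_mul (a : ℤ) (S : LaurentSeries K) :
    h1_der (HahnSeries.single a (1 : K) * S)
      = HahnSeries.single (a - 1) (a : K) * S + HahnSeries.single a (1 : K) * h1_der S := by
  rw [h1_der_single_mul, mul_one]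

/-- **Leibniz rule**. -/
theorem h1_der_mul (S T : LaurentSeries K) :
    h1_der (S * T) = h1_der S * T + S * h1_der T := by
  set a := S.order with ha
  set b := T.order with hb
  set PA := LaurentSeries.powerSeriesPart S with hPA
  set PB := LaurentSeries.powerSeriesPart T with hPB
  have hS : S = HahnSeries.single a (1 : K) * HahnSeries.ofPowerSeries ℤ K PA :=
    (LaurentSeries.single_order_mul_powerSeriesPart S).symm
  have hT : T = HahnSeries.single b (1 : K) * HahnSeries.ofPowerSeries ℤ K PB :=
    (LaurentSeries.single_order_mul_powerSeriesPart T).symm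
  have e12 : (HahnSeries.single a (1 : K) : LaurentSeries K) * HahnSeries.single b (1 : K)
      = HahnSeries.single (a + b) (1 : K) := by
    rw [HahnSeries.single_mul_single, mul_one]
  have hmul : HahnSeries.ofPowerSeries ℤ K (PA * PB)
      = HahnSeries.ofPowerSeries ℤ K PA * HahnSeries.ofPowerSeries ℤ K PB :=
    map_mul (HahnSeries.ofPowerSeries ℤ K) PA PB
  have hST : S * T = HahnSeries.single (a + b) (1 : K)
      * HahnSeries.ofPowerSeries ℤ K (PA * PB) := by
    rw [hmul, ← e12]
    conv_lhs => rw [hS, hT]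
    ring
  have hdS : h1_der S = HahnSeries.single (a - 1) (a : K) * HahnSeries.ofPowerSeries ℤ K PA
      + HahnSeries.single a (1 : K)
        * HahnSeries.ofPowerSeries ℤ K (PowerSeries.derivative K PA) := by
    conv_lhs => rw [hS]
    rw [h1_der_single_one_mul, h1_der_ofPowerSeries]
  have hdT : h1_der T = HahnSeries.single (b - 1) (b : K) * HahnSeries.ofPowerSeries ℤ K PB
      + HahnSeries.single b (1 : K)
        * HahnSeries.ofPowerSeries ℤ K (PowerSeries.derivative K PB) := by
    conv_lhs => rw [hT]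
    rw [h1_der_single_one_mul, h1_der_ofPowerSeries]
  have hleib : HahnSeries.ofPowerSeries ℤ K (PowerSeries.derivative K (PA * PB))
      = HahnSeries.ofPowerSeries ℤ K PA
          * HahnSeries.ofPowerSeries ℤ K (PowerSeries.derivative K PB)
        + HahnSeries.ofPowerSeries ℤ K PB
          * HahnSeries.ofPowerSeries ℤ K (PowerSeries.derivative K PA) := by
    rw [Derivation.leibniz, smul_eq_mul, smul_eq_mul,
      map_add (HahnSeries.ofPowerSeries ℤ K), map_mul (HahnSeries.ofPowerSeries ℤ K),
      map_mul (HahnSeries.ofPowerSeries ℤ K)]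
  have hdST : h1_der (S * T) = HahnSeries.single (a + b - 1) ((a + b : ℤ) : K)
        * HahnSeries.ofPowerSeries ℤ K (PA * PB)
      + HahnSeries.single (a + b) (1 : K)
        * HahnSeries.ofPowerSeries ℤ K (PowerSeries.derivative K (PA * PB)) := by
    rw [hST, h1_der_single_one_mul, h1_der_ofPowerSeries]
  rw [hdST, hdS, hdT, hleib, hmul]
  conv_rhs => rw [hS, hT]
  set A := HahnSeries.ofPowerSeries ℤ K PA
  set B := HahnSeries.ofPowerSeries ℤ K PB
  set dA := HahnSeries.ofPowerSeries ℤ K (PowerSeries.derivative K PA)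
  set dB := HahnSeries.ofPowerSeries ℤ K (PowerSeries.derivative K PB)
  -- express all monomials through `p = u^(a-1)`, `q = u^(b-1)`, `U = u`
  set p : LaurentSeries K := HahnSeries.single (a - 1) (1 : K)
  set q : LaurentSeries K := HahnSeries.single (b - 1) (1 : K)
  set U : LaurentSeries K := HahnSeries.single (1 : ℤ) (1 : K)
  have e1 : (HahnSeries.single a (1 : K) : LaurentSeries K) = p * U := by
    rw [HahnSeries.single_mul_single, mul_one, sub_add_cancel]
  have e2 : (HahnSeries.single b (1 : K) : LaurentSeries K) = q * U := by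
    rw [HahnSeries.single_mul_single, mul_one, sub_add_cancel]
  have e3 : (HahnSeries.single (a + b) (1 : K) : LaurentSeries K) = p * U * (q * U) := by
    rw [← e1, ← e2, HahnSeries.single_mul_single, mul_one]
  have e4 : (HahnSeries.single (a - 1) (a : K) : LaurentSeries K)
      = HahnSeries.C (a : K) * p := by
    rw [HahnSeries.C_apply, HahnSeries.single_mul_single, zero_add, mul_one]
  have e5 : (HahnSeries.single (b - 1) (b : K) : LaurentSeries K)
      = HahnSeries.C (b : K) * q := by
    rw [HahnSeries.C_apply, HahnSeries.single_mul_single, zero_add, mul_one]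
  have e6 : (HahnSeries.single (a + b - 1) ((a + b : ℤ) : K) : LaurentSeries K)
      = (HahnSeries.C (a : K) + HahnSeries.C (b : K)) * (p * q * U) := by
    rw [← map_add (HahnSeries.C : K →+* LaurentSeries K), HahnSeries.C_apply,
      HahnSeries.single_mul_single, HahnSeries.single_mul_single, HahnSeries.single_mul_single,
      zero_add, mul_one, mul_one, mul_one]
    have hab : a + b - 1 = a - 1 + (b - 1) + 1 := by ring
    rw [← hab]
    push_cast
    rfl
  rw [e1, e2, e3, e4, e5, e6]
  ring

/-- The derivative of an inverse. -/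
theorem h1_der_inv {T : LaurentSeries K} (hT : T ≠ 0) :
    h1_der T⁻¹ = -(T⁻¹ * T⁻¹ * h1_der T) := by
  have h := h1_der_mul T T⁻¹
  rw [mul_inv_cancel₀ hT, h1_der_one] at h
  have h2 : T * h1_der T⁻¹ = -(h1_der T * T⁻¹) := by
    rw [eq_neg_iff_add_eq_zero, add_comm]; exact h.symm
  calc h1_der T⁻¹ = T⁻¹ * (T * h1_der T⁻¹) := by
        rw [← mul_assoc, inv_mul_cancel₀ hT, one_mul]
    _ = -(T⁻¹ * T⁻¹ * h1_der T) := by rw [h2]; ring

/-- The derivative of a power. -/
theorem h1_der_pow_succ (T : LaurentSeries K) (n : ℕ) :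
    h1_der (T ^ (n + 1)) = HahnSeries.C ((n + 1 : ℕ) : K) * (T ^ n * h1_der T) := by
  induction n with
  | zero => simp
  | succ n ih =>
    rw [pow_succ, h1_der_mul, ih]
    have : (HahnSeries.C (((n + 1 + 1 : ℕ) : K)) : LaurentSeries K)
        = HahnSeries.C (((n + 1 : ℕ) : K)) + 1 := by
      rw [← HahnSeries.C_one, ← map_add]; push_cast; rfl
    rw [this]
    ring

/-- The derivative of an integral power. -/
theorem h1_der_zpow {T : LaurentSeries K} (hT : T ≠ 0) (m : ℤ) :
    h1_der (T ^ m) = HahnSeries.C (m : K) * (T ^ (m - 1) * h1_der T) := by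
  rcases m with n | n
  · rcases n with _ | n
    · simp
    · have e : (Int.ofNat (n + 1)) = ((n + 1 : ℕ) : ℤ) := rfl
      rw [e, zpow_natCast, h1_der_pow_succ]
      have e2 : (((n + 1 : ℕ) : ℤ) - 1) = (n : ℤ) := by push_cast; ring
      rw [e2, zpow_natCast]
      push_cast
      rfl
  · have e : Int.negSucc n = -((n + 1 : ℕ) : ℤ) := rfl
    rw [e, zpow_neg, zpow_natCast, h1_der_inv (pow_ne_zero _ hT), h1_der_pow_succ]
    have e2 : (-((n + 1 : ℕ) : ℤ) - 1) = -((n + 2 : ℕ) : ℤ) := by push_cast; ring
    rw [e2, zpow_neg, zpow_natCast]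
    have hTn : T ^ (n + 1) ≠ 0 := pow_ne_zero _ hT
    have hTn2 : T ^ (n + 2) ≠ 0 := pow_ne_zero _ hT
    have hC : (HahnSeries.C ((-((n + 1 : ℕ) : ℤ) : ℤ) : K) : LaurentSeries K)
        = -HahnSeries.C (((n + 1 : ℕ) : K)) := by
      rw [← map_neg]; push_cast; rfl
    rw [hC]
    have key : (T ^ (n + 1))⁻¹ * (T ^ (n + 1))⁻¹ * T ^ n = (T ^ (n + 2))⁻¹ := by
      field_simp
      ring
    calc -((T ^ (n + 1))⁻¹ * (T ^ (n + 1))⁻¹ *
          (HahnSeries.C (((n + 1 : ℕ) : K)) * (T ^ n * h1_der T)))
        = -HahnSeries.C (((n + 1 : ℕ) : K)) *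
            (((T ^ (n + 1))⁻¹ * (T ^ (n + 1))⁻¹ * T ^ n) * h1_der T) := by ring
      _ = -HahnSeries.C (((n + 1 : ℕ) : K)) * ((T ^ (n + 2))⁻¹ * h1_der T) := by rw [key]

/-! ## Residues -/

/-- The formal residue: the coefficient of `u⁻¹`. -/
def h1_res (S : LaurentSeries K) : K := S.coeff (-1)

@[simp] theorem h1_res_zero : h1_res (0 : LaurentSeries K) = 0 := rfl

theorem h1_res_add (S T : LaurentSeries K) : h1_res (S + T) = h1_res S + h1_res T := by
  rw [h1_res, HahnSeries.coeff_add]; rfl

theorem h1_res_neg (S : LaurentSeries K) : h1_res (-S) = -h1_res S := by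
  rw [h1_res, HahnSeries.coeff_neg]; rfl

theorem h1_res_sub (S T : LaurentSeries K) : h1_res (S - T) = h1_res S - h1_res T := by
  rw [h1_res, HahnSeries.coeff_sub]; rfl

theorem h1_res_sum {ι : Type*} (s : Finset ι) (f : ι → LaurentSeries K) :
    h1_res (∑ i ∈ s, f i) = ∑ i ∈ s, h1_res (f i) := by
  classical
  induction s using Finset.induction_on with
  | empty => simp
  | insert a s ha ih => rw [Finset.sum_insert ha, Finset.sum_insert ha, h1_res_add, ih]

theorem h1_res_C_mul (c : K) (S : LaurentSeries K) :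
    h1_res (HahnSeries.C c * S) = c * h1_res S := by
  rw [h1_res, HahnSeries.C_apply, HahnSeries.coeff_single_mul, sub_zero]; rfl

theorem h1_res_single (n : ℤ) (c : K) :
    h1_res (HahnSeries.single n c : LaurentSeries K) = if n = -1 then c else 0 := by
  rw [h1_res]
  split_ifs with h
  · subst h; rw [HahnSeries.coeff_single_same]
  · rw [HahnSeries.coeff_single_of_ne (Ne.symm h)]

/-- The residue of a derivative vanishes. -/
theorem h1_res_der (S : LaurentSeries K) : h1_res (h1_der S) = 0 := by
  rw [h1_res, h1_der_coeff]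
  simp

/-- A series of nonnegative order has no residue. -/
theorem h1_res_of_order_nonneg {S : LaurentSeries K} (h : 0 ≤ S.order) : h1_res S = 0 := by
  rw [h1_res]
  exact HahnSeries.coeff_eq_zero_of_lt_order (by omega)

theorem h1_res_ofPowerSeries (A : PowerSeries K) :
    h1_res (HahnSeries.ofPowerSeries ℤ K A) = 0 := by
  rw [h1_res, HahnSeries.ofPowerSeries_apply]
  refine HahnSeries.embDomain_of_notMem_range ?_
  rintro ⟨k, hk⟩
  simp only [Nat.castOrderEmbedding_apply] at hk
  omega

/-- `res (T ^ n * dT/du) = 0` for `n ≠ -1`. -/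
theorem h1_res_zpow_mul_der_of_ne [CharZero K] {T : LaurentSeries K} (hT : T ≠ 0) {n : ℤ}
    (hn : n ≠ -1) : h1_res (T ^ n * h1_der T) = 0 := by
  have h := h1_der_zpow hT (n + 1)
  rw [add_sub_cancel_right] at h
  have h2 := h1_res_der (T ^ (n + 1))
  rw [h, h1_res_C_mul] at h2
  have hne : ((n + 1 : ℤ) : K) ≠ 0 := by
    rw [Int.cast_ne_zero]; omega
  exact (mul_eq_zero.mp h2).resolve_left hne

/-- `res (T⁻¹ * dT/du) = ord T`. -/
theorem h1_res_inv_mul_der {T : LaurentSeries K} (hT : T ≠ 0) :
    h1_res (T⁻¹ * h1_der T) = (T.order : K) := by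
  set a := T.order with ha
  set PA := LaurentSeries.powerSeriesPart T with hPA
  have hTe : T = HahnSeries.single a (1 : K) * HahnSeries.ofPowerSeries ℤ K PA :=
    (LaurentSeries.single_order_mul_powerSeriesPart T).symm
  have hPA0 : PowerSeries.constantCoeff PA ≠ 0 := by
    rw [← PowerSeries.coeff_zero_eq_constantCoeff_apply, hPA,
      LaurentSeries.powerSeriesPart_coeff]
    simpa using (HahnSeries.coeff_order_eq_zero (x := T)).not.mpr hT
  have hinv : HahnSeries.ofPowerSeries ℤ K PA * HahnSeries.ofPowerSeries ℤ K PA⁻¹ = 1 := by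
    rw [← map_mul (HahnSeries.ofPowerSeries ℤ K), PowerSeries.mul_inv_cancel _ hPA0, map_one]
  have hA0 : HahnSeries.ofPowerSeries ℤ K PA ≠ 0 := by
    intro h0; rw [h0, zero_mul] at hinv; exact zero_ne_one hinv
  have hs0 : (HahnSeries.single a (1 : K) : LaurentSeries K) ≠ 0 := by
    intro h0; rw [h0, zero_mul] at hTe; exact hT hTe
  have hAinv : (HahnSeries.ofPowerSeries ℤ K PA)⁻¹ = HahnSeries.ofPowerSeries ℤ K PA⁻¹ :=
    inv_eq_of_mul_eq_one_right hinv
  have hsinv : (HahnSeries.single a (1 : K) : LaurentSeries K)⁻¹ = HahnSeries.single (-a) 1 := by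
    refine inv_eq_of_mul_eq_one_right ?_
    rw [HahnSeries.single_mul_single, add_neg_cancel, mul_one]; rfl
  have hd : h1_der T = HahnSeries.single (a - 1) (a : K) * HahnSeries.ofPowerSeries ℤ K PA
      + HahnSeries.single a (1 : K)
        * HahnSeries.ofPowerSeries ℤ K (PowerSeries.derivative K PA) := by
    conv_lhs => rw [hTe]
    rw [h1_der_single_one_mul, h1_der_ofPowerSeries]
  have hTinv : T⁻¹ = HahnSeries.single (-a) 1 * HahnSeries.ofPowerSeries ℤ K PA⁻¹ := by
    conv_lhs => rw [hTe]
    rw [mul_inv, hsinv, hAinv]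
  have key : T⁻¹ * h1_der T = HahnSeries.single (-1 : ℤ) (a : K)
      + HahnSeries.ofPowerSeries ℤ K (PA⁻¹ * PowerSeries.derivative K PA) := by
    rw [hTinv, hd, map_mul (HahnSeries.ofPowerSeries ℤ K)]
    set A := HahnSeries.ofPowerSeries ℤ K PA
    set Ai := HahnSeries.ofPowerSeries ℤ K PA⁻¹
    set dA := HahnSeries.ofPowerSeries ℤ K (PowerSeries.derivative K PA)
    have e1 : (HahnSeries.single (-a) (1 : K) : LaurentSeries K)
        * HahnSeries.single (a - 1) (a : K) = HahnSeries.single (-1 : ℤ) (a : K) := by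
      rw [HahnSeries.single_mul_single, one_mul]
      have haa : -a + (a - 1) = -1 := by ring
      rw [haa]
    have e2 : (HahnSeries.single (-a) (1 : K) : LaurentSeries K)
        * HahnSeries.single a (1 : K) = 1 := by
      rw [HahnSeries.single_mul_single, neg_add_cancel, mul_one]; rfl
    calc HahnSeries.single (-a) 1 * Ai * (HahnSeries.single (a - 1) (a : K) * A
          + HahnSeries.single a 1 * dA)
        = (HahnSeries.single (-a) 1 * HahnSeries.single (a - 1) (a : K)) * (A * Ai)
          + (HahnSeries.single (-a) 1 * HahnSeries.single a 1) * (Ai * dA) := by ring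
      _ = HahnSeries.single (-1 : ℤ) (a : K) + Ai * dA := by
        rw [e1, e2, hinv, mul_one, one_mul]
  rw [key, h1_res_add, h1_res_ofPowerSeries, add_zero, h1_res_single, if_pos rfl]

/-- **Main formal residue formula**: `res (T ^ n * dT/du) = ord T` if `n = -1`, and `0`
otherwise. -/
theorem h1_res_zpow_mul_der [CharZero K] {T : LaurentSeries K} (hT : T ≠ 0) (n : ℤ) :
    h1_res (T ^ n * h1_der T) = if n = -1 then (T.order : K) else 0 := by
  split_ifs with h
  · subst h
    rw [zpow_neg_one]
    exact h1_res_inv_mul_der hT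
  · exact h1_res_zpow_mul_der_of_ne hT h

/-- The order of the derivative is at least `ord T - 1`. -/
theorem h1_le_order_der {T : LaurentSeries K} (hd : h1_der T ≠ 0) :
    T.order - 1 ≤ (h1_der T).order := by
  by_contra hlt
  push Not at hlt
  have hc : (h1_der T).coeff (h1_der T).order ≠ 0 :=
    (HahnSeries.coeff_order_eq_zero (x := h1_der T)).not.mpr hd
  apply hc
  rw [h1_der_coeff, HahnSeries.coeff_eq_zero_of_lt_order (by omega), mul_zero]

/-- The order of the derivative: `ord (dT/du) = ord T - 1` if `ord T ≠ 0`. -/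
theorem h1_order_der [CharZero K] {T : LaurentSeries K} (hT : T ≠ 0) (h0 : T.order ≠ 0) :
    (h1_der T).order = T.order - 1 := by
  have hc : (h1_der T).coeff (T.order - 1) ≠ 0 := by
    rw [h1_der_coeff, sub_add_cancel]
    refine mul_ne_zero ?_ ((HahnSeries.coeff_order_eq_zero (x := T)).not.mpr hT)
    rw [Int.cast_ne_zero]; exact h0
  have hne : h1_der T ≠ 0 := by
    intro h; rw [h] at hc; exact hc rfl
  exact le_antisymm (HahnSeries.order_le_of_coeff_ne_zero hc) (h1_le_order_der hne)

theorem h1_der_ne_zero [CharZero K] {T : LaurentSeries K} (hT : T ≠ 0) (h0 : T.order ≠ 0) :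
    h1_der T ≠ 0 := by
  intro h
  have hc : (h1_der T).coeff (T.order - 1) ≠ 0 := by
    rw [h1_der_coeff, sub_add_cancel]
    refine mul_ne_zero ?_ ((HahnSeries.coeff_order_eq_zero (x := T)).not.mpr hT)
    rw [Int.cast_ne_zero]; exact h0
  rw [h] at hc; exact hc rfl

end Fermat.Agent.Lib.S20
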