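import Mathlib
import Fermat.Agent.Lib.S20.FormalRes

/-!
# Project S20, slab (RES-2): the residue theorem on `P^1`

Owner: helper1.  Mathlib + `FormalRes` only.

* `h1_mem_span_of_mem_adjoin` : partial fractions, as a spanning statement: over an algebraically
  closed field `k`, `k(x)` is spanned by the `x ^ n` and the `((x - c)⁻¹) ^ i`, `i ≥ 1`.
* `h1_p1_residue` : the residue theorem on `P^1`, in terms of a family of embeddings
  `σ c : F →+* K'((u))` (one for each finite point `c : k`) and `σinf` (at infinity).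
-/

set_option autoImplicit false

noncomputable section

namespace Fermat.Agent.Lib.S20

open HahnSeries Polynomial

/-! ## Partial fractions as a spanning statement -/

section Span

variable {k F : Type*} [Field k] [Field F] [Algebra k F] (x : F)

/-- The spanning set: powers of `x` and powers of the `(x - c)⁻¹`. -/
def h1_pfSet : Set F :=
  Set.range (fun n : ℕ => x ^ n) ∪
    {y | ∃ (c : k) (i : ℕ), 1 ≤ i ∧ y = ((x - algebraMap k F c)⁻¹) ^ i}

/-- The span of the partial fraction set. -/
def h1_pfSpan : Submodule k F := Submodule.span k (h1_pfSet (k := k) x)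

theorem h1_pow_mem_pfSpan (n : ℕ) : x ^ n ∈ h1_pfSpan (k := k) x :=
  Submodule.subset_span (Or.inl ⟨n, rfl⟩)

theorem h1_inv_pow_mem_pfSpan (c : k) {i : ℕ} (hi : 1 ≤ i) :
    ((x - algebraMap k F c)⁻¹) ^ i ∈ h1_pfSpan (k := k) x :=
  Submodule.subset_span (Or.inr ⟨c, i, hi, rfl⟩)

theorem h1_one_mem_pfSpan : (1 : F) ∈ h1_pfSpan (k := k) x := by
  have h := h1_pow_mem_pfSpan (k := k) x 0
  rwa [pow_zero] at h

/-- To show `g * W ⊆ W` it suffices to check it on the generators. -/
theorem h1_mul_mem_pfSpan_of_gen (g : F)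
    (h : ∀ y ∈ h1_pfSet (k := k) x, g * y ∈ h1_pfSpan (k := k) x) :
    ∀ w ∈ h1_pfSpan (k := k) x, g * w ∈ h1_pfSpan (k := k) x := by
  intro w hw
  have hle : h1_pfSpan (k := k) x ≤ (h1_pfSpan (k := k) x).comap (LinearMap.mulLeft k g) := by
    rw [h1_pfSpan, Submodule.span_le]
    intro y hy
    exact h y hy
  exact hle hw

theorem h1_x_mul_mem_pfSpan (hx : ∀ c : k, x - algebraMap k F c ≠ 0) :
    ∀ w ∈ h1_pfSpan (k := k) x, x * w ∈ h1_pfSpan (k := k) x := by
  refine h1_mul_mem_pfSpan_of_gen x x ?_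
  rintro y (⟨n, rfl⟩ | ⟨c, i, hi, rfl⟩)
  · have := h1_pow_mem_pfSpan (k := k) x (n + 1)
    rwa [pow_succ'] at this
  · obtain ⟨j, rfl⟩ : ∃ j, i = j + 1 := ⟨i - 1, by omega⟩
    have hne := hx c
    have e : x * ((x - algebraMap k F c)⁻¹) ^ (j + 1)
        = ((x - algebraMap k F c)⁻¹) ^ j + c • ((x - algebraMap k F c)⁻¹) ^ (j + 1) := by
      rw [Algebra.smul_def, pow_succ]
      field_simp
      ring
    rw [e]
    refine Submodule.add_mem _ ?_ (Submodule.smul_mem _ _ (h1_inv_pow_mem_pfSpan x c (by omega)))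
    rcases Nat.eq_zero_or_pos j with rfl | hj
    · rw [pow_zero]; exact h1_one_mem_pfSpan x
    · exact h1_inv_pow_mem_pfSpan x c hj

theorem h1_inv_mul_pow_mem_pfSpan (hx : ∀ c : k, x - algebraMap k F c ≠ 0) (c : k) (n : ℕ) :
    (x - algebraMap k F c)⁻¹ * x ^ n ∈ h1_pfSpan (k := k) x := by
  induction n with
  | zero =>
    rw [pow_zero, mul_one]
    have := h1_inv_pow_mem_pfSpan (k := k) x c (i := 1) le_rfl
    rwa [pow_one] at this
  | succ n ih =>
    have hne := hx c
    have e : (x - algebraMap k F c)⁻¹ * x ^ (n + 1)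
        = x ^ n + c • ((x - algebraMap k F c)⁻¹ * x ^ n) := by
      rw [Algebra.smul_def, pow_succ]
      field_simp
      ring
    rw [e]
    exact Submodule.add_mem _ (h1_pow_mem_pfSpan x n) (Submodule.smul_mem _ _ ih)

theorem h1_inv_mul_inv_pow_mem_pfSpan (hx : ∀ c : k, x - algebraMap k F c ≠ 0) (c c' : k)
    (hcc : c ≠ c') (i : ℕ) (hi : 1 ≤ i) :
    (x - algebraMap k F c)⁻¹ * ((x - algebraMap k F c')⁻¹) ^ i ∈ h1_pfSpan (k := k) x := by
  have hne := hx c
  have hne' := hx c'
  have hd : algebraMap k F c - algebraMap k F c' ≠ 0 := by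
    rw [← map_sub]
    exact (map_ne_zero (algebraMap k F)).mpr (sub_ne_zero.mpr hcc)
  have hd' : algebraMap k F (c - c')⁻¹ * (algebraMap k F c - algebraMap k F c') = 1 := by
    rw [← map_sub, ← map_mul, inv_mul_cancel₀ (sub_ne_zero.mpr hcc), map_one]
  induction i, hi using Nat.le_induction with
  | base =>
    have e : (x - algebraMap k F c)⁻¹ * ((x - algebraMap k F c')⁻¹) ^ 1
        = (c - c')⁻¹ • ((x - algebraMap k F c)⁻¹ ^ 1)
          - (c - c')⁻¹ • ((x - algebraMap k F c')⁻¹ ^ 1) := by
      rw [Algebra.smul_def, Algebra.smul_def, pow_one, pow_one, ← mul_sub]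
      have h2 : (x - algebraMap k F c)⁻¹ - (x - algebraMap k F c')⁻¹
          = (algebraMap k F c - algebraMap k F c')
            * ((x - algebraMap k F c)⁻¹ * (x - algebraMap k F c')⁻¹) := by
        field_simp
        ring
      rw [h2, ← mul_assoc, hd', one_mul]
    rw [e]
    exact Submodule.sub_mem _ (Submodule.smul_mem _ _ (h1_inv_pow_mem_pfSpan x c le_rfl))
      (Submodule.smul_mem _ _ (h1_inv_pow_mem_pfSpan x c' le_rfl))
  | succ i hi ih =>
    have e : (x - algebraMap k F c)⁻¹ * ((x - algebraMap k F c')⁻¹) ^ (i + 1)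
        = (c - c')⁻¹ • ((x - algebraMap k F c)⁻¹ * ((x - algebraMap k F c')⁻¹) ^ i)
          - (c - c')⁻¹ • (((x - algebraMap k F c')⁻¹) ^ (i + 1)) := by
      rw [Algebra.smul_def, Algebra.smul_def, ← mul_sub, pow_succ]
      have h2 : (x - algebraMap k F c)⁻¹ * (x - algebraMap k F c')⁻¹ ^ i
            - (x - algebraMap k F c')⁻¹ ^ i * (x - algebraMap k F c')⁻¹
          = (algebraMap k F c - algebraMap k F c')
            * ((x - algebraMap k F c)⁻¹ * ((x - algebraMap k F c')⁻¹ ^ i
              * (x - algebraMap k F c')⁻¹)) := by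
        field_simp
        ring
      rw [h2, ← mul_assoc (algebraMap k F (c - c')⁻¹), hd', one_mul]
    rw [e]
    exact Submodule.sub_mem _ (Submodule.smul_mem _ _ ih)
      (Submodule.smul_mem _ _ (h1_inv_pow_mem_pfSpan x c' (by omega)))

theorem h1_inv_mul_mem_pfSpan (hx : ∀ c : k, x - algebraMap k F c ≠ 0) (c : k) :
    ∀ w ∈ h1_pfSpan (k := k) x, (x - algebraMap k F c)⁻¹ * w ∈ h1_pfSpan (k := k) x := by
  refine h1_mul_mem_pfSpan_of_gen x _ ?_
  rintro y (⟨n, rfl⟩ | ⟨c', i, hi, rfl⟩)
  · exact h1_inv_mul_pow_mem_pfSpan x hx c n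
  · by_cases hcc : c = c'
    · subst hcc
      have := h1_inv_pow_mem_pfSpan (k := k) x c (i := i + 1) (by omega)
      rwa [pow_succ'] at this
    · exact h1_inv_mul_inv_pow_mem_pfSpan x hx c c' hcc i hi

/-- The stabiliser of the partial fraction span, as a subalgebra. -/
def h1_pfStab : Subalgebra k F where
  carrier := {g | ∀ w ∈ h1_pfSpan (k := k) x, g * w ∈ h1_pfSpan (k := k) x}
  mul_mem' := by
    intro a b ha hb w hw
    rw [mul_assoc]
    exact ha _ (hb w hw)
  one_mem' := by
    intro w hw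
    rwa [one_mul]
  add_mem' := by
    intro a b ha hb w hw
    rw [add_mul]
    exact Submodule.add_mem _ (ha w hw) (hb w hw)
  zero_mem' := by
    intro w _
    rw [zero_mul]
    exact Submodule.zero_mem _
  algebraMap_mem' := by
    intro r w hw
    rw [← Algebra.smul_def]
    exact Submodule.smul_mem _ _ hw

theorem h1_mem_pfStab_iff (g : F) :
    g ∈ h1_pfStab (k := k) x ↔ ∀ w ∈ h1_pfSpan (k := k) x, g * w ∈ h1_pfSpan (k := k) x :=
  Iff.rfl

theorem h1_aeval_mem_pfStab (hx : ∀ c : k, x - algebraMap k F c ≠ 0) (p : k[X]) :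
    aeval x p ∈ h1_pfStab (k := k) x := by
  have hxS : x ∈ h1_pfStab (k := k) x := h1_x_mul_mem_pfSpan x hx
  have hle : Algebra.adjoin k {x} ≤ h1_pfStab (k := k) x :=
    Algebra.adjoin_le (by rintro y rfl; exact hxS)
  exact hle (Polynomial.aeval_mem_adjoin_singleton k x)

theorem h1_inv_aeval_mem_pfStab [IsAlgClosed k] (hx : ∀ c : k, x - algebraMap k F c ≠ 0)
    (q : k[X]) : (aeval x q)⁻¹ ∈ h1_pfStab (k := k) x := by
  by_cases hq : q = 0
  · subst hq
    rw [map_zero, inv_zero]
    exact Subalgebra.zero_mem _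
  have hsplit := IsAlgClosed.splits q
  have hq' := hsplit.eq_prod_roots
  have hlc : q.leadingCoeff ≠ 0 := leadingCoeff_ne_zero.mpr hq
  have e : aeval x q = algebraMap k F q.leadingCoeff
      * (q.roots.map (fun a => x - algebraMap k F a)).prod := by
    conv_lhs => rw [hq']
    rw [map_mul, aeval_C, map_multiset_prod, Multiset.map_map]
    congr 2
    refine Multiset.map_congr rfl (fun a _ => ?_)
    simp
  rw [e, mul_inv, ← map_inv₀, ← Multiset.prod_map_inv]
  refine Subalgebra.mul_mem _ (Subalgebra.algebraMap_mem _ _) ?_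
  refine Subalgebra.multiset_prod_mem _ ?_
  intro y hy
  rw [Multiset.mem_map] at hy
  obtain ⟨z, hz, rfl⟩ := hy
  exact h1_inv_mul_mem_pfSpan x hx z

/-- **Partial fractions**: `k(x)` is spanned by the `x ^ n` and the `((x - c)⁻¹) ^ i`. -/
theorem h1_mem_span_of_mem_adjoin [IsAlgClosed k] (hx : ∀ c : k, x - algebraMap k F c ≠ 0)
    {g : F} (hg : g ∈ IntermediateField.adjoin k ({x} : Set F)) :
    g ∈ h1_pfSpan (k := k) x := by
  rw [IntermediateField.mem_adjoin_simple_iff] at hg
  obtain ⟨r, s, rfl⟩ := hg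
  have h1 := h1_aeval_mem_pfStab x hx r
  have h2 := h1_inv_aeval_mem_pfStab x hx s
  have h3 : aeval x r / aeval x s ∈ h1_pfStab (k := k) x := by
    rw [div_eq_mul_inv]
    exact Subalgebra.mul_mem _ h1 h2
  have h4 := h3 1 (h1_one_mem_pfSpan x)
  rwa [mul_one] at h4

end Span

/-! ## Orders of `A + C a` -/

section Order

variable {K' : Type*} [Field K']

theorem h1_order_inv (x : LaurentSeries K') : (x⁻¹).order = -x.order := by
  by_cases hx : x = 0
  · subst hx; simp
  · have h1 : x * x⁻¹ = 1 := mul_inv_cancel₀ hx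
    have h2 := HahnSeries.order_mul hx (inv_ne_zero hx)
    rw [h1, HahnSeries.order_one] at h2
    linarith

theorem h1_coeff_C_of_ne (a : K') {n : ℤ} (hn : n ≠ 0) :
    (HahnSeries.C a : LaurentSeries K').coeff n = 0 := by
  rw [HahnSeries.C_apply, HahnSeries.coeff_single_of_ne hn]

theorem h1_coeff_C_zero (a : K') : (HahnSeries.C a : LaurentSeries K').coeff 0 = a := by
  rw [HahnSeries.C_apply, HahnSeries.coeff_single_same]

/-- Adding a nonzero constant to a series of positive order gives a series of order `0`. -/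
theorem h1_order_add_C_of_pos {A : LaurentSeries K'} (hA : 0 < A.order) {a : K'} (ha : a ≠ 0) :
    (A + HahnSeries.C a).order = 0 := by
  have hc0 : (A + HahnSeries.C a).coeff 0 ≠ 0 := by
    rw [HahnSeries.coeff_add, HahnSeries.coeff_eq_zero_of_lt_order hA, zero_add, h1_coeff_C_zero]
    exact ha
  have hne : A + HahnSeries.C a ≠ 0 := by
    intro h; rw [h] at hc0; exact hc0 rfl
  apply le_antisymm (HahnSeries.order_le_of_coeff_ne_zero hc0)
  by_contra hlt
  push Not at hlt
  have hc : (A + HahnSeries.C a).coeff (A + HahnSeries.C a).order ≠ 0 :=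
    (HahnSeries.coeff_order_eq_zero (x := A + HahnSeries.C a)).not.mpr hne
  apply hc
  rw [HahnSeries.coeff_add, HahnSeries.coeff_eq_zero_of_lt_order (by omega),
    h1_coeff_C_of_ne a (by omega), add_zero]

/-- Adding a constant to a series of negative order does not change the order. -/
theorem h1_order_add_C_of_neg {A : LaurentSeries K'} (hA : A.order < 0) (a : K') :
    (A + HahnSeries.C a).order = A.order := by
  have hA0 : A ≠ 0 := by
    intro h; rw [h, HahnSeries.order_zero] at hA; exact lt_irrefl _ hA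
  have hc0 : (A + HahnSeries.C a).coeff A.order ≠ 0 := by
    rw [HahnSeries.coeff_add, h1_coeff_C_of_ne a (by omega), add_zero]
    exact (HahnSeries.coeff_order_eq_zero (x := A)).not.mpr hA0
  have hne : A + HahnSeries.C a ≠ 0 := by
    intro h; rw [h] at hc0; exact hc0 rfl
  apply le_antisymm (HahnSeries.order_le_of_coeff_ne_zero hc0)
  by_contra hlt
  push Not at hlt
  have hc : (A + HahnSeries.C a).coeff (A + HahnSeries.C a).order ≠ 0 :=
    (HahnSeries.coeff_order_eq_zero (x := A + HahnSeries.C a)).not.mpr hne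
  apply hc
  rw [HahnSeries.coeff_add, HahnSeries.coeff_eq_zero_of_lt_order hlt,
    h1_coeff_C_of_ne a (by omega), add_zero]

/-- `res (X ^ n * dX/du) = 0` for `n : ℕ`. -/
theorem h1_res_pow_mul_der [CharZero K'] (X : LaurentSeries K') (n : ℕ) :
    h1_res (X ^ n * h1_der X) = 0 := by
  have h := h1_res_der (X ^ (n + 1))
  rw [h1_der_pow_succ, h1_res_C_mul] at h
  have hne : (((n + 1 : ℕ) : K')) ≠ 0 := by
    exact_mod_cast Nat.succ_ne_zero n
  exact (mul_eq_zero.mp h).resolve_left hne

end Order

/-! ## The residue theorem on `P^1` -/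

/-- **Residue theorem on `P^1`**, in terms of a family of embeddings `σ c : F →+* K'((u))` over
`ι : k →+* K'` (one for each finite point `c`, under which `x - c` has order `M c > 0`) and an
embedding `σinf` at infinity (under which `x⁻¹` has order `Minf > 0`): for `g ∈ k(x)` the
normalised local residues of `g dx` have finite support and sum to zero. -/
theorem h1_p1_residue {k F K' : Type} [Field k] [IsAlgClosed k] [CharZero k] [Field F]
    [Algebra k F] [Field K'] (ι : k →+* K') (x : F) (σ : k → (F →+* LaurentSeries K'))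
    (σinf : F →+* LaurentSeries K') (M : k → ℕ) (Minf : ℕ) (hM : ∀ c, 0 < M c)
    (hMinf : 0 < Minf) (hconst : ∀ c a, σ c (algebraMap k F a) = HahnSeries.C (ι a))
    (hconstinf : ∀ a, σinf (algebraMap k F a) = HahnSeries.C (ι a))
    (hfin : ∀ c, (σ c (x - algebraMap k F c)).order = (M c : ℤ))
    (hinf : (σinf x⁻¹).order = (Minf : ℤ)) (g : F)
    (hg : g ∈ IntermediateField.adjoin k ({x} : Set F)) :
    (Function.support fun c : k => ((M c : K'))⁻¹ * h1_res (σ c g * h1_der (σ c x))).Finite ∧
    (∑ᶠ c : k, ((M c : K'))⁻¹ * h1_res (σ c g * h1_der (σ c x)))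
      + ((Minf : K'))⁻¹ * h1_res (σinf g * h1_der (σinf x)) = 0 := by
  classical
  have : CharZero K' := charZero_of_injective_ringHom ι.injective
  have hx : ∀ c : k, x - algebraMap k F c ≠ 0 := by
    intro c h0
    have h1 := hfin c
    rw [h0, map_zero, HahnSeries.order_zero] at h1
    have h2 := hM c
    have h3 : (M c : ℤ) = 0 := h1.symm
    have h4 : M c = 0 := by exact_mod_cast h3
    omega
  -- the local terms
  let L : k → F → K' := fun c g => ((M c : K'))⁻¹ * h1_res (σ c g * h1_der (σ c x))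
  let Linf : F → K' := fun g => ((Minf : K'))⁻¹ * h1_res (σinf g * h1_der (σinf x))
  let P : F → Prop := fun g =>
    (Function.support fun c : k => L c g).Finite ∧ (∑ᶠ c : k, L c g) + Linf g = 0
  show P g
  have hLadd : ∀ c g₁ g₂, L c (g₁ + g₂) = L c g₁ + L c g₂ := by
    intro c g₁ g₂
    show ((M c : K'))⁻¹ * h1_res (σ c (g₁ + g₂) * h1_der (σ c x)) = _
    rw [map_add, add_mul, h1_res_add, mul_add]
  have hLinfadd : ∀ g₁ g₂, Linf (g₁ + g₂) = Linf g₁ + Linf g₂ := by
    intro g₁ g₂
    show ((Minf : K'))⁻¹ * h1_res (σinf (g₁ + g₂) * h1_der (σinf x)) = _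
    rw [map_add, add_mul, h1_res_add, mul_add]
  have hLsmul : ∀ c (a : k) g, L c (a • g) = ι a * L c g := by
    intro c a g
    show ((M c : K'))⁻¹ * h1_res (σ c (a • g) * h1_der (σ c x))
      = ι a * (((M c : K'))⁻¹ * h1_res (σ c g * h1_der (σ c x)))
    rw [Algebra.smul_def, map_mul, hconst, mul_assoc, h1_res_C_mul]
    ring
  have hLinfsmul : ∀ (a : k) g, Linf (a • g) = ι a * Linf g := by
    intro a g
    show ((Minf : K'))⁻¹ * h1_res (σinf (a • g) * h1_der (σinf x))
      = ι a * (((Minf : K'))⁻¹ * h1_res (σinf g * h1_der (σinf x)))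
    rw [Algebra.smul_def, map_mul, hconstinf, mul_assoc, h1_res_C_mul]
    ring
  have hL0 : ∀ c, L c 0 = 0 := by
    intro c
    show ((M c : K'))⁻¹ * h1_res (σ c 0 * h1_der (σ c x)) = 0
    rw [map_zero, zero_mul, h1_res_zero, mul_zero]
  have hLinf0 : Linf 0 = 0 := by
    show ((Minf : K'))⁻¹ * h1_res (σinf 0 * h1_der (σinf x)) = 0
    rw [map_zero, zero_mul, h1_res_zero, mul_zero]
  -- `P` is closed under the vector space operations
  have hP0 : P 0 := by
    have e : (fun c : k => L c 0) = fun _ => 0 := funext hL0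
    refine ⟨?_, ?_⟩
    · rw [e]; simp
    · rw [e, hLinf0]; simp
  have hPadd : ∀ g₁ g₂, P g₁ → P g₂ → P (g₁ + g₂) := by
    intro g₁ g₂ h₁ h₂
    have e : (fun c : k => L c (g₁ + g₂)) = fun c => L c g₁ + L c g₂ := funext fun c => hLadd c g₁ g₂
    refine ⟨?_, ?_⟩
    · rw [e]
      exact (h₁.1.union h₂.1).subset (Function.support_add _ _)
    · rw [e, finsum_add_distrib h₁.1 h₂.1, hLinfadd]
      have := h₁.2
      have := h₂.2
      linear_combination h₁.2 + h₂.2
  have hPsmul : ∀ (a : k) g, P g → P (a • g) := by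
    intro a g h
    have e : (fun c : k => L c (a • g)) = fun c => ι a * L c g := funext fun c => hLsmul c a g
    refine ⟨?_, ?_⟩
    · rw [e]
      exact h.1.subset (Function.support_const_smul_subset (ι a) _)
    · rw [e, ← mul_finsum (fun c => L c g) (ι a), hLinfsmul, ← mul_add, h.2, mul_zero]
  -- the generators `x ^ n`
  have hPpow : ∀ n : ℕ, P (x ^ n) := by
    intro n
    have hz : ∀ c, L c (x ^ n) = 0 := by
      intro c
      show ((M c : K'))⁻¹ * h1_res (σ c (x ^ n) * h1_der (σ c x)) = 0
      rw [map_pow, h1_res_pow_mul_der, mul_zero]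
    have hzinf : Linf (x ^ n) = 0 := by
      show ((Minf : K'))⁻¹ * h1_res (σinf (x ^ n) * h1_der (σinf x)) = 0
      rw [map_pow, h1_res_pow_mul_der, mul_zero]
    have e : (fun c : k => L c (x ^ n)) = fun _ => 0 := funext hz
    refine ⟨?_, ?_⟩
    · rw [e]; simp
    · rw [e, hzinf]; simp
  -- the generators `((x - c)⁻¹) ^ i`
  have hkey : ∀ (τ : F →+* LaurentSeries K'), (∀ a, τ (algebraMap k F a) = HahnSeries.C (ι a)) →
      ∀ (c : k) (i : ℕ), h1_res (τ (((x - algebraMap k F c)⁻¹) ^ i) * h1_der (τ x))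
        = if i = 1 then ((τ (x - algebraMap k F c)).order : K') else 0 := by
    intro τ hτ c i
    set Y := τ (x - algebraMap k F c) with hY
    have hY0 : Y ≠ 0 := (map_ne_zero τ).mpr (hx c)
    have hder : h1_der (τ x) = h1_der Y := by
      rw [hY, map_sub, hτ, h1_der_sub, h1_der_C, sub_zero]
    have hpow : τ (((x - algebraMap k F c)⁻¹) ^ i) = Y ^ (-(i : ℤ)) := by
      rw [map_pow, map_inv₀, zpow_neg, zpow_natCast, inv_pow]
    rw [hpow, hder, h1_res_zpow_mul_der hY0]
    by_cases hi : i = 1
    · subst hi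
      simp
    · rw [if_neg hi, if_neg]
      intro h
      apply hi
      have : (i : ℤ) = 1 := by omega
      exact_mod_cast this
  have hPinv : ∀ (c : k) (i : ℕ), 1 ≤ i → P (((x - algebraMap k F c)⁻¹) ^ i) := by
    intro c i hi
    have hLval : ∀ c', L c' (((x - algebraMap k F c)⁻¹) ^ i)
        = ((M c' : K'))⁻¹ * (if i = 1 then ((σ c' (x - algebraMap k F c)).order : K') else 0) := by
      intro c'
      show ((M c' : K'))⁻¹ * h1_res (σ c' (((x - algebraMap k F c)⁻¹) ^ i) * h1_der (σ c' x)) = _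
      rw [hkey (σ c') (hconst c') c i]
    have hLinfval : Linf (((x - algebraMap k F c)⁻¹) ^ i)
        = ((Minf : K'))⁻¹ * (if i = 1 then ((σinf (x - algebraMap k F c)).order : K') else 0) := by
      show ((Minf : K'))⁻¹ * h1_res (σinf (((x - algebraMap k F c)⁻¹) ^ i) * h1_der (σinf x)) = _
      rw [hkey σinf hconstinf c i]
    by_cases hi1 : i = 1
    · -- the simple pole
      have hord_c : ∀ c', c' ≠ c → (σ c' (x - algebraMap k F c)).order = 0 := by
        intro c' hc'
        have e : x - algebraMap k F c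
            = (x - algebraMap k F c') + algebraMap k F (c' - c) := by
          rw [map_sub]; ring
        rw [e, map_add, hconst]
        refine h1_order_add_C_of_pos ?_ ?_
        · rw [hfin c']; exact_mod_cast hM c'
        · exact (map_ne_zero ι).mpr (sub_ne_zero.mpr hc')
      have hord_inf : (σinf (x - algebraMap k F c)).order = -(Minf : ℤ) := by
        have h1 : (σinf x).order = -(Minf : ℤ) := by
          have := h1_order_inv (σinf x)
          rw [← map_inv₀, hinf] at this
          omega
        have e : σinf (x - algebraMap k F c) = σinf x + HahnSeries.C (-(ι c)) := by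
          rw [map_sub, hconstinf, map_neg, sub_eq_add_neg]
        rw [e, h1_order_add_C_of_neg (by rw [h1]; have := hMinf; omega), h1]
      have hLc : ∀ c', L c' (((x - algebraMap k F c)⁻¹) ^ i) = if c' = c then 1 else 0 := by
        intro c'
        rw [hLval, if_pos hi1]
        by_cases hc' : c' = c
        · subst hc'
          rw [if_pos rfl, hfin]
          have hne : ((M c' : K')) ≠ 0 := by exact_mod_cast (hM c').ne'
          push_cast
          exact inv_mul_cancel₀ hne
        · rw [if_neg hc', hord_c c' hc']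
          simp
      have e : (fun c' : k => L c' (((x - algebraMap k F c)⁻¹) ^ i))
          = fun c' => if c' = c then (1 : K') else 0 := funext hLc
      refine ⟨?_, ?_⟩
      · rw [e]
        refine (Set.finite_singleton c).subset ?_
        intro c' hc'
        rw [Function.mem_support] at hc'
        by_contra hne
        exact hc' (if_neg hne)
      · rw [e, finsum_eq_single _ c (fun c' hc' => if_neg hc'), if_pos rfl, hLinfval, if_pos hi1,
          hord_inf]
        have hne : ((Minf : K')) ≠ 0 := by exact_mod_cast hMinf.ne'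
        push_cast
        field_simp
        ring
    · -- higher order poles: all residues vanish
      have hz : ∀ c', L c' (((x - algebraMap k F c)⁻¹) ^ i) = 0 := by
        intro c'
        rw [hLval, if_neg hi1, mul_zero]
      have hzinf : Linf (((x - algebraMap k F c)⁻¹) ^ i) = 0 := by
        rw [hLinfval, if_neg hi1, mul_zero]
      have e : (fun c' : k => L c' (((x - algebraMap k F c)⁻¹) ^ i)) = fun _ => 0 := funext hz
      refine ⟨?_, ?_⟩
      · rw [e]; simp
      · rw [e, hzinf]; simp
  -- conclusion by partial fractions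
  have hmem := h1_mem_span_of_mem_adjoin x hx hg
  rw [h1_pfSpan] at hmem
  refine Submodule.span_induction (p := fun g _ => P g) ?_ hP0 ?_ ?_ hmem
  · rintro y (⟨n, rfl⟩ | ⟨c, i, hi, rfl⟩)
    · exact hPpow n
    · exact hPinv c i hi
  · intro g₁ g₂ _ _ h₁ h₂
    exact hPadd g₁ g₂ h₁ h₂
  · intro a g _ h
    exact hPsmul a g h

end Fermat.Agent.Lib.S20
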