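/-
S20 project, piece (RES-3a) (helper8): the principal part of an element of a function field at a
place of degree one, as a `k`-linear map `F →ₗ[k] k[X]` (polynomial in `π⁻¹` without constant
term), with existence, uniqueness and the basic properties.
-/
import Fermat.Agent.Lib.X0.Differential
import Fermat.Agent.Lib.X0.PlacesOver

set_option autoImplicit false

open AlgebraicCurve Polynomial
open Fermat.Agent.Lib.X0

noncomputable section

namespace Fermat.Agent.Lib.S20

section PP

variable {k F : Type} [Field k] [Field F] [Algebra k F] (v : Place k F)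

theorem h8_coe_ne_zero {π : v.toValuationSubring} (hπ : Irreducible π) : (π : F) ≠ 0 := by
  have := hπ.ne_zero
  simpa [ne_eq, ZeroMemClass.coe_eq_zero] using this

/-- `π^n * P(π⁻¹)` is integral at `v` when `deg P ≤ n`. -/
theorem h8_pow_mul_aeval_mem {π : v.toValuationSubring} (hπ : Irreducible π) (n : ℕ) (P : k[X])
    (hP : P.natDegree ≤ n) : (π : F) ^ n * aeval ((π : F)⁻¹) P ∈ v.toValuationSubring := by
  have hπ0 := h8_coe_ne_zero v hπ
  rw [aeval_eq_sum_range' (Nat.lt_succ_of_le hP), Finset.mul_sum]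
  refine sum_mem fun i hi => ?_
  rw [Finset.mem_range] at hi
  have hi' : i ≤ n := Nat.lt_succ_iff.mp hi
  have : (π : F) ^ n * (P.coeff i • ((π : F)⁻¹) ^ i) = algebraMap k F (P.coeff i) * (π : F) ^ (n - i) := by
    rw [Algebra.smul_def, inv_pow, ← Nat.sub_add_cancel hi', pow_add]
    rw [Nat.add_sub_cancel]
    field_simp
  rw [this]
  exact mul_mem (v.algebraMap_mem' _) (pow_mem π.2 _)

/-- **Uniqueness of the principal part.** -/
theorem h8_ppart_unique {π : v.toValuationSubring} (hπ : Irreducible π) (P : k[X])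
    (h0 : P.coeff 0 = 0) (hmem : aeval ((π : F)⁻¹) P ∈ v.toValuationSubring) : P = 0 := by
  by_contra hP
  have hπ0 := h8_coe_ne_zero v hπ
  set d := P.natDegree with hd
  have hd1 : 1 ≤ d := by
    by_contra hlt
    have hd0 : P.natDegree = 0 := by omega
    have := eq_C_of_natDegree_eq_zero hd0
    rw [h0, map_zero] at this
    exact hP this
  set a := P.leadingCoeff with ha
  have ha0 : a ≠ 0 := leadingCoeff_ne_zero.mpr hP
  have hsplit : P = P.eraseLead + C a * X ^ d := (eraseLead_add_C_mul_X_pow P).symm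
  have hlow : P.eraseLead.natDegree ≤ d - 1 := eraseLead_natDegree_le P
  have h1 : (π : F) ^ (d - 1) * aeval ((π : F)⁻¹) P.eraseLead ∈ v.toValuationSubring :=
    h8_pow_mul_aeval_mem v hπ (d - 1) _ hlow
  have h2 : (π : F) ^ (d - 1) * aeval ((π : F)⁻¹) P ∈ v.toValuationSubring :=
    mul_mem (pow_mem π.2 _) hmem
  have hev := congrArg (aeval ((π : F)⁻¹)) hsplit
  simp only [map_add, map_mul, aeval_C, map_pow, aeval_X] at hev
  have key : ∀ e : ℕ, (π : F) ^ e * (algebraMap k F a * ((π : F)⁻¹) ^ (e + 1)) =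
      algebraMap k F a * (π : F)⁻¹ := by
    intro e
    rw [inv_pow, pow_succ]
    field_simp
  have hde : d - 1 + 1 = d := by omega
  have hkey := key (d - 1)
  rw [hde] at hkey
  have h3 : algebraMap k F a * (π : F)⁻¹ =
      (π : F) ^ (d - 1) * aeval ((π : F)⁻¹) P - (π : F) ^ (d - 1) * aeval ((π : F)⁻¹) P.eraseLead := by
    rw [hev, ← hkey]; ring
  have h4 : algebraMap k F a * (π : F)⁻¹ ∈ v.toValuationSubring := by
    rw [h3]; exact sub_mem h2 h1
  have hne : algebraMap k F a * (π : F)⁻¹ ≠ 0 :=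
    mul_ne_zero (by simpa using ha0) (inv_ne_zero hπ0)
  have h5 := h4_ord_nonneg_of_mem v h4
  rw [v.ord_mul (by simpa using ha0) (inv_ne_zero hπ0), ord_algebraMap, v.ord_inv,
    v.ord_coe_irreducible hπ] at h5
  omega

/-- **Existence of the principal part**, by induction on the pole order. -/
theorem h8_exists_ppart_aux (hdeg : v.deg = 1) {π : v.toValuationSubring} (hπ : Irreducible π) :
    ∀ (n : ℕ) (y : F), (y = 0 ∨ -(n : ℤ) ≤ v.ord y) →
      ∃ P : k[X], P.coeff 0 = 0 ∧ y - aeval ((π : F)⁻¹) P ∈ v.toValuationSubring := by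
  have hπ0 := h8_coe_ne_zero v hπ
  have hπ1 : v.ord (π : F) = 1 := v.ord_coe_irreducible hπ
  intro n
  induction n with
  | zero =>
    intro y hy
    refine ⟨0, by simp, ?_⟩
    rw [map_zero, sub_zero]
    rcases hy with rfl | hy
    · exact zero_mem _
    · exact h4_mem_of_ord_nonneg v (by simpa using hy)
  | succ n ih =>
    intro y hy
    by_cases hcase : y = 0 ∨ -(n : ℤ) ≤ v.ord y
    · exact ih y hcase
    · push Not at hcase
      obtain ⟨hy0, hlt⟩ := hcase
      have hord : v.ord y = -((n : ℤ) + 1) := by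
        rcases hy with h | h
        · exact absurd h hy0
        · push_cast at h; omega
      -- z = π^(n+1) y is a unit
      have hz0 : (π : F) ^ (n + 1) * y ≠ 0 := mul_ne_zero (pow_ne_zero _ hπ0) hy0
      have hzord : v.ord ((π : F) ^ (n + 1) * y) = 0 := by
        rw [v.ord_mul (pow_ne_zero _ hπ0) hy0, ← zpow_natCast, v.ord_zpow, hπ1, hord]
        push_cast; ring
      have hzmem : (π : F) ^ (n + 1) * y ∈ v.toValuationSubring :=
        h4_mem_of_ord_nonneg v (by rw [hzord])
      obtain ⟨a, z₁, hz⟩ := exists_const_add_mul v hdeg hπ ⟨_, hzmem⟩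
      have hz' : (π : F) ^ (n + 1) * y = algebraMap k F a + (π : F) * (z₁ : F) := hz
      -- y₁ = y - a π^{-(n+1)} = π^{-n} z₁
      set y₁ : F := y - algebraMap k F a * ((π : F)⁻¹) ^ (n + 1) with hy₁
      have hy₁eq : y₁ = ((π : F)⁻¹) ^ n * (z₁ : F) := by
        rw [hy₁]
        have : y = ((π : F)⁻¹) ^ (n + 1) * ((π : F) ^ (n + 1) * y) := by
          rw [inv_pow]; field_simp
        conv_lhs => rw [this, hz']
        rw [inv_pow, inv_pow, pow_succ]
        field_simp
        ring
      have hy₁ord : y₁ = 0 ∨ -(n : ℤ) ≤ v.ord y₁ := by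
        by_cases hz₁ : (z₁ : F) = 0
        · left; rw [hy₁eq, hz₁, mul_zero]
        · right
          rw [hy₁eq, v.ord_mul (pow_ne_zero _ (inv_ne_zero hπ0)) hz₁, ← zpow_natCast, v.ord_zpow,
            v.ord_inv, hπ1]
          have := h4_ord_nonneg_of_mem v z₁.2
          linarith
      obtain ⟨P₁, hP₁0, hP₁⟩ := ih y₁ hy₁ord
      refine ⟨C a * X ^ (n + 1) + P₁, ?_, ?_⟩
      · rw [coeff_add, hP₁0, coeff_C_mul, coeff_X_pow, if_neg (by omega), mul_zero, add_zero]
      · have : y - aeval ((π : F)⁻¹) (C a * X ^ (n + 1) + P₁) = y₁ - aeval ((π : F)⁻¹) P₁ := by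
          rw [hy₁]
          simp only [map_add, map_mul, aeval_C, map_pow, aeval_X]
          ring
        rw [this]; exact hP₁

theorem h8_exists_ppart (hdeg : v.deg = 1) {π : v.toValuationSubring} (hπ : Irreducible π)
    (y : F) : ∃ P : k[X], P.coeff 0 = 0 ∧ y - aeval ((π : F)⁻¹) P ∈ v.toValuationSubring := by
  refine h8_exists_ppart_aux v hdeg hπ (-(v.ord y)).toNat y ?_
  right
  have := Int.self_le_toNat (-(v.ord y))
  omega

/-- two principal parts of the same element agree. -/
theorem h8_ppart_eq {π : v.toValuationSubring} (hπ : Irreducible π) (y : F) (P Q : k[X])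
    (hP0 : P.coeff 0 = 0) (hQ0 : Q.coeff 0 = 0)
    (hP : y - aeval ((π : F)⁻¹) P ∈ v.toValuationSubring)
    (hQ : y - aeval ((π : F)⁻¹) Q ∈ v.toValuationSubring) : P = Q := by
  have h : P - Q = 0 := by
    apply h8_ppart_unique v hπ
    · rw [coeff_sub, hP0, hQ0, sub_zero]
    · have : aeval ((π : F)⁻¹) (P - Q) =
          (y - aeval ((π : F)⁻¹) Q) - (y - aeval ((π : F)⁻¹) P) := by
        rw [map_sub]; ring
      rw [this]; exact sub_mem hQ hP
  exact sub_eq_zero.mp h

/-- The principal part at `v` with respect to the uniformizer `π`, as a linear map. -/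
def h8_ppart (hdeg : v.deg = 1) {π : v.toValuationSubring} (hπ : Irreducible π) : F →ₗ[k] k[X] where
  toFun y := (h8_exists_ppart v hdeg hπ y).choose
  map_add' y z := by
    have hy := (h8_exists_ppart v hdeg hπ y).choose_spec
    have hz := (h8_exists_ppart v hdeg hπ z).choose_spec
    have hyz := (h8_exists_ppart v hdeg hπ (y + z)).choose_spec
    refine h8_ppart_eq v hπ (y + z) _ _ hyz.1 ?_ hyz.2 ?_
    · rw [coeff_add, hy.1, hz.1, add_zero]
    · have : y + z - aeval ((π : F)⁻¹)
          ((h8_exists_ppart v hdeg hπ y).choose + (h8_exists_ppart v hdeg hπ z).choose) =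
          (y - aeval ((π : F)⁻¹) (h8_exists_ppart v hdeg hπ y).choose) +
          (z - aeval ((π : F)⁻¹) (h8_exists_ppart v hdeg hπ z).choose) := by
        rw [map_add]; ring
      rw [this]; exact add_mem hy.2 hz.2
  map_smul' c y := by
    have hy := (h8_exists_ppart v hdeg hπ y).choose_spec
    have hcy := (h8_exists_ppart v hdeg hπ (c • y)).choose_spec
    refine h8_ppart_eq v hπ (c • y) _ _ hcy.1 ?_ hcy.2 ?_
    · rw [RingHom.id_apply, coeff_smul, hy.1, smul_zero]
    · have : c • y - aeval ((π : F)⁻¹) ((RingHom.id k) c • (h8_exists_ppart v hdeg hπ y).choose) =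
          algebraMap k F c * (y - aeval ((π : F)⁻¹) (h8_exists_ppart v hdeg hπ y).choose) := by
        rw [RingHom.id_apply, map_smul, Algebra.smul_def, Algebra.smul_def]; ring
      rw [this]; exact mul_mem (v.algebraMap_mem' c) hy.2

theorem h8_ppart_coeff_zero (hdeg : v.deg = 1) {π : v.toValuationSubring} (hπ : Irreducible π)
    (y : F) : (h8_ppart v hdeg hπ y).coeff 0 = 0 :=
  (h8_exists_ppart v hdeg hπ y).choose_spec.1

theorem h8_sub_ppart_mem (hdeg : v.deg = 1) {π : v.toValuationSubring} (hπ : Irreducible π)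
    (y : F) : y - aeval ((π : F)⁻¹) (h8_ppart v hdeg hπ y) ∈ v.toValuationSubring :=
  (h8_exists_ppart v hdeg hπ y).choose_spec.2

theorem h8_ppart_eq_of (hdeg : v.deg = 1) {π : v.toValuationSubring} (hπ : Irreducible π)
    (y : F) (P : k[X]) (hP0 : P.coeff 0 = 0)
    (hP : y - aeval ((π : F)⁻¹) P ∈ v.toValuationSubring) : h8_ppart v hdeg hπ y = P :=
  h8_ppart_eq v hπ y _ _ (h8_ppart_coeff_zero v hdeg hπ y) hP0 (h8_sub_ppart_mem v hdeg hπ y) hP

/-- integral elements have zero principal part. -/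
theorem h8_ppart_of_mem (hdeg : v.deg = 1) {π : v.toValuationSubring} (hπ : Irreducible π)
    (y : F) (hy : y ∈ v.toValuationSubring) : h8_ppart v hdeg hπ y = 0 :=
  h8_ppart_eq_of v hdeg hπ y 0 (by simp) (by simpa using hy)

/-- a simple pole has nonzero residue coefficient. -/
theorem h8_ppart_coeff_one_ne_zero (hdeg : v.deg = 1) {π : v.toValuationSubring}
    (hπ : Irreducible π) (y : F) (hy0 : y ≠ 0) (hy : v.ord y = -1) :
    (h8_ppart v hdeg hπ y).coeff 1 ≠ 0 := by
  have hπ0 := h8_coe_ne_zero v hπ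
  have hπ1 : v.ord (π : F) = 1 := v.ord_coe_irreducible hπ
  have hz0 : (π : F) * y ≠ 0 := mul_ne_zero hπ0 hy0
  have hzord : v.ord ((π : F) * y) = 0 := by
    rw [v.ord_mul hπ0 hy0, hπ1, hy]; ring
  have hzmem : (π : F) * y ∈ v.toValuationSubring := h4_mem_of_ord_nonneg v (by rw [hzord])
  obtain ⟨a, z₁, hz⟩ := exists_const_add_mul v hdeg hπ ⟨_, hzmem⟩
  have hz' : (π : F) * y = algebraMap k F a + (π : F) * (z₁ : F) := hz
  have hya : y = algebraMap k F a * (π : F)⁻¹ + (z₁ : F) := by
    have : y = (π : F)⁻¹ * ((π : F) * y) := by field_simp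
    rw [this, hz']; field_simp
  have ha : a ≠ 0 := by
    intro ha0
    rw [ha0, map_zero, zero_add] at hz'
    by_cases hz₁ : (z₁ : F) = 0
    · rw [hz₁, mul_zero] at hz'; exact hz0 hz'
    · have h1 : v.ord ((π : F) * (z₁ : F)) = 0 := by rw [← hz', hzord]
      rw [v.ord_mul hπ0 hz₁, hπ1] at h1
      have := h4_ord_nonneg_of_mem v z₁.2
      omega
  have hP : h8_ppart v hdeg hπ y = C a * X := by
    apply h8_ppart_eq_of
    · simp
    · have : y - aeval ((π : F)⁻¹) (C a * X) = (z₁ : F) := by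
        simp only [map_mul, aeval_C, aeval_X]
        rw [hya]; ring
      rw [this]; exact z₁.2
  rw [hP]
  simpa using ha

end PP

end Fermat.Agent.Lib.S20
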