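/-
S20 project, piece (RES-3) (helper8): the local residue functional `Res_v(f dx)` at a place of
degree one, its vanishing / non-vanishing properties, and the transfer lemma: along any embedding
`τ : F →+* K'((u))` over `ι` with `ord_u ∘ τ = m · ord_v`, the formal residue of `τ(f) d(τ x)/du`
equals `m · ι(Res_v(f dx))`.
-/
import Fermat.Agent.Lib.S20.PrincipalPart
import Fermat.Agent.Lib.S20.FormalRes

set_option autoImplicit false

open AlgebraicCurve Polynomial KaehlerDifferential
open Fermat.Agent.Lib.X0

noncomputable section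

namespace Fermat.Agent.Lib.S20

section Transfer

variable {k F K' : Type} [Field k] [Field F] [Algebra k F] [Field K'] (v : Place k F)

/-- `der (C a * S) = C a * der S`. -/
theorem h8_der_C_mul (a : K') (S : LaurentSeries K') :
    h1_der (HahnSeries.C a * S) = HahnSeries.C a * h1_der S := by
  rw [h1_der_mul, h1_der_C, zero_mul, zero_add]

/-- **Transfer lemma** for the coefficient of `π⁻¹`. -/
theorem h8_res_transfer [CharZero K'] (hdeg : v.deg = 1) {π : v.toValuationSubring}
    (hπ : Irreducible π) (ι : k →+* K') (τ : F →+* LaurentSeries K')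
    (hconst : ∀ a : k, τ (algebraMap k F a) = HahnSeries.C (ι a)) (m : ℤ) (hm : 0 < m)
    (hord : ∀ f : F, f ≠ 0 → (τ f).order = m * v.ord f) (y : F) :
    h1_res (τ y * h1_der (τ (π : F))) = (m : K') * ι ((h8_ppart v hdeg hπ y).coeff 1) := by
  have hπ0 := h8_coe_ne_zero v hπ
  have hπ1 : v.ord (π : F) = 1 := v.ord_coe_irreducible hπ
  set T : LaurentSeries K' := τ (π : F) with hT
  have hT0 : T ≠ 0 := (map_ne_zero τ).mpr hπ0
  have hTord : T.order = m := by rw [hT, hord _ hπ0, hπ1, mul_one]
  set P := h8_ppart v hdeg hπ y with hP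
  set r : F := y - aeval ((π : F)⁻¹) P with hr
  have hrmem : r ∈ v.toValuationSubring := h8_sub_ppart_mem v hdeg hπ y
  have hy : y = aeval ((π : F)⁻¹) P + r := by rw [hr]; ring
  -- the regular part has no residue
  have hreg : h1_res (τ r * h1_der T) = 0 := by
    by_cases hr0 : r = 0
    · rw [hr0, map_zero, zero_mul]; rfl
    · have hτr : τ r ≠ 0 := (map_ne_zero τ).mpr hr0
      have hdT : h1_der T ≠ 0 := h1_der_ne_zero hT0 (by rw [hTord]; exact hm.ne')
      apply h1_res_of_order_nonneg
      rw [HahnSeries.order_mul hτr hdT, hord r hr0, h1_order_der hT0 (by rw [hTord]; exact hm.ne'),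
        hTord]
      have := h4_ord_nonneg_of_mem v hrmem
      have h2 : 0 ≤ m * v.ord r := mul_nonneg hm.le this
      omega
  -- the principal part
  have hpp : τ (aeval ((π : F)⁻¹) P) =
      ∑ i ∈ Finset.range (P.natDegree + 2), HahnSeries.C (ι (P.coeff i)) * T ^ (-(i : ℤ)) := by
    rw [aeval_eq_sum_range' (show P.natDegree < P.natDegree + 2 by omega), map_sum]
    refine Finset.sum_congr rfl fun i _ => ?_
    rw [Algebra.smul_def, map_mul, hconst, map_pow, map_inv₀, zpow_neg, zpow_natCast, inv_pow]
  rw [hy, map_add, add_mul, h1_res_add, hreg, add_zero, hpp, Finset.sum_mul, h1_res_sum]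
  have hterm : ∀ i ∈ Finset.range (P.natDegree + 2),
      h1_res (HahnSeries.C (ι (P.coeff i)) * T ^ (-(i : ℤ)) * h1_der T) =
        if i = 1 then (m : K') * ι (P.coeff 1) else 0 := by
    intro i _
    rw [mul_assoc, h1_res_C_mul, h1_res_zpow_mul_der hT0]
    by_cases hi : i = 1
    · subst hi
      rw [if_pos (by norm_num), if_pos rfl, hTord]; ring
    · rw [if_neg (by omega), if_neg hi, mul_zero]
  rw [Finset.sum_congr rfl hterm, Finset.sum_ite_eq' (Finset.range (P.natDegree + 2)) 1]
  rw [if_pos (Finset.mem_range.mpr (by omega))]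

/-- **Chain rule**: if `dx = g dπ` in `Ω[F/k]`, then `d(τ x)/du = τ(g) d(τ π)/du`. -/
theorem h8_der_chain (ι : k →+* K') (τ : F →+* LaurentSeries K')
    (hconst : ∀ a : k, τ (algebraMap k F a) = HahnSeries.C (ι a)) (x p g : F)
    (h : D k F x = g • D k F p) : h1_der (τ x) = τ g * h1_der (τ p) := by
  letI algE : Algebra F (LaurentSeries K') := τ.toAlgebra
  letI algk : Algebra k (LaurentSeries K') := (τ.comp (algebraMap k F)).toAlgebra
  haveI : IsScalarTower k F (LaurentSeries K') := IsScalarTower.of_algebraMap_eq (fun _ => rfl)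
  have hsmulF : ∀ (a : F) (e : LaurentSeries K'), a • e = τ a * e := fun a e => by
    rw [Algebra.smul_def]; rfl
  have hsmulk : ∀ (c : k) (e : LaurentSeries K'), c • e = HahnSeries.C (ι c) * e := fun c e => by
    rw [Algebra.smul_def, ← hconst]; rfl
  let δ : Derivation k F (LaurentSeries K') :=
    { toFun := fun f => h1_der (τ f)
      map_add' := fun a b => by rw [map_add, h1_der_add]
      map_smul' := fun c a => by
        rw [RingHom.id_apply, Algebra.smul_def, map_mul, hconst, h8_der_C_mul, hsmulk]
      map_one_eq_zero' := by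
        show h1_der (τ 1) = 0
        rw [map_one, h1_der_one]
      leibniz' := fun a b => by
        show h1_der (τ (a * b)) = a • h1_der (τ b) + b • h1_der (τ a)
        rw [map_mul, h1_der_mul, hsmulF, hsmulF]; ring }
  have h1 : δ.liftKaehlerDifferential (D k F x) = h1_der (τ x) :=
    Derivation.liftKaehlerDifferential_comp_D δ x
  have h2 : δ.liftKaehlerDifferential (D k F p) = h1_der (τ p) :=
    Derivation.liftKaehlerDifferential_comp_D δ p
  rw [← h1, h, map_smul, h2, hsmulF]

end Transfer

section Rho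

variable {k F : Type} [Field k] [Field F] [Algebra k F]

/-- The local residue functional `f ↦ Res_v (f dx)` at a place of degree one: the coefficient of
`π_v⁻¹` in the principal part of `f · dx/dπ_v`. -/
def h8_rho (x : F) (v : Place k F) (hdeg : v.deg = 1) : F →ₗ[k] k :=
  (lcoeff k 1) ∘ₗ (h8_ppart v hdeg (dCoord_eq v).choose_spec.1) ∘ₗ
    (LinearMap.mulLeft k (v.differentialCoeff (D k F x)))

theorem h8_rho_apply (x : F) (v : Place k F) (hdeg : v.deg = 1) (f : F) :
    h8_rho x v hdeg f =
      (h8_ppart v hdeg (dCoord_eq v).choose_spec.1 (v.differentialCoeff (D k F x) * f)).coeff 1 :=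
  rfl

theorem h8_rho_vanish (x : F) (v : Place k F) (hdeg : v.deg = 1) (f : F) (hf : f ≠ 0)
    (h : 0 ≤ v.ord f + v.ordDifferential (D k F x)) : h8_rho x v hdeg f = 0 := by
  rw [h8_rho_apply]
  by_cases hg : v.differentialCoeff (D k F x) = 0
  · rw [hg, zero_mul, map_zero, coeff_zero]
  · rw [h8_ppart_of_mem, coeff_zero]
    apply h4_mem_of_ord_nonneg
    rw [v.ord_mul hg hf]
    unfold Place.ordDifferential at h
    omega

theorem h8_rho_nonvanish (x : F) (v : Place k F) (hdeg : v.deg = 1)
    (hg : v.differentialCoeff (D k F x) ≠ 0) (f : F) (hf : f ≠ 0)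
    (h : v.ord f + v.ordDifferential (D k F x) = -1) : h8_rho x v hdeg f ≠ 0 := by
  rw [h8_rho_apply]
  apply h8_ppart_coeff_one_ne_zero v hdeg _ _ (mul_ne_zero hg hf)
  rw [v.ord_mul hg hf]
  unfold Place.ordDifferential at h
  omega

/-- **Transfer lemma for the local residue.** -/
theorem h8_rho_transfer {K' : Type} [Field K'] [CharZero K'] (x : F) (v : Place k F)
    (hdeg : v.deg = 1) [v.DCoordGenerates] (ι : k →+* K') (τ : F →+* LaurentSeries K')
    (hconst : ∀ a : k, τ (algebraMap k F a) = HahnSeries.C (ι a)) (m : ℤ) (hm : 0 < m)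
    (hord : ∀ f : F, f ≠ 0 → (τ f).order = m * v.ord f) (f : F) :
    h1_res (τ f * h1_der (τ x)) = (m : K') * ι (h8_rho x v hdeg f) := by
  have hπ := (dCoord_eq v).choose_spec.1
  have hd : v.dCoord = D k F (((dCoord_eq v).choose : v.toValuationSubring) : F) :=
    (dCoord_eq v).choose_spec.2
  have hx : D k F x = v.differentialCoeff (D k F x) •
      D k F (((dCoord_eq v).choose : v.toValuationSubring) : F) := by
    rw [← hd, v.differentialCoeff_smul_dCoord]
  rw [h8_der_chain ι τ hconst x _ _ hx, ← mul_assoc, ← map_mul, mul_comm f,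
    h8_res_transfer v hdeg hπ ι τ hconst m hm hord, h8_rho_apply]

end Rho

end Fermat.Agent.Lib.S20
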