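/-
S20 project, piece (RES-5a) (helper8): the local sum formula.  For a `LocalEmb` family over the
point `t = 0` (`t = x - c` or `t = 1/x`), the sum over the family of the formal residues of
`τ_q(f) d(τ_q x)/du` equals `M · ι(∑_{v | t} Res_v(f dx))`.
-/
import Fermat.Agent.Lib.S20.Defs
import Fermat.Agent.Lib.S20.LocalRes
import Fermat.Agent.Lib.X0.EmbCount
import Fermat.Agent.Lib.X0.EmbCor
import Fermat.Agent.Lib.X0.DictFG

set_option autoImplicit false

open AlgebraicCurve KaehlerDifferential
open Fermat.Agent.Lib.X0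

noncomputable section

namespace Fermat.Agent.Lib.S20

section LocalSum

variable {k F K' : Type} [Field k] [IsAlgClosed k] [CharZero k] [Field F] [Algebra k F] [Field K']

/-- the order function along an embedding is a multiple of the order at the place. -/
theorem h8_order_transfer (v : Place k F) (τ : F →+* LaurentSeries K') (e : ℤ) (he : 0 < e)
    (M : ℕ) (hM : 0 < M) (h : ∀ f : F, f ≠ 0 → (τ f).order * e = (M : ℤ) * v.ord f) :
    ∃ m : ℤ, 0 < m ∧ m * e = (M : ℤ) ∧ ∀ f : F, f ≠ 0 → (τ f).order = m * v.ord f := by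
  obtain ⟨p, hp0, hp1⟩ := h8_exists_ord_eq_one v
  have h1 := h p hp0
  rw [hp1, mul_one] at h1
  refine ⟨(τ p).order, ?_, h1, ?_⟩
  · have hMpos : (0 : ℤ) < (M : ℤ) := by exact_mod_cast hM
    rw [← h1] at hMpos
    exact pos_of_mul_pos_left hMpos he.le
  · intro f hf
    have h2 := h f hf
    rw [← h1] at h2
    have h3 : (τ f).order * e = ((τ p).order * v.ord f) * e := by rw [h2]; ring
    exact mul_right_cancel₀ he.ne' h3

theorem h8_rho_congr (x : F) (hdeg : ∀ v : Place k F, v.deg = 1) {v w : Place k F} (h : v = w)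
    (f : F) : h8_rho x v (hdeg v) f = h8_rho x w (hdeg w) f := by
  subst h; rfl

/-- **Local sum formula.** -/
theorem h8_local_sum (ι : k →+* K') (x : F) (hx : IsCoord k x) (t : F)
    (ht : (∃ c : k, t = x - algebraMap k F c) ∨ t = x⁻¹)
    (Q : Type) [Fintype Q] (hcard : Fintype.card Q = coordDegree k x) (M : ℕ)
    (E : LocalEmb ι x t Q M) (hdeg : ∀ v : Place k F, v.deg = 1) (f : F) :
    ∑ q, h1_res (E.τ q f * h1_der (E.τ q x)) =
      (M : K') * ι (∑ᶠ v ∈ {v : Place k F | 0 < v.ord t}, h8_rho x v (hdeg v) f) := by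
  classical
  haveI : CharZero K' := charZero_of_injective_ringHom ι.injective
  obtain ⟨P, hpos, hsurj, hfib, hord⟩ := h7_embCount ι x hx t ht Q hcard M E
  have hDC : ∀ v : Place k F, v.DCoordGenerates := (h4_differential x hx).2.2.1
  -- per index
  have hq : ∀ q, ∃ m : ℤ, m * (P q).ord t = (M : ℤ) ∧
      h1_res (E.τ q f * h1_der (E.τ q x)) = (m : K') * ι (h8_rho x (P q) (hdeg _) f) := by
    intro q
    obtain ⟨m, hm, hmM, hmord⟩ := h8_order_transfer (P q) (E.τ q) ((P q).ord t) (hpos q) M E.M_pos
      (fun f hf => hord q f hf)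
    haveI := hDC (P q)
    exact ⟨m, hmM, h8_rho_transfer x (P q) (hdeg _) ι (E.τ q) (E.const q) m hm hmord f⟩
  choose m hmM hmres using hq
  -- the finite set of places over the point
  let S : Finset (Place k F) := Finset.univ.image P
  have hS : {v : Place k F | 0 < v.ord t} = ↑S := by
    ext v
    simp only [Set.mem_setOf_eq, S, Finset.coe_image, Finset.coe_univ, Set.image_univ,
      Set.mem_range]
    constructor
    · intro hv; exact hsurj v hv
    · rintro ⟨q, rfl⟩; exact hpos q
  rw [hS, finsum_mem_coe_finset, map_sum, Finset.mul_sum]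
  rw [← Finset.sum_fiberwise_of_maps_to (s := Finset.univ) (t := S) (g := P)
    (fun q _ => Finset.mem_image_of_mem P (Finset.mem_univ q))]
  refine Finset.sum_congr rfl fun v hv => ?_
  have hv' : 0 < v.ord t := by
    have : v ∈ (↑S : Set (Place k F)) := hv
    rw [← hS] at this; exact this
  have heK : ((v.ord t : ℤ) : K') ≠ 0 := by exact_mod_cast hv'.ne'
  have hterm : ∀ q ∈ Finset.univ.filter (fun q => P q = v),
      h1_res (E.τ q f * h1_der (E.τ q x)) =
        ((M : K') / ((v.ord t : ℤ) : K')) * ι (h8_rho x v (hdeg v) f) := by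
    intro q hq
    rw [Finset.mem_filter] at hq
    have hPq : P q = v := hq.2
    rw [hmres q, h8_rho_congr x hdeg hPq]
    congr 1
    rw [eq_div_iff heK]
    have := hmM q
    rw [hPq] at this
    exact_mod_cast this
  rw [Finset.sum_congr rfl hterm, Finset.sum_const, nsmul_eq_mul]
  have hcardv : ((Finset.univ.filter (fun q => P q = v)).card : ℤ) = v.ord t := by
    rw [← hfib v hv', Nat.card_eq_fintype_card, Fintype.card_subtype]
  have hcardK : ((Finset.univ.filter (fun q => P q = v)).card : K') = ((v.ord t : ℤ) : K') := by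
    exact_mod_cast hcardv
  rw [hcardK]
  field_simp

end LocalSum

end Fermat.Agent.Lib.S20
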