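/-
S20 project, piece (RES-4) (helper8): the trace is the sum of the conjugates, for a family of
`[F : K]` pairwise distinct embeddings of `F` into a field `E` restricting to `τ₀` on `K`
(copy of helper7's `h7_norm_eq_prod` for the trace).  Mathlib-only.
-/
import Mathlib

set_option autoImplicit false

namespace Fermat.Agent.Lib.S20

section trace

variable {K F E : Type*} [Field K] [Field F] [Algebra K F] [FiniteDimensional K F]
  [Algebra.IsSeparable K F] [Field E]

theorem h8_trace_eq_sum {Q : Type*} [Fintype Q] (τ₀ : K →+* E) (τ : Q → F →+* E)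
    (hinj : Function.Injective τ) (hτ : ∀ q, (τ q).comp (algebraMap K F) = τ₀)
    (hcard : Fintype.card Q = Module.finrank K F) (f : F) :
    τ₀ (Algebra.trace K F f) = ∑ q, τ q f := by
  classical
  let Ebar := AlgebraicClosure E
  letI : Algebra K Ebar := ((algebraMap E Ebar).comp τ₀).toAlgebra
  let τ' : Q → (F →ₐ[K] Ebar) := fun q =>
    { toRingHom := (algebraMap E Ebar).comp (τ q)
      commutes' := by
        intro r
        show (algebraMap E Ebar) ((τ q) (algebraMap K F r)) = (algebraMap E Ebar) (τ₀ r)
        rw [← hτ q]; rfl }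
  have hτ'inj : Function.Injective τ' := by
    intro q q' h
    apply hinj
    ext x
    have := congrArg (fun σ : F →ₐ[K] Ebar => σ x) h
    exact (algebraMap E Ebar).injective this
  have hcard' : Fintype.card Q = Fintype.card (F →ₐ[K] Ebar) := by
    rw [hcard, AlgHom.card K F Ebar]
  have hbij : Function.Bijective τ' :=
    (Fintype.bijective_iff_injective_and_card τ').mpr ⟨hτ'inj, hcard'⟩
  have h1 := trace_eq_sum_embeddings (K := K) (L := F) Ebar (x := f)
  have h2 : ∑ σ : F →ₐ[K] Ebar, σ f = ∑ q, τ' q f :=
    (Fintype.sum_bijective τ' hbij _ _ (fun _ => rfl)).symm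
  rw [h2] at h1
  have h3 : ∑ q, τ' q f = algebraMap E Ebar (∑ q, τ q f) := by
    rw [map_sum]; rfl
  rw [h3] at h1
  exact (algebraMap E Ebar).injective h1

end trace

end Fermat.Agent.Lib.S20
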