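/-
S20 project, contract (RES) (helper8): a residue datum from local embeddings.
`h8_residue_of_p1 : P1ResidueStatement → ResidueStatement`, where `P1ResidueStatement` is the
residue theorem on the projective line in formal form (helper1).
-/
import Fermat.Agent.Lib.S20.ResidueLocal
import Fermat.Agent.Lib.S20.TraceSum
import Fermat.Agent.Lib.X0.DegreeLower

set_option autoImplicit false

open AlgebraicCurve KaehlerDifferential
open Fermat.Agent.Lib.X0

noncomputable section

namespace Fermat.Agent.Lib.S20

/-- The residue theorem on `ℙ¹`, in formal form: for embeddings `σ c`, `σinf` of `F` into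
`K'((u))` over `ι` under which `x - c`, resp. `1/x`, has positive order `M c`, resp. `Minf`, and
for `g ∈ k(x)`, the normalised formal residues of `g dx` sum to zero. -/
def P1ResidueStatement : Prop :=
  ∀ {k F K' : Type} [Field k] [IsAlgClosed k] [CharZero k] [Field F] [Algebra k F] [Field K']
    (ι : k →+* K') (x : F) (σ : k → (F →+* LaurentSeries K')) (σinf : F →+* LaurentSeries K')
    (M : k → ℕ) (Minf : ℕ) (_ : ∀ c, 0 < M c) (_ : 0 < Minf)
    (_ : ∀ c a, σ c (algebraMap k F a) = HahnSeries.C (ι a))
    (_ : ∀ a, σinf (algebraMap k F a) = HahnSeries.C (ι a))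
    (_ : ∀ c, (σ c (x - algebraMap k F c)).order = (M c : ℤ))
    (_ : (σinf x⁻¹).order = (Minf : ℤ))
    (g : F) (_ : g ∈ IntermediateField.adjoin k ({x} : Set F)),
    (Function.support fun c : k => ((M c : K'))⁻¹ * h1_res (σ c g * h1_der (σ c x))).Finite ∧
    (∑ᶠ c : k, ((M c : K'))⁻¹ * h1_res (σ c g * h1_der (σ c x))) +
      ((Minf : K'))⁻¹ * h1_res (σinf g * h1_der (σinf x)) = 0

section Partition

variable {k F : Type} [Field k] [IsAlgClosed k] [CharZero k] [Field F] [Algebra k F]

/-- Partition of a finite sum over places according to the value of `x`. -/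
theorem h8_partition (x : F) (hx : IsCoord k x) (g : Place k F → k)
    (hfin : (Function.support g).Finite) :
    ∃ C : Finset k,
      (∀ c, c ∉ C → ∑ᶠ v ∈ {v : Place k F | 0 < v.ord (x - algebraMap k F c)}, g v = 0) ∧
      ∑ᶠ v, g v = (∑ c ∈ C, ∑ᶠ v ∈ {v : Place k F | 0 < v.ord (x - algebraMap k F c)}, g v) +
        ∑ᶠ v ∈ {v : Place k F | 0 < v.ord x⁻¹}, g v := by
  classical
  set T : Finset (Place k F) := hfin.toFinset with hT
  have hTmem : ∀ v, v ∈ T ↔ g v ≠ 0 := fun v => by rw [hT, Set.Finite.mem_toFinset]; rfl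
  -- the value of `x` at a finite place
  let val : Place k F → k := fun v =>
    if h : 0 ≤ v.ord x then (h4_existsUnique_value x hx v h).choose else 0
  have hval : ∀ v c, 0 < v.ord (x - algebraMap k F c) ↔ (0 ≤ v.ord x ∧ val v = c) := by
    intro v c
    constructor
    · intro hc
      have h0 : 0 ≤ v.ord x := ord_nonneg_of_pos_sub v x c hc
      refine ⟨h0, ?_⟩
      have hu := (h4_existsUnique_value x hx v h0).choose_spec
      show (if h : 0 ≤ v.ord x then (h4_existsUnique_value x hx v h).choose else 0) = c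
      rw [dif_pos h0]
      exact (hu.2 c hc).symm
    · rintro ⟨h0, rfl⟩
      show 0 < v.ord (x - algebraMap k F
        (if h : 0 ≤ v.ord x then (h4_existsUnique_value x hx v h).choose else 0))
      rw [dif_pos h0]
      exact (h4_existsUnique_value x hx v h0).choose_spec.1
  set Tfin : Finset (Place k F) := T.filter (fun v => 0 ≤ v.ord x) with hTfin
  set Tinf : Finset (Place k F) := T.filter (fun v => ¬ 0 ≤ v.ord x) with hTinf
  set C : Finset k := Tfin.image val with hC
  -- the sum over the places above `c`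
  have hSc : ∀ c, ∑ᶠ v ∈ {v : Place k F | 0 < v.ord (x - algebraMap k F c)}, g v =
      ∑ v ∈ Tfin.filter (fun v => val v = c), g v := by
    intro c
    apply finsum_mem_eq_sum_of_inter_support_eq
    ext v
    simp only [Set.mem_inter_iff, Set.mem_setOf_eq, Function.mem_support, Finset.coe_filter,
      hTfin, Finset.mem_filter, hTmem]
    rw [hval v c]
    tauto
  have hSinf : ∑ᶠ v ∈ {v : Place k F | 0 < v.ord x⁻¹}, g v = ∑ v ∈ Tinf, g v := by
    apply finsum_mem_eq_sum_of_inter_support_eq
    ext v
    simp only [Set.mem_inter_iff, Set.mem_setOf_eq, Function.mem_support, Finset.coe_filter,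
      hTinf, hTmem, v.ord_inv]
    constructor
    · rintro ⟨h1, h2⟩; exact ⟨⟨h2, by omega⟩, h2⟩
    · rintro ⟨⟨h2, h1⟩, -⟩; exact ⟨by omega, h2⟩
  refine ⟨C, ?_, ?_⟩
  · intro c hc
    rw [hSc c]
    apply Finset.sum_eq_zero
    intro v hv
    rw [Finset.mem_filter] at hv
    exfalso
    apply hc
    rw [hC, Finset.mem_image]
    exact ⟨v, hv.1, hv.2⟩
  · rw [finsum_eq_sum_of_support_subset g (s := T) (by intro v hv; exact (hTmem v).mpr hv),
      hSinf, ← Finset.sum_filter_add_sum_filter_not T (fun v => 0 ≤ v.ord x)]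
    congr 1
    rw [← Finset.sum_fiberwise_of_maps_to (s := Tfin) (t := C) (g := val)
      (fun v hv => Finset.mem_image_of_mem val hv)]
    refine Finset.sum_congr rfl fun c _ => ?_
    rw [hSc c]

end Partition

/-- **(RES)** a residue datum from local embeddings, given the residue theorem on `ℙ¹`. -/
theorem h8_residue_of_p1 (hP1 : P1ResidueStatement) : ResidueStatement := by
  intro k F K' _ _ _ _ _ _ ι x hx Q _ hcard hfinE hinfE
  classical
  haveI : CharZero K' := charZero_of_injective_ringHom ι.injective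
  have hG1 := h4_places x hx
  have hdeg : ∀ v : Place k F, v.deg = 1 := hG1.1
  obtain ⟨-, hDx, hDC, -, -⟩ := h4_differential x hx
  have hg : ∀ v : Place k F, v.differentialCoeff (D k F x) ≠ 0 := by
    intro v h0
    haveI := hDC v
    apply hDx
    rw [← v.differentialCoeff_smul_dCoord (D k F x), h0, zero_smul]
  refine ⟨⟨fun v => h8_rho x v (hdeg v), ?_, ?_, ?_⟩⟩
  · intro v f hf h; exact h8_rho_vanish x v (hdeg v) f hf h
  · intro v f hf h; exact h8_rho_nonvanish x v (hdeg v) (hg v) f hf h
  · intro f
    by_cases hsupp : (Function.support fun v : Place k F => h8_rho x v (hdeg v) f).Finite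
    swap
    · exact finsum_of_infinite_support hsupp
    -- the local data
    choose M hE using hfinE
    let E : ∀ c : k, LocalEmb ι x (x - algebraMap k F c) Q (M c) := fun c => (hE c).some
    obtain ⟨Minf, ⟨Einf⟩⟩ := hinfE
    -- the field `K = k(x)`
    haveI hfd : FiniteDimensional (IntermediateField.adjoin k ({x} : Set F)) F := hx.finite
    haveI : CharZero (IntermediateField.adjoin k ({x} : Set F)) :=
      charZero_of_injective_algebraMap
        (algebraMap k (IntermediateField.adjoin k ({x} : Set F))).injective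
    haveI : Algebra.IsSeparable (IntermediateField.adjoin k ({x} : Set F)) F :=
      Algebra.IsAlgebraic.isSeparable_of_perfectField
    have hQpos : 0 < Fintype.card Q := by
      rw [hcard]; exact Module.finrank_pos
    obtain ⟨q₀⟩ : Nonempty Q := Fintype.card_pos_iff.mp hQpos
    set tr : F := algebraMap (IntermediateField.adjoin k ({x} : Set F)) F
      (Algebra.trace (IntermediateField.adjoin k ({x} : Set F)) F f) with htr
    have htrmem : tr ∈ IntermediateField.adjoin k ({x} : Set F) := Subtype.property _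
    -- trace identity
    have hsum : ∀ (t : F) (M' : ℕ) (E' : LocalEmb ι x t Q M'),
        ∑ q, h1_res (E'.τ q f * h1_der (E'.τ q x)) =
          h1_res (E'.τ q₀ tr * h1_der (E'.τ q₀ x)) := by
      intro t M' E'
      have h1 : ∀ q, E'.τ q x = E'.τ q₀ x := fun q => E'.agree q q₀
      have h2 : E'.τ q₀ tr = ∑ q, E'.τ q f := by
        refine h8_trace_eq_sum ((E'.τ q₀).comp
          (algebraMap (IntermediateField.adjoin k ({x} : Set F)) F)) E'.τ E'.inj ?_ hcard f
        intro q
        refine RingHom.ext fun y => ?_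
        exact h8_agree_on_adjoin (E'.τ q) (E'.τ q₀) x
          (fun a => by rw [E'.const, E'.const]) (h1 q) y y.2
      rw [h2, Finset.sum_mul, h1_res_sum]
      refine Finset.sum_congr rfl fun q _ => ?_
      rw [h1 q]
    -- the residue theorem on the line
    obtain ⟨-, hline⟩ := hP1 ι x (fun c => (E c).τ q₀) (Einf.τ q₀) M Minf
      (fun c => (E c).M_pos) Einf.M_pos (fun c a => (E c).const q₀ a) (fun a => Einf.const q₀ a)
      (fun c => (E c).ord_t q₀) (Einf.ord_t q₀) tr htrmem
    -- local sums
    set S : k → k := fun c =>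
      ∑ᶠ v ∈ {v : Place k F | 0 < v.ord (x - algebraMap k F c)}, h8_rho x v (hdeg v) f with hS
    set Sinf : k := ∑ᶠ v ∈ {v : Place k F | 0 < v.ord x⁻¹}, h8_rho x v (hdeg v) f with hSinf
    have hloc : ∀ c : k, ((M c : K'))⁻¹ * h1_res ((E c).τ q₀ tr * h1_der ((E c).τ q₀ x)) =
        ι (S c) := by
      intro c
      have hM0 : (M c : K') ≠ 0 := by exact_mod_cast (E c).M_pos.ne'
      rw [← hsum _ _ (E c), h8_local_sum ι x hx _ (Or.inl ⟨c, rfl⟩) Q hcard (M c) (E c) hdeg f,
        ← mul_assoc, inv_mul_cancel₀ hM0, one_mul]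
    have hlocinf : ((Minf : K'))⁻¹ * h1_res (Einf.τ q₀ tr * h1_der (Einf.τ q₀ x)) = ι Sinf := by
      have hM0 : (Minf : K') ≠ 0 := by exact_mod_cast Einf.M_pos.ne'
      rw [← hsum _ _ Einf, h8_local_sum ι x hx _ (Or.inr rfl) Q hcard Minf Einf hdeg f,
        ← mul_assoc, inv_mul_cancel₀ hM0, one_mul]
    simp only [hloc, hlocinf] at hline
    -- partition of the places
    obtain ⟨C, hC0, hpart⟩ := h8_partition x hx (fun v => h8_rho x v (hdeg v) f) hsupp
    rw [hpart]
    have hfs : ∑ᶠ c : k, ι (S c) = ∑ c ∈ C, ι (S c) := by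
      apply finsum_eq_sum_of_support_subset
      intro c hc
      by_contra hcC
      apply hc
      show ι (S c) = 0
      rw [show S c = 0 from hC0 c hcC, map_zero]
    rw [hfs, ← map_sum, ← map_add] at hline
    exact (map_eq_zero ι).mp hline

end Fermat.Agent.Lib.S20
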