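/-
S20 project, contract (RES) CLOSED (helper8 + helper1): `h8_residue : ResidueStatement`.
-/
import Fermat.Agent.Lib.S20.ResidueProof
import Fermat.Agent.Lib.S20.P1Residue

set_option autoImplicit false

namespace Fermat.Agent.Lib.S20

theorem h8_p1Residue : P1ResidueStatement := by
  intro k F K' _ _ _ _ _ _ ι x σ σinf M Minf hM hMinf hconst hconstinf hfin hinf g hg
  exact h1_p1_residue ι x σ σinf M Minf hM hMinf hconst hconstinf hfin hinf g hg

/-- **Contract (RES)**: a residue datum from local embeddings. -/
theorem h8_residue : ResidueStatement := h8_residue_of_p1 h8_p1Residue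

end Fermat.Agent.Lib.S20
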