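import Fermat.Agent.Lib.S20.Defs

/-!
# Project S20: generic assembly (owner: lead)

`degree_of_contractsG`: for any function field `F/k` with coordinate `x` satisfying the generic
(C) contracts indexed by `SL₂(ℤ)/Γ₀(N)`, `deg div(dx) = 2 · genusFormula N - 2`.
-/

set_option autoImplicit false

noncomputable section

namespace Fermat.Agent.Lib.S20

open AlgebraicCurve ModularCurve Function KaehlerDifferential
open Fermat.Agent.Lib.X0
open scoped MatrixGroups

section Main

variable {k F K' : Type} [Field k] [IsAlgClosed k] [CharZero k] [Field F] [Algebra k F]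
  [Field K']

/-- **Riemann–Hurwitz from the generic contracts.** -/
theorem degree_of_contractsG (ι : k →+* K') (x : F) (N : ℕ) [NeZero N]
    (hG1 : PlacesStatement) (hG2 : EmbCountCorStatement) (hG3 : DifferentialStatement)
    (hC : CoordG k x N) (hCf : CFiniteG ι x N) (hCi : CInftyG ι x N)
    (hB : CombStatement N)
    (W : Divisor k F) (hW : ∀ v : Place k F, W v = v.ordDifferential (D k F x)) :
    ((Divisor.degree W : ℤ) : ℚ) = 2 * genusFormula N - 2 := by
  classical
  obtain ⟨hcoord, hdegree⟩ := hC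
  obtain ⟨hcard, hS, hU, hT, hTN, g, hg⟩ := hB
  haveI : Finite (QN N) := Nat.finite_of_card_ne_zero (by rw [hcard]; exact (dedekindPsi_pos N).ne')
  haveI : Fintype (QN N) := Fintype.ofFinite _
  set n : ℕ := coordDegree k x with hn
  have hQ : Fintype.card (QN N) = n := by
    rw [← Nat.card_eq_fintype_card, ← hdegree]
  have hnpsi : n = dedekindPsi N := by rw [← hcard, hdegree]
  obtain ⟨hdeg1, huniq, hFI, hprin⟩ := hG1 x hcoord
  -- generic points
  have hgen : ∀ c : k, c ≠ 0 → c ≠ 1728 → ∀ v : Place k F,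
      0 < v.ord (x - algebraMap k F c) → v.ord (x - algebraMap k F c) = 1 := by
    intro c hc0 hc1
    obtain ⟨M, E, h1, -, -⟩ := hCf c
    obtain rfl := h1 hc0 hc1
    obtain ⟨hfin, hcnt⟩ := count_cyclic hG2 ι x hcoord _ (Or.inl ⟨c, rfl⟩) (QN N) hQ 1 E id
      (fun q => rfl) (fun q f => rfl)
      (fun q h _ hh _ f _ => by
        have : h = 1 := Nat.dvd_one.1 hh
        subst this; simp)
    have hsum1 : ∑ q : QN N, (1 : ℚ) / (minimalPeriod (id : QN N → QN N) q) = n := by
      simp [← hQ]
    rw [hsum1] at hcnt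
    have hcnt' : Nat.card {v : Place k F // 0 < v.ord (x - algebraMap k F c)}
        = n := by exact_mod_cast hcnt
    have hFIc := (hFI _ (transcendental_sub_const hcoord.transc c)).2
    rw [finsum_mem_eq_finite_toFinset_sum _ hfin,
      finrank_congr_intermediateField (adjoin_sub_const x c)] at hFIc
    have hcardS : hfin.toFinset.card = n := by
      rw [← hcnt', ← Set.ncard_eq_toFinset_card _ hfin]
      exact (Nat.card_coe_set_eq _).symm
    intro v hv
    refine all_one_of_sum_eq_card hfin.toFinset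
      (fun v => v.ord (x - algebraMap k F c)) ?_ ?_ v ?_
    · intro a ha
      rw [Set.Finite.mem_toFinset] at ha
      exact ha
    · rw [hFIc, hcardS]; rfl
    · rw [Set.Finite.mem_toFinset]; exact hv
  -- the point 0
  have h0 : (Nat.card (placesOver (k := k) x 0) : ℚ)
      = (nuThree N : ℚ) + ((n : ℚ) - nuThree N) / 3 := by
    obtain ⟨M, E, -, h3, -⟩ := hCf 0
    obtain ⟨rfl, hinv, hfix⟩ := h3 rfl
    obtain ⟨-, hcnt⟩ := count_cyclic hG2 ι x hcoord (x - algebraMap k F 0)
      (Or.inl ⟨0, rfl⟩) (QN N) hQ 3 E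
      (matU • ·) (matU_iterate N) hinv
      (fun q h h0 hh hq f hf => by
        rcases (Nat.dvd_prime Nat.prime_three).1 hh with rfl | rfl
        · exact hfix q hq f hf
        · simp)
    rw [sum_inv_minimalPeriod_prime _ 3 Nat.prime_three (matU_iterate N)] at hcnt
    have hfixc : Fintype.card {q : QN N // matU • q = q} = nuThree N := by
      rw [← Nat.card_eq_fintype_card, hU]
    rw [hfixc, hQ, show ((3 : ℕ) : ℚ) = 3 by norm_num] at hcnt
    exact hcnt
  -- the point 1728
  have h1728 : (Nat.card (placesOver (k := k) x 1728) : ℚ)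
      = (nuTwo N : ℚ) + ((n : ℚ) - nuTwo N) / 2 := by
    obtain ⟨M, E, -, -, h2⟩ := hCf 1728
    obtain ⟨rfl, hinv, hfix⟩ := h2 rfl
    obtain ⟨-, hcnt⟩ := count_cyclic hG2 ι x hcoord (x - algebraMap k F 1728)
      (Or.inl ⟨1728, rfl⟩) (QN N) hQ 2 E
      (matS • ·) (matS_iterate N) hinv
      (fun q h h0 hh hq f hf => by
        rcases (Nat.dvd_prime Nat.prime_two).1 hh with rfl | rfl
        · exact hfix q hq f hf
        · simp)
    rw [sum_inv_minimalPeriod_prime _ 2 Nat.prime_two (matS_iterate N)] at hcnt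
    have hfixc : Fintype.card {q : QN N // matS • q = q} = nuTwo N := by
      rw [← Nat.card_eq_fintype_card, hS]
    rw [hfixc, hQ, show ((2 : ℕ) : ℚ) = 2 by norm_num] at hcnt
    exact hcnt
  -- infinity
  have hinfty : (Nat.card (placesInf (k := k) x) : ℚ) = cuspCount N := by
    obtain ⟨E, hinv, hdiv⟩ := hCi
    obtain ⟨-, hcnt⟩ := count_cyclic hG2 ι x hcoord _ (Or.inr rfl) (QN N) hQ N E
      (matT • ·) (fun q => by rw [smul_iterate]; exact hTN q) hinv
      (fun q h h0 hh hq f hf => hdiv q h h0 hh (by rwa [smul_iterate] at hq) f hf)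
    rw [sum_inv_minimalPeriod_eq_card_orbits] at hcnt
    rw [← hT]
    exact hcnt
  -- the differential
  obtain ⟨hspan, hne, hgenD, hfinD, hinfD⟩ := hG3 x hcoord
  have h01728 : (0 : k) ≠ 1728 := by norm_num
  have hdeg := degree_differential hG1 hG3 x hcoord ({0, 1728} : Finset k)
    (fun c hc v hv => hgen c (fun h => hc (by simp [h])) (fun h => hc (by simp [h])) v hv)
    (D k F x) hne W hW
  rw [Finset.sum_pair h01728] at hdeg
  rw [hdeg]
  push_cast
  rw [h0, h1728, hinfty, genusFormula, ← hn, hnpsi]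
  ring

end Main

end Fermat.Agent.Lib.S20
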