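/-
S20 project, (D-fin) (helper2): local embedding data of `M_N` at an ARBITRARY base point `z ∈ ℍ`
(over the point `x = j(z)`), with the explicit formula on `R_N`.
-/
import Mathlib
import Fermat.Agent.Lib.S20.CFiniteM

set_option autoImplicit false

open Filter Topology UpperHalfPlane
open scoped Manifold MatrixGroups

namespace Fermat.Agent.Lib.S20

open Fermat.Agent.Lib.X0

theorem h2_jSub_mdiff (c : ℂ) : MDiff (fun τ : ℍ => jFun τ - c) :=
  h3_jFun_mdiff.sub mdifferentiable_const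

theorem h2_jSub_ne_zero (c : ℂ) : (fun τ : ℍ => jFun τ - c) ≠ 0 := by
  intro h
  obtain ⟨τ, hτ⟩ := h3_jFun_surjective (c + 1)
  have := congrFun h τ
  simp only [Pi.zero_apply] at this
  rw [hτ] at this
  simp at this

/-- The order of vanishing of `j - j(z)` at `z`. -/
noncomputable def h2_Mz (z : ℍ) : ℕ := (h2_taylorH (fun τ => jFun τ - jFun z) z).order.toNat

theorem h2_Mz_spec (z : ℍ) :
    (h2_taylorH (fun τ => jFun τ - jFun z) z).order = (h2_Mz z : ℕ∞) := by
  have hne : h2_taylorH (fun τ => jFun τ - jFun z) z ≠ 0 := by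
    intro h
    exact h2_jSub_ne_zero (jFun z) ((h2_taylorH_eq_zero_iff (h2_jSub_mdiff (jFun z)) z).mp h)
  have htop : (h2_taylorH (fun τ => jFun τ - jFun z) z).order ≠ ⊤ :=
    fun h => hne (PowerSeries.order_eq_top.mp h)
  exact (ENat.natCast_toNat htop).symm

theorem h2_Mz_pos (z : ℍ) : 0 < h2_Mz z := by
  have h1 : (1 : ℕ∞) ≤ (h2_taylorH (fun τ => jFun τ - jFun z) z).order := by
    apply PowerSeries.le_order
    intro i hi
    have hi0 : i = 0 := by
      have : (i : ℕ∞) < ((1 : ℕ) : ℕ∞) := by exact_mod_cast hi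
      have := Nat.cast_lt.mp this
      omega
    subst hi0
    rw [h2_taylorH_coeff_zero]
    simp
  rw [h2_Mz_spec] at h1
  have : (1 : ℕ) ≤ h2_Mz z := by exact_mod_cast h1
  exact this

/-- `M_z` is the analytic order of `j - j(z)` at `z`. -/
theorem h2_Mz_eq_analyticOrder (z : ℍ) :
    (h2_Mz z : ℕ∞) = analyticOrderAt (fun w => (jFun ∘ ofComplex) w - jFun z) (z : ℂ) := by
  rw [← h2_Mz_spec]
  unfold h2_taylorH
  rw [h2_order_taylorPS (h2_analyticAt_comp_ofComplex (h2_jSub_mdiff (jFun z)) z)]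
  rfl

/-- **(D-fin)**: the local embedding data of `M_N` at the base point `z`, over `x = j(z)`. -/
noncomputable def h2_localEmbAt (N : ℕ) [NeZero N] (z : ℍ) :
    LocalEmb (RingHom.id ℂ) (xM N) (xM N - algebraMap ℂ (MN N) (jFun z)) (QN N) (h2_Mz z) :=
  (h2_psiRN N).localEmb h2_levelOneData (jFun z) z (h2_Mz z) (h2_Mz_pos z) (h2_Mz_spec z)

theorem h2_localEmbAt_τ (N : ℕ) [NeZero N] (z : ℍ) (q : QN N) :
    (h2_localEmbAt N z).τ q = (h2_psiRN N).emb z q := rfl

/-- The explicit formula on `R_N`: the embedding attached to `g Γ₀(N)` expands `θ ∘ g⁻¹` at `z`. -/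
theorem h2_localEmbAt_τ_mk (N : ℕ) [NeZero N] (z : ℍ) (g : SL(2, ℤ)) (θ : RN N) :
    (h2_localEmbAt N z).τ (g : QN N) (algebraMap (RN N) (MN N) θ)
      = h2_laurentHom z (h2_holoSmul g⁻¹ θ.1) := by
  rw [h2_localEmbAt_τ, h2_PsiG.emb_algebraMap, h2_finExp_mk]
  rfl

/-- In particular for the trivial coset: the Taylor expansion of `θ` itself at `z`. -/
theorem h2_localEmbAt_τ_one (N : ℕ) [NeZero N] (z : ℍ) (θ : RN N) :
    (h2_localEmbAt N z).τ ((1 : SL(2, ℤ)) : QN N) (algebraMap (RN N) (MN N) θ)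
      = h2_laurentHom z θ.1 := by
  rw [h2_localEmbAt_τ_mk, inv_one, h2_holoSmul_one]

/-- Orders on `R_N`: natural number order of the Taylor series of `θ ∘ g⁻¹` at `z`. -/
theorem h2_localEmbAt_order (N : ℕ) [NeZero N] (z : ℍ) (g : SL(2, ℤ)) (θ : RN N) (hθ : θ ≠ 0) :
    ((h2_localEmbAt N z).τ (g : QN N) (algebraMap (RN N) (MN N) θ)).order
      = ((h2_taylorH (fun τ => θ.1.1 (g⁻¹ • τ)) z).order.toNat : ℤ) := by
  rw [h2_localEmbAt_τ_mk]
  have hne : h2_holoSmul g⁻¹ θ.1 ≠ 0 := by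
    intro h
    apply hθ
    apply Subtype.ext
    apply h2_holoSmul_injective g⁻¹
    rw [h]
    exact (map_zero (h2_holoSmul g⁻¹)).symm
  rw [h2_order_laurentHom z _ hne]
  rfl

end Fermat.Agent.Lib.S20
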