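/-
S20 project (helper2): helper3's contract `CFiniteConcrete N` (DictDefs.lean) from `h2_localEmbAt`.
-/
import Mathlib
import Fermat.Agent.Lib.S20.LocalEmbAt
import Fermat.Agent.Lib.S20.DictDefs

set_option autoImplicit false

namespace Fermat.Agent.Lib.S20

open Fermat.Agent.Lib.X0

/-- (MF-C, finite points, concrete form). -/
theorem h2_cFiniteConcrete (N : ℕ) [NeZero N] : CFiniteConcrete N :=
  fun τ₀ => ⟨h2_Mz τ₀, h2_localEmbAt N τ₀, fun g θ => h2_localEmbAt_τ_mk N τ₀ g θ⟩

end Fermat.Agent.Lib.S20
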