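import Mathlib
import Fermat.Agent.Lib.X0.Defs
import Fermat.Agent.Lib.X0.DegreeLower
import Fermat.Agent.Lib.S20.FormalRes

/-!
# Project S20, slab (RES-4): the trace is the sum of the local embeddings

Owner: helper1.

For a family `E : LocalEmb ι x t Q M` with `card Q = [F : k(x)]` (characteristic `0`), the
embeddings `E.τ q` are *all* the `k(x)`-embeddings of `F` into an algebraic closure of `K'((u))`;
hence `∑ q, E.τ q f = E.τ q₀ (Tr_{F/k(x)} f)`.
-/

set_option autoImplicit false

noncomputable section

namespace Fermat.Agent.Lib.S20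

open IntermediateField Fermat.Agent.Lib.X0

variable {k F K' : Type} [Field k] [CharZero k] [Field F] [Algebra k F] [Field K']

/-- **Trace = sum of the embeddings.** -/
theorem h1_sum_emb_eq_trace (ι : k →+* K') (x t : F) (hx : IsCoord k x) (Q : Type) [Fintype Q]
    (hQ : Fintype.card Q = coordDegree k x) (M : ℕ) (E : LocalEmb ι x t Q M) (q₀ : Q) (f : F) :
    ∑ q, E.τ q f = E.τ q₀ (algebraMap (adjoin k ({x} : Set F)) F
      (Algebra.trace (adjoin k ({x} : Set F)) F f)) := by
  classical
  have : FiniteDimensional (adjoin k ({x} : Set F)) F := hx.finite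
  have : CharZero (adjoin k ({x} : Set F)) :=
    charZero_of_injective_algebraMap (algebraMap k (adjoin k ({x} : Set F))).injective
  -- the algebraic closure of the Laurent series field
  let Ω := AlgebraicClosure (LaurentSeries K')
  let incl : LaurentSeries K' →+* Ω := algebraMap (LaurentSeries K') Ω
  have hincl : Function.Injective incl := incl.injective
  let alg : Algebra (adjoin k ({x} : Set F)) Ω :=
    (incl.comp ((E.τ q₀).comp (algebraMap (adjoin k ({x} : Set F)) F))).toAlgebra
  have halg : ∀ z : adjoin k ({x} : Set F),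
      algebraMap (adjoin k ({x} : Set F)) Ω z = incl (E.τ q₀ (z : F)) := fun z => rfl
  have hagree : ∀ q (z : adjoin k ({x} : Set F)), E.τ q (z : F) = E.τ q₀ (z : F) := by
    intro q z
    refine h8_agree_on_adjoin (k := k) (E.τ q) (E.τ q₀) x ?_ (E.agree q q₀) z z.2
    intro a
    rw [E.const, E.const]
  -- each `τ q` gives an algebra hom into `Ω`
  let e : Q → (F →ₐ[adjoin k ({x} : Set F)] Ω) := fun q =>
    { (incl.comp (E.τ q)) with
      commutes' := fun z => by
        show incl (E.τ q (z : F)) = _
        rw [hagree q z, halg] }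
  have he_apply : ∀ q y, e q y = incl (E.τ q y) := fun q y => rfl
  have he_inj : Function.Injective e := by
    intro q q' h
    apply E.inj
    ext1 y
    apply hincl
    rw [← he_apply, ← he_apply, h]
  have hcard : Fintype.card (F →ₐ[adjoin k ({x} : Set F)] Ω) = Fintype.card Q := by
    rw [AlgHom.card, hQ]
    rfl
  have he_bij : Function.Bijective e :=
    (Fintype.bijective_iff_injective_and_card e).mpr ⟨he_inj, hcard.symm⟩
  -- the trace formula in `Ω`
  have htr := trace_eq_sum_embeddings (K := adjoin k ({x} : Set F)) (L := F) Ω (x := f)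
  apply hincl
  have h1 : incl (E.τ q₀ (algebraMap (adjoin k ({x} : Set F)) F
      (Algebra.trace (adjoin k ({x} : Set F)) F f)))
      = algebraMap (adjoin k ({x} : Set F)) Ω (Algebra.trace (adjoin k ({x} : Set F)) F f) := rfl
  rw [map_sum, h1, htr]
  exact (Function.Bijective.sum_comp he_bij (fun σ => σ f))

/-- Corollary for residues: the sum of the local residue terms is the residue term of the trace. -/
theorem h1_sum_res_eq_res_trace (ι : k →+* K') (x t : F) (hx : IsCoord k x) (Q : Type) [Fintype Q]
    (hQ : Fintype.card Q = coordDegree k x) (M : ℕ) (E : LocalEmb ι x t Q M) (q₀ : Q) (f : F) :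
    ∑ q, h1_res (E.τ q f * h1_der (E.τ q x))
      = h1_res (E.τ q₀ (algebraMap (adjoin k ({x} : Set F)) F
          (Algebra.trace (adjoin k ({x} : Set F)) F f)) * h1_der (E.τ q₀ x)) := by
  rw [← h1_sum_emb_eq_trace ι x t hx Q hQ M E q₀ f, Finset.sum_mul, h1_res_sum]
  refine Finset.sum_congr rfl (fun q _ => ?_)
  rw [E.agree q q₀]

end Fermat.Agent.Lib.S20
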